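/-
S55 / GK layer, leaf GK-T6: capitulation of `n`-th roots of ideals in `L ∋ α`, `αⁿ = a`,
`Iⁿ = (a)`.
-/
import Mathlib
import Fermat.Agent.S14.DivClass

set_option autoImplicit false

namespace Fermat.Agent.S55

open NumberField IsDedekindDomain Fermat.Agent.S14
open scoped nonZeroDivisors

section Capitulation

variable {K L : Type*} [Field K] [NumberField K] [Field L] [NumberField L] [Algebra K L]

/-- extension of a principal fractional ideal -/
theorem gkc_extendedHom_spanSingleton (x : K) :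
    FractionalIdeal.extendedHom L (𝓞 L) (FractionalIdeal.spanSingleton (𝓞 K)⁰ x) =
      FractionalIdeal.spanSingleton (𝓞 L)⁰ (algebraMap K L x) := by
  rw [FractionalIdeal.extendedHom_spanSingleton]
  congr 1
  have h : (IsFractionRing.map (FaithfulSMul.algebraMap_injective (𝓞 K) (𝓞 L)) : K →+* L) =
      algebraMap K L := by
    apply IsLocalization.ringHom_ext (𝓞 K)⁰
    ext y
    simp [IsFractionRing.map]
    rfl
  exact congrArg (fun φ : K →+* L => φ x) h

/-- the group of nonzero fractional ideals of a number field is torsion-free -/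
theorem gkc_eq_of_pow_eq {n : ℕ} (hn : n ≠ 0) {J J' : FractionalIdeal (𝓞 L)⁰ L} (hJ : J ≠ 0)
    (hJ' : J' ≠ 0) (h : J ^ n = J' ^ n) : J = J' := by
  refine divCl_eq_of_count_eq L hJ hJ' fun w => ?_
  have h1 := congrArg (FractionalIdeal.count L w) h
  rw [FractionalIdeal.count_pow, FractionalIdeal.count_pow] at h1
  exact mul_left_cancel₀ (Nat.cast_ne_zero.mpr hn) h1

/-- CAPITULATION: if `Iⁿ = (a)` and `αⁿ = a` in `L` then `I 𝓞_L = (α)`. -/
theorem gk_capitulation {n : ℕ} (hn : n ≠ 0) (a : K) (α : L) (hα : α ^ n = algebraMap K L a)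
    (I : FractionalIdeal (nonZeroDivisors (𝓞 K)) K)
    (hI : I ^ n = FractionalIdeal.spanSingleton (nonZeroDivisors (𝓞 K)) a) :
    FractionalIdeal.extendedHom L (𝓞 L) I =
      FractionalIdeal.spanSingleton (nonZeroDivisors (𝓞 L)) α := by
  have hpow : (FractionalIdeal.extendedHom L (𝓞 L) I) ^ n =
      (FractionalIdeal.spanSingleton (nonZeroDivisors (𝓞 L)) α) ^ n := by
    rw [← map_pow, hI, gkc_extendedHom_spanSingleton, FractionalIdeal.spanSingleton_pow, hα]
  by_cases ha : a = 0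
  · subst ha
    have hI0 : I = 0 := by
      rw [FractionalIdeal.spanSingleton_zero] at hI
      exact pow_eq_zero_iff hn |>.mp hI
    have hα0 : α = 0 := by
      rw [map_zero] at hα
      exact pow_eq_zero_iff hn |>.mp hα
    rw [hI0, hα0, map_zero, FractionalIdeal.spanSingleton_zero]
  · have hI0 : I ≠ 0 := by
      rintro rfl
      rw [zero_pow hn] at hI
      exact ha (FractionalIdeal.spanSingleton_eq_zero_iff.mp hI.symm)
    have hα0 : α ≠ 0 := by
      rintro rfl
      rw [zero_pow hn] at hα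
      exact ha ((map_eq_zero (algebraMap K L)).mp hα.symm)
    exact gkc_eq_of_pow_eq hn ((FractionalIdeal.extendedHom_eq_zero_iff L (𝓞 L)).not.mpr hI0)
      (FractionalIdeal.spanSingleton_ne_zero_iff.mpr hα0) hpow

/-! ### counts of extended ideals -/

/-- the coefficient at `w` of a nonzero integral ideal `J` vanishes iff `J ⊄ w` -/
theorem gkc_count_coe_eq_zero_iff (J : Ideal (𝓞 L)) (hJ : J ≠ 0) (w : HeightOneSpectrum (𝓞 L)) :
    FractionalIdeal.count L w (J : FractionalIdeal (𝓞 L)⁰ L) = 0 ↔ ¬ J ≤ w.asIdeal := by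
  rw [FractionalIdeal.count_coe L w hJ, Nat.cast_eq_zero, ← not_iff_not, not_not,
    ← Ne, Associates.count_ne_zero_iff_dvd hJ w.irreducible, Ideal.dvd_iff_le]

theorem gkc_map_ne_bot (I : Ideal (𝓞 K)) (hI : I ≠ ⊥) :
    I.map (algebraMap (𝓞 K) (𝓞 L)) ≠ ⊥ := by
  rw [Ne, Ideal.map_eq_bot_iff_of_injective (FaithfulSMul.algebraMap_injective (𝓞 K) (𝓞 L))]
  exact hI

variable (K) in
/-- the multiplicity of `w` in `v 𝓞_L`, `v` the place below `w` (the ramification index) -/
noncomputable def gkcE (w : HeightOneSpectrum (𝓞 L)) : ℤ :=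
  FractionalIdeal.count L w
    ((((placeBelow K L w).asIdeal.map (algebraMap (𝓞 K) (𝓞 L)) : Ideal (𝓞 L))) :
      FractionalIdeal (𝓞 L)⁰ L)

/-- the prime case of `gkc_count_map` -/
theorem gkc_count_map_prime (u : HeightOneSpectrum (𝓞 K)) (w : HeightOneSpectrum (𝓞 L)) :
    FractionalIdeal.count L w
      (((u.asIdeal.map (algebraMap (𝓞 K) (𝓞 L)) : Ideal (𝓞 L))) : FractionalIdeal (𝓞 L)⁰ L) =
      gkcE K w * FractionalIdeal.count K (placeBelow K L w)
        ((u.asIdeal : Ideal (𝓞 K)) : FractionalIdeal (𝓞 K)⁰ K) := by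
  by_cases huv : u = placeBelow K L w
  · rw [huv, FractionalIdeal.count_self, mul_one]
    rfl
  · rw [FractionalIdeal.count_maximal_coprime K (placeBelow K L w) huv, mul_zero,
      gkc_count_coe_eq_zero_iff _ (gkc_map_ne_bot u.asIdeal u.ne_bot) w]
    intro hle
    have hle' : u.asIdeal ≤ w.asIdeal.comap (algebraMap (𝓞 K) (𝓞 L)) :=
      Ideal.map_le_iff_le_comap.mp hle
    have hne : w.asIdeal.comap (algebraMap (𝓞 K) (𝓞 L)) ≠ ⊤ :=
      (Ideal.comap_isPrime (algebraMap (𝓞 K) (𝓞 L)) w.asIdeal).ne_top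
    have heq : u.asIdeal = w.asIdeal.comap (algebraMap (𝓞 K) (𝓞 L)) :=
      u.isMaximal.eq_of_le hne hle'
    exact huv (HeightOneSpectrum.ext heq)

/-- `ord_w (I₀ 𝓞_L) = e(w) · ord_v I₀` for a nonzero integral ideal `I₀` -/
theorem gkc_count_map (I₀ : Ideal (𝓞 K)) (hI₀ : I₀ ≠ 0) (w : HeightOneSpectrum (𝓞 L)) :
    FractionalIdeal.count L w
      (((I₀.map (algebraMap (𝓞 K) (𝓞 L)) : Ideal (𝓞 L))) : FractionalIdeal (𝓞 L)⁰ L) =
      gkcE K w * FractionalIdeal.count K (placeBelow K L w)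
        ((I₀ : Ideal (𝓞 K)) : FractionalIdeal (𝓞 K)⁰ K) := by
  induction I₀ using UniqueFactorizationMonoid.induction_on_prime with
  | h₁ => exact absurd rfl hI₀
  | h₂ I hu =>
    rw [Ideal.isUnit_iff] at hu
    subst hu
    rw [Ideal.map_top, FractionalIdeal.coeIdeal_top, FractionalIdeal.coeIdeal_top,
      FractionalIdeal.count_one, FractionalIdeal.count_one, mul_zero]
  | h₃ J P hJ hP ih =>
    have hP0 : P ≠ ⊥ := hP.ne_zero
    have hPp : P.IsPrime := Ideal.isPrime_of_prime hP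
    let u : HeightOneSpectrum (𝓞 K) := ⟨P, hPp, hP0⟩
    have hJ' : ((J : Ideal (𝓞 K)) : FractionalIdeal (𝓞 K)⁰ K) ≠ 0 :=
      FractionalIdeal.coeIdeal_ne_zero.mpr hJ
    have hP' : ((P : Ideal (𝓞 K)) : FractionalIdeal (𝓞 K)⁰ K) ≠ 0 :=
      FractionalIdeal.coeIdeal_ne_zero.mpr hP0
    have hmJ : (((J.map (algebraMap (𝓞 K) (𝓞 L)) : Ideal (𝓞 L))) :
        FractionalIdeal (𝓞 L)⁰ L) ≠ 0 :=
      FractionalIdeal.coeIdeal_ne_zero.mpr (gkc_map_ne_bot J hJ)
    have hmP : (((P.map (algebraMap (𝓞 K) (𝓞 L)) : Ideal (𝓞 L))) :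
        FractionalIdeal (𝓞 L)⁰ L) ≠ 0 :=
      FractionalIdeal.coeIdeal_ne_zero.mpr (gkc_map_ne_bot P hP0)
    rw [Ideal.map_mul, FractionalIdeal.coeIdeal_mul, FractionalIdeal.coeIdeal_mul,
      FractionalIdeal.count_mul L w hmP hmJ, FractionalIdeal.count_mul K _ hP' hJ', ih hJ,
      mul_add]
    congr 1
    exact gkc_count_map_prime u w

/-- `ord_w (I 𝓞_L) = e(w) · ord_v I` for a nonzero fractional ideal `I` -/
theorem gkc_count_extendedHom (I : FractionalIdeal (𝓞 K)⁰ K) (hI : I ≠ 0)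
    (w : HeightOneSpectrum (𝓞 L)) :
    FractionalIdeal.count L w (FractionalIdeal.extendedHom L (𝓞 L) I) =
      gkcE K w * FractionalIdeal.count K (placeBelow K L w) I := by
  have hden : (I.den : 𝓞 K) ≠ 0 := nonZeroDivisors.coe_ne_zero I.den
  have hnum : I.num ≠ 0 := fun h => hI (FractionalIdeal.num_eq_zero_iff.mp h)
  have hspan : (Ideal.span {(I.den : 𝓞 K)} : Ideal (𝓞 K)) ≠ 0 := by simp [hden]
  have hD : ((Ideal.span {(I.den : 𝓞 K)} : Ideal (𝓞 K)) : FractionalIdeal (𝓞 K)⁰ K) ≠ 0 :=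
    FractionalIdeal.coeIdeal_ne_zero.mpr hspan
  have key : ((Ideal.span {(I.den : 𝓞 K)} : Ideal (𝓞 K)) : FractionalIdeal (𝓞 K)⁰ K) * I =
      (I.num : FractionalIdeal (𝓞 K)⁰ K) := by
    rw [FractionalIdeal.coeIdeal_span_singleton]
    exact FractionalIdeal.den_mul_self_eq_num' (𝓞 K)⁰ K I
  have h1 := congrArg (FractionalIdeal.count K (placeBelow K L w)) key
  rw [FractionalIdeal.count_mul K _ hD hI] at h1
  have key2 := congrArg (FractionalIdeal.extendedHom L (𝓞 L)) key
  rw [map_mul, FractionalIdeal.extendedHom_coeIdeal_eq_map,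
    FractionalIdeal.extendedHom_coeIdeal_eq_map] at key2
  have h2 := congrArg (FractionalIdeal.count L w) key2
  rw [FractionalIdeal.count_mul L w
    (FractionalIdeal.coeIdeal_ne_zero.mpr (gkc_map_ne_bot _ hspan))
    ((FractionalIdeal.extendedHom_eq_zero_iff L (𝓞 L)).not.mpr hI),
    gkc_count_map _ hspan w, gkc_count_map _ hnum w, ← h1, mul_add] at h2
  exact add_left_cancel h2

/-- `T`-version: if `n · ord_v(I) = ord_v(a)` for all `v ∉ T` then `ord_w(I 𝓞_L) = ord_w(α)` for all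
places `w` of `L` not above `T`. -/
theorem gk_capitulation_away {n : ℕ} (hn : n ≠ 0) (a : K) (ha : a ≠ 0) (α : L)
    (hα : α ^ n = algebraMap K L a)
    (I : FractionalIdeal (nonZeroDivisors (𝓞 K)) K) (hI0 : I ≠ 0)
    (T : Set (HeightOneSpectrum (𝓞 K)))
    (hI : ∀ v : HeightOneSpectrum (𝓞 K), v ∉ T →
      (n : ℤ) * FractionalIdeal.count K v I =
        FractionalIdeal.count K v (FractionalIdeal.spanSingleton (nonZeroDivisors (𝓞 K)) a))
    (w : HeightOneSpectrum (𝓞 L)) (hw : placeBelow K L w ∉ T) :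
    FractionalIdeal.count L w (FractionalIdeal.extendedHom L (𝓞 L) I) =
      FractionalIdeal.count L w (FractionalIdeal.spanSingleton (nonZeroDivisors (𝓞 L)) α) := by
  have hsa : FractionalIdeal.spanSingleton (𝓞 K)⁰ a ≠ 0 :=
    FractionalIdeal.spanSingleton_ne_zero_iff.mpr ha
  have h1 : (n : ℤ) * FractionalIdeal.count L w (FractionalIdeal.extendedHom L (𝓞 L) I) =
      (n : ℤ) * FractionalIdeal.count L w (FractionalIdeal.spanSingleton (𝓞 L)⁰ α) := by
    calc (n : ℤ) * FractionalIdeal.count L w (FractionalIdeal.extendedHom L (𝓞 L) I)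
        = gkcE K w * ((n : ℤ) * FractionalIdeal.count K (placeBelow K L w) I) := by
          rw [gkc_count_extendedHom I hI0 w]; ring
      _ = gkcE K w * FractionalIdeal.count K (placeBelow K L w)
            (FractionalIdeal.spanSingleton (𝓞 K)⁰ a) := by rw [hI _ hw]
      _ = FractionalIdeal.count L w (FractionalIdeal.extendedHom L (𝓞 L)
            (FractionalIdeal.spanSingleton (𝓞 K)⁰ a)) := (gkc_count_extendedHom _ hsa w).symm
      _ = FractionalIdeal.count L w ((FractionalIdeal.spanSingleton (𝓞 L)⁰ α) ^ n) := by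
          rw [gkc_extendedHom_spanSingleton, FractionalIdeal.spanSingleton_pow, hα]
      _ = (n : ℤ) * FractionalIdeal.count L w (FractionalIdeal.spanSingleton (𝓞 L)⁰ α) :=
          FractionalIdeal.count_pow L w n _
  exact mul_left_cancel₀ (Nat.cast_ne_zero.mpr hn) h1

end Capitulation

end Fermat.Agent.S55
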