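/-
S55 / GK layer (global Kummer theory, `H¹`-level of Poitou-Tate): definitions (sorry-free).

Setting: `K : Type` a number field, `p` a prime, `ζ : K` (a primitive `p`-th root of unity in the
theorems), `T` a set of finite places of `K`.

* `GkEmb K v`          : a local embedding datum at the finite place `v` (a rational prime `q`, a
                         `q`-adic embedding `K →+* PadicAlgCl q` inducing `v`); a *system* is
                         `Φ : ∀ v, GkEmb K v`;
* `gkFld Φ v`          : the local field `K_v = lgField q i` (helper2 LG, helper22 local field);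
* `gkLoc Φ v`          : `Kˣ →* K_vˣ`;
* `gkSymL Φ p ζ v x y` : the local Kummer (Hilbert) symbol `(x, y)_v ∈ ZMod p` (helper22 `lfSymbol`);
* `gkSym Φ p ζ v a b`  : the same on global elements;
* `gkV K T p`          : `V_T = {b ∈ Kˣ | p ∣ ord_v b for all v ∉ T}`;
* `gkDelta Φ T p`      : `Δ_T = {b ∈ V_T | b is a p-th power in K_v for all v ∈ T}`;
* `gkDivHom K`         : `Additive Kˣ →+ S14.Div K` (S14 divisors);
* `gkDivOn K T`        : divisors supported in `T`;
* `gkClSub K T p`      : the subgroup of `Div K` with quotient `Cl_T(K)/p`;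
* `gkUnif K v`         : a chosen global uniformizer at `v`;
* `gkChi Φ p ζ v b`    : `(π_v, b)_v`, the "Frobenius character value" of `b` at `v`;
* `gkArtin Φ p ζ T b`  : `S14.Div K →+ ZMod p`, `D ↦ ∑_{v ∉ T} D(v) · (π_v, b)_v`.
-/
import Mathlib
import Fermat.Agent.S14.Defs
import Fermat.Agent.S14.FirstIneq
import Fermat.Agent.S55.LG.Defs
import Fermat.Agent.S55.LocalKummerSpec

set_option autoImplicit false

noncomputable section

namespace Fermat.Agent.S55

open NumberField IsDedekindDomain Fermat.Agent.S14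

/-! ## Local embedding data -/

/-- A local embedding datum at the finite place `v` of the number field `K`: a rational prime `q`
and a `q`-adic embedding of `K` inducing the place `v`. -/
structure GkEmb (K : Type) [Field K] [NumberField K] (v : HeightOneSpectrum (𝓞 K)) where
  /-- the residue characteristic -/
  q : ℕ
  /-- it is a prime -/
  hq : Fact q.Prime
  /-- the `q`-adic embedding -/
  emb : K →+* PadicAlgCl q
  /-- it induces `v` -/
  place : @lgPlace q hq K _ _ emb = v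

attribute [instance] GkEmb.hq

section Local

variable {K : Type} [Field K] [NumberField K] (Φ : ∀ v : HeightOneSpectrum (𝓞 K), GkEmb K v)

/-- The local field `K_v` attached to the system `Φ`. -/
abbrev gkFld (v : HeightOneSpectrum (𝓞 K)) : Type :=
  lgField (Φ v).q (Φ v).emb

/-- The localisation map `K →+* K_v`. -/
abbrev gkEmbR (v : HeightOneSpectrum (𝓞 K)) : K →+* gkFld Φ v :=
  lgEmb (Φ v).q (Φ v).emb

/-- The localisation map `Kˣ →* K_vˣ`. -/
def gkLoc (v : HeightOneSpectrum (𝓞 K)) : Kˣ →* (gkFld Φ v)ˣ :=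
  Units.map (gkEmbR Φ v : K →* gkFld Φ v)

@[simp] theorem gkLoc_coe (v : HeightOneSpectrum (𝓞 K)) (a : Kˣ) :
    ((gkLoc Φ v a : (gkFld Φ v)ˣ) : gkFld Φ v) = gkEmbR Φ v (a : K) := rfl

/-- The local Kummer symbol `(x, y)_v ∈ ZMod p` (with respect to the image of `ζ`). -/
def gkSymL (p : ℕ) [NeZero p] (ζ : K) (v : HeightOneSpectrum (𝓞 K)) (x y : (gkFld Φ v)ˣ) : ZMod p :=
  lfSymbol (Φ v).q (gkFld Φ v) p (gkEmbR Φ v ζ) x y

/-- The local Kummer symbol of two global elements. -/
def gkSym (p : ℕ) [NeZero p] (ζ : K) (v : HeightOneSpectrum (𝓞 K)) (a b : Kˣ) : ZMod p :=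
  gkSymL Φ p ζ v (gkLoc Φ v a) (gkLoc Φ v b)

end Local

/-! ## The groups `V_T`, `Δ_T` -/

section Global

variable (K : Type) [Field K] [NumberField K]

/-- `V_T = {b ∈ Kˣ | p ∣ ord_v(b) for all v ∉ T}`. -/
def gkV (T : Set (HeightOneSpectrum (𝓞 K))) (p : ℕ) : Subgroup Kˣ where
  carrier := {b | ∀ v : HeightOneSpectrum (𝓞 K), v ∉ T →
    (p : ℤ) ∣ WithZero.log (v.valuation K (b : K))}
  one_mem' := fun v _ => by
    simp
  mul_mem' := fun {a b} ha hb v hv => by
    have ha0 : v.valuation K (a : K) ≠ 0 := (Valuation.ne_zero_iff _).mpr a.ne_zero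
    have hb0 : v.valuation K (b : K) ≠ 0 := (Valuation.ne_zero_iff _).mpr b.ne_zero
    rw [Units.val_mul, map_mul, WithZero.log_mul ha0 hb0]
    exact dvd_add (ha v hv) (hb v hv)
  inv_mem' := fun {a} ha v hv => by
    rw [Units.val_inv_eq_inv_val, map_inv₀, WithZero.log_inv]
    exact (dvd_neg).mpr (ha v hv)

variable {K}

theorem mem_gkV_iff {T : Set (HeightOneSpectrum (𝓞 K))} {p : ℕ} {b : Kˣ} :
    b ∈ gkV K T p ↔ ∀ v : HeightOneSpectrum (𝓞 K), v ∉ T →
      (p : ℤ) ∣ WithZero.log (v.valuation K (b : K)) := Iff.rfl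

/-- `Δ_T = {b ∈ V_T | b is a p-th power in K_v for every v ∈ T}`. -/
def gkDelta (Φ : ∀ v : HeightOneSpectrum (𝓞 K), GkEmb K v)
    (T : Set (HeightOneSpectrum (𝓞 K))) (p : ℕ) : Subgroup Kˣ :=
  gkV K T p ⊓ ⨅ v ∈ T, (powMonoidHom p : (gkFld Φ v)ˣ →* (gkFld Φ v)ˣ).range.comap (gkLoc Φ v)

theorem mem_gkDelta_iff {Φ : ∀ v : HeightOneSpectrum (𝓞 K), GkEmb K v}
    {T : Set (HeightOneSpectrum (𝓞 K))} {p : ℕ} {b : Kˣ} :
    b ∈ gkDelta Φ T p ↔ b ∈ gkV K T p ∧ ∀ v ∈ T, ∃ c : (gkFld Φ v)ˣ, c ^ p = gkLoc Φ v b := by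
  simp only [gkDelta, Subgroup.mem_inf, Subgroup.mem_iInf, Subgroup.mem_comap,
    MonoidHom.mem_range, powMonoidHom_apply]

/-! ## Divisors and `Cl_T / p` -/

variable (K)

/-- The principal divisor map as a homomorphism `Additive Kˣ →+ S14.Div K`. -/
def gkDivHom : Additive Kˣ →+ S14.Div K where
  toFun a := divOf K ((Additive.toMul a : Kˣ) : K)
  map_zero' := by
    show divOf K (((1 : Kˣ) : Kˣ) : K) = 0
    rw [Units.val_one]
    exact fi_divOf_one K
  map_add' a b := by
    show divOf K (((Additive.toMul a * Additive.toMul b : Kˣ)) : K) = _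
    rw [Units.val_mul]
    exact fi_divOf_mul K (Additive.toMul a).ne_zero (Additive.toMul b).ne_zero

@[simp] theorem gkDivHom_apply (a : Kˣ) : gkDivHom K (Additive.ofMul a) = divOf K (a : K) := rfl

/-- Divisors supported in `T`. -/
def gkDivOn (T : Set (HeightOneSpectrum (𝓞 K))) : AddSubgroup (S14.Div K) where
  carrier := {D | ∀ v : HeightOneSpectrum (𝓞 K), v ∉ T → D v = 0}
  zero_mem' := fun _ _ => rfl
  add_mem' := fun {D E} hD hE v hv => by
    rw [Finsupp.add_apply, hD v hv, hE v hv, add_zero]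
  neg_mem' := fun {D} hD v hv => by
    rw [Finsupp.neg_apply, hD v hv, neg_zero]

/-- The subgroup of `Div K` generated by the principal divisors, the divisors supported in `T` and
the multiples of `p`; the quotient is `Cl_T(K) / p`. -/
def gkClSub (T : Set (HeightOneSpectrum (𝓞 K))) (p : ℕ) : AddSubgroup (S14.Div K) :=
  (gkDivHom K).range ⊔ gkDivOn K T ⊔ (zsmulAddGroupHom (p : ℤ) : S14.Div K →+ S14.Div K).range

/-! ## Uniformizers and the Artin character of `b ∈ Δ_T` -/

theorem gk_exists_unif (v : HeightOneSpectrum (𝓞 K)) :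
    ∃ π : Kˣ, v.valuation K (π : K) = WithZero.exp (-1 : ℤ) := by
  obtain ⟨π, hπ⟩ := v.valuation_exists_uniformizer K
  have hπ0 : π ≠ 0 := by
    intro h0
    rw [h0, map_zero] at hπ
    exact WithZero.exp_ne_zero hπ.symm
  exact ⟨Units.mk0 π hπ0, hπ⟩

/-- A chosen global uniformizer at `v`. -/
def gkUnif (v : HeightOneSpectrum (𝓞 K)) : Kˣ := (gk_exists_unif K v).choose

theorem gkUnif_spec (v : HeightOneSpectrum (𝓞 K)) :
    v.valuation K ((gkUnif K v : Kˣ) : K) = WithZero.exp (-1 : ℤ) :=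
  (gk_exists_unif K v).choose_spec

variable {K}

/-- `(π_v, b)_v`: the value at `v` of the Kummer character of `b` (meaningful when
`K_v(b^{1/p})/K_v` is unramified). -/
def gkChi (Φ : ∀ v : HeightOneSpectrum (𝓞 K), GkEmb K v) (p : ℕ) [NeZero p] (ζ : K)
    (v : HeightOneSpectrum (𝓞 K)) (b : Kˣ) : ZMod p :=
  gkSym Φ p ζ v (gkUnif K v) b

open Classical in
/-- The Artin character of `b` on divisors prime to `T`:
`D ↦ ∑_{v ∉ T} D(v) · (π_v, b)_v`. -/
def gkArtin (Φ : ∀ v : HeightOneSpectrum (𝓞 K), GkEmb K v) (p : ℕ) [NeZero p] (ζ : K)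
    (T : Set (HeightOneSpectrum (𝓞 K))) (b : Kˣ) : S14.Div K →+ ZMod p :=
  Finsupp.liftAddHom fun v =>
    if v ∈ T then (0 : ℤ →+ ZMod p)
    else (AddMonoidHom.mulRight (gkChi Φ p ζ v b)).comp (Int.castAddHom (ZMod p))

open Classical in
theorem gkArtin_single (Φ : ∀ v : HeightOneSpectrum (𝓞 K), GkEmb K v) (p : ℕ) [NeZero p] (ζ : K)
    (T : Set (HeightOneSpectrum (𝓞 K))) (b : Kˣ) (v : HeightOneSpectrum (𝓞 K)) (n : ℤ) :
    gkArtin Φ p ζ T b (Finsupp.single v n) =
      if v ∈ T then 0 else (n : ZMod p) * gkChi Φ p ζ v b := by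
  unfold gkArtin
  rw [Finsupp.liftAddHom_apply_single]
  split_ifs <;> simp

end Global

end Fermat.Agent.S55
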