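/-
S55 / GK layer, leaf GK-A2: the order of `P¹ = ∏_{v ∈ T} K_vˣ/p`.
-/
import Fermat.Agent.S55.GK.Defs
import Fermat.Agent.S55.LG.ExistsSpec

set_option autoImplicit false

noncomputable section

namespace Fermat.Agent.S55

open NumberField IsDedekindDomain Fermat.Agent.S14

section CardP

variable {K : Type} [Field K] [NumberField K] (Φ : ∀ v : HeightOneSpectrum (𝓞 K), GkEmb K v)
  (p : ℕ) [Fact p.Prime]

/-- the residue characteristic of a local embedding datum lies in the place -/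
theorem gkp_natCast_q_mem {v : HeightOneSpectrum (𝓞 K)} (E : GkEmb K v) :
    ((E.q : ℕ) : 𝓞 K) ∈ v.asIdeal := by
  have h := natCast_mem_lgIdeal E.q E.emb
  rw [← lgPlace_asIdeal, E.place] at h
  exact h

omit [NumberField K] [Fact p.Prime] in
/-- two distinct rational primes cannot lie in the same prime ideal -/
theorem gkp_eq_of_mem {q : ℕ} (hq : q.Prime) (hp : p.Prime) (v : HeightOneSpectrum (𝓞 K))
    (h1 : ((q : ℕ) : 𝓞 K) ∈ v.asIdeal) (h2 : ((p : ℕ) : 𝓞 K) ∈ v.asIdeal) : q = p := by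
  by_contra hne
  have hcop : Nat.Coprime q p := (Nat.coprime_primes hq hp).mpr hne
  have hbez : (q : ℤ) * Nat.gcdA q p + (p : ℤ) * Nat.gcdB q p = 1 := by
    have := Nat.gcd_eq_gcd_ab q p
    rw [hcop.gcd_eq_one] at this
    exact_mod_cast this.symm
  have hone : (1 : 𝓞 K) ∈ v.asIdeal := by
    have h3 : ((q : ℕ) : 𝓞 K) * ((Nat.gcdA q p : ℤ) : 𝓞 K) +
        ((p : ℕ) : 𝓞 K) * ((Nat.gcdB q p : ℤ) : 𝓞 K) ∈ v.asIdeal :=
      v.asIdeal.add_mem (v.asIdeal.mul_mem_right _ h1) (v.asIdeal.mul_mem_right _ h2)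
    have h4 : ((q : ℕ) : 𝓞 K) * ((Nat.gcdA q p : ℤ) : 𝓞 K) +
        ((p : ℕ) : 𝓞 K) * ((Nat.gcdB q p : ℤ) : 𝓞 K) = 1 := by
      have := congrArg (fun z : ℤ => (z : 𝓞 K)) hbez
      simp only [Int.cast_add, Int.cast_mul, Int.cast_natCast, Int.cast_one] at this
      exact this
    rw [h4] at h3
    exact h3
  exact v.isPrime.ne_top ((Ideal.eq_top_iff_one _).mpr hone)

/-- The residue characteristic of `Φ v` is `p` iff `v` lies above `p`. -/
theorem gkEmb_q_eq_iff (v : HeightOneSpectrum (𝓞 K)) :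
    (Φ v).q = p ↔ ((p : ℕ) : 𝓞 K) ∈ v.asIdeal := by
  constructor
  · intro h
    have h1 := gkp_natCast_q_mem (Φ v)
    rw [h] at h1
    exact h1
  · intro h
    exact gkp_eq_of_mem p (Φ v).hq.out (Fact.out) v (gkp_natCast_q_mem (Φ v)) h

/-- the local degree depends only on the place -/
theorem gkp_finrank_eq_of_lgPlace_eq (q : ℕ) [Fact q.Prime] (i i' : K →+* PadicAlgCl q)
    (h : lgPlace q i = lgPlace q i') :
    Module.finrank ℚ_[q] (lgField q i) = Module.finrank ℚ_[q] (lgField q i') := by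
  rw [← lg_card_fiber q i, ← lg_card_fiber q i', h]

/-- the local degree of a datum above `p` is that of the chosen embedding -/
theorem gkp_finrank_eq {v : HeightOneSpectrum (𝓞 K)} (E : GkEmb K v)
    (hv : ((p : ℕ) : 𝓞 K) ∈ v.asIdeal) (hq : E.q = p) :
    Module.finrank ℚ_[E.q] (lgField E.q E.emb) =
      Module.finrank ℚ_[p] (lgField p (lgEmbOf p (⟨v, hv⟩ : LgPlacesOver p K))) := by
  obtain ⟨q, hq', emb, place⟩ := E
  simp only at hq
  subst hq
  apply gkp_finrank_eq_of_lgPlace_eq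
  rw [place, lgPlace_lgEmbOf]

/-- the index of `p`-th powers in `K_vˣ` for an arbitrary local datum -/
theorem gkp_index_pow {ζ : K} (hζ : IsPrimitiveRoot ζ p) {v : HeightOneSpectrum (𝓞 K)}
    (E : GkEmb K v) :
    (powMonoidHom p : (lgField E.q E.emb)ˣ →* (lgField E.q E.emb)ˣ).range.index =
      p ^ (2 + if E.q = p then Module.finrank ℚ_[E.q] (lgField E.q E.emb) else 0) := by
  have hζ' : IsPrimitiveRoot (lgEmb E.q E.emb ζ) p :=
    hζ.map_of_injective (lgEmb_injective E.q E.emb)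
  by_cases hq : E.q = p
  · rw [if_pos hq]
    exact lf_index_pow_of_eq E.q (lgField E.q E.emb) p (lgEmb E.q E.emb ζ) hζ' hq
  · rw [if_neg hq, add_zero]
    exact lf_index_pow_of_ne E.q (lgField E.q E.emb) p (lgEmb E.q E.emb ζ) hζ' hq

/-- `∏_{v∈T} [K_vˣ : K_vˣᵖ] = p^(2|T| + [K:ℚ])` when `T ⊇ {v ∣ p}`. -/
theorem gk_prod_index_pow_loc {ζ : K} (hζ : IsPrimitiveRoot ζ p)
    (T : Finset (HeightOneSpectrum (𝓞 K)))
    (hT : ∀ v : HeightOneSpectrum (𝓞 K), ((p : ℕ) : 𝓞 K) ∈ v.asIdeal → v ∈ T) :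
    ∏ v ∈ T, (powMonoidHom p : (gkFld Φ v)ˣ →* (gkFld Φ v)ˣ).range.index =
      p ^ (2 * T.card + Module.finrank ℚ K) := by
  classical
  let _ : Fintype (LgPlacesOver p K) := Fintype.ofFinite _
  -- the local degree above `p`, as a function of the place
  set F : HeightOneSpectrum (𝓞 K) → ℕ := fun v =>
    if h : ((p : ℕ) : 𝓞 K) ∈ v.asIdeal then
      Module.finrank ℚ_[p] (lgField p (lgEmbOf p (⟨v, h⟩ : LgPlacesOver p K))) else 0 with hF
  have h1 : ∀ v : HeightOneSpectrum (𝓞 K),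
      (powMonoidHom p : (gkFld Φ v)ˣ →* (gkFld Φ v)ˣ).range.index = p ^ (2 + F v) := by
    intro v
    rw [gkp_index_pow p hζ (Φ v)]
    congr 2
    by_cases hq : (Φ v).q = p
    · have hv : ((p : ℕ) : 𝓞 K) ∈ v.asIdeal := (gkEmb_q_eq_iff Φ p v).mp hq
      rw [if_pos hq, hF]
      simp only [dif_pos hv]
      exact gkp_finrank_eq p (Φ v) hv hq
    · have hv : ¬ ((p : ℕ) : 𝓞 K) ∈ v.asIdeal := fun h => hq ((gkEmb_q_eq_iff Φ p v).mpr h)
      rw [if_neg hq, hF]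
      simp only [dif_neg hv]
  rw [Finset.prod_congr rfl (fun v _ => h1 v), Finset.prod_pow_eq_pow_sum, Finset.sum_add_distrib,
    Finset.sum_const, smul_eq_mul, mul_comm T.card 2]
  congr 2
  -- `∑_{v ∈ T} F v = ∑_{v ∣ p} [K_v : ℚ_p] = [K : ℚ]`
  rw [← lg_sum_finrank p (K := K)]
  have h2 : ∑ v ∈ T, F v =
      ∑ v ∈ T.filter (fun v => ((p : ℕ) : 𝓞 K) ∈ v.asIdeal), F v := by
    rw [Finset.sum_filter]
    apply Finset.sum_congr rfl
    intro v _
    by_cases hv : ((p : ℕ) : 𝓞 K) ∈ v.asIdeal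
    · rw [if_pos hv]
    · rw [if_neg hv, hF]
      simp only [dif_neg hv]
  rw [h2]
  have h3 : ∀ v : HeightOneSpectrum (𝓞 K),
      v ∈ T.filter (fun v => ((p : ℕ) : 𝓞 K) ∈ v.asIdeal) ↔ ((p : ℕ) : 𝓞 K) ∈ v.asIdeal := by
    intro v
    rw [Finset.mem_filter]
    exact ⟨fun h => h.2, fun h => ⟨hT v h, h⟩⟩
  rw [Finset.sum_subtype _ h3]
  apply Finset.sum_congr rfl
  intro w _
  rw [hF]
  simp only [dif_pos w.2]

end CardP

end Fermat.Agent.S55
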