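/-
S55 / GK-A1: the order of `V_T / Kˣᵖ`.

`[V_T : Kˣᵖ] = [E_T : E_Tᵖ] · |Cl_T[p]| = p^(r + |T| + 1) · |Cl_T/p|`.

Route: everything is expressed with indices of subgroups.  With `Q = Div K ⧸ gkDivOn K T`
(`p`-torsion free) and `d : Additive Kˣ →+ Q` the class of the principal divisor we have
`E_T = ker d`, `V_T = d⁻¹(p Q)`, `Kˣᵖ = p (Additive Kˣ)`, and an abstract index computation gives
`[d⁻¹(pQ) : ker d + pG] = [Q : d(G) + pQ]` as soon as `d(G)` has finite index in `Q`.
-/
import Mathlib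
import Fermat.Agent.S14.Defs
import Fermat.Agent.S14.FirstIneq
import Fermat.Agent.S14.Approx
import Fermat.Agent.S14.DivClass
import Fermat.Agent.S55.SUnits
import Fermat.Agent.S55.GK.Defs

set_option autoImplicit false

noncomputable section

namespace Fermat.Agent.S55

open NumberField IsDedekindDomain Fermat.Agent.S14

/-! ## Abstract index computations -/

section Abstract

variable {G Q : Type*} [AddCommGroup G] [AddCommGroup Q]

/-- First isomorphism theorem for an endomorphism `f` of `Q ⧸ B`, in index form: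
`|ker| = |coker|`. -/
theorem gkv_relIndex_comap_eq (f : Q →+ Q) (B : AddSubgroup Q) (hB : B ≤ B.comap f)
    (hfin : B.index ≠ 0) : B.relIndex (B.comap f) = (B ⊔ f.range).index := by
  have h1 : B.relIndex (B.comap f) * (B.comap f).index = B.index :=
    AddSubgroup.relIndex_mul_index hB
  have h2 : B.relIndex (B ⊔ f.range) * (B ⊔ f.range).index = B.index :=
    AddSubgroup.relIndex_mul_index le_sup_left
  rw [AddSubgroup.index_comap] at h1
  rw [AddSubgroup.relIndex_sup_left] at h2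
  have h3 : B.relIndex f.range ≠ 0 := by
    intro h0
    rw [h0, zero_mul] at h2
    exact hfin h2.symm
  have h4 : B.relIndex f.range * B.relIndex (B.comap f) =
      B.relIndex f.range * (B ⊔ f.range).index := by
    rw [h2, mul_comm, h1]
  exact Nat.eq_of_mul_eq_mul_left (Nat.pos_of_ne_zero h3) h4

/-- The abstract form of `[V_T : E_T Kˣᵖ] = |Cl_T / p|`. -/
theorem gkv_relIndex_abstract (d : G →+ Q) (n : ℤ)
    (hinj : Function.Injective (zsmulAddGroupHom n : Q →+ Q)) (hfin : d.range.index ≠ 0) :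
    (d.ker ⊔ (zsmulAddGroupHom n : G →+ G).range).relIndex
        ((zsmulAddGroupHom n : Q →+ Q).range.comap d) =
      (d.range ⊔ (zsmulAddGroupHom n : Q →+ Q).range).index := by
  set f : Q →+ Q := zsmulAddGroupHom n with hf
  have hker : d.ker ⊔ (zsmulAddGroupHom n : G →+ G).range = (d.range.map f).comap d := by
    ext x
    rw [AddSubgroup.mem_sup, AddSubgroup.mem_comap, AddSubgroup.mem_map]
    constructor
    · rintro ⟨y, hy, _, ⟨g, rfl⟩, rfl⟩
      refine ⟨d g, ⟨g, rfl⟩, ?_⟩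
      rw [map_add, AddMonoidHom.mem_ker.mp hy, zero_add]
      simp [hf]
    · rintro ⟨_, ⟨g, rfl⟩, hg⟩
      refine ⟨x - n • g, ?_, n • g, ⟨g, rfl⟩, by abel⟩
      rw [AddMonoidHom.mem_ker, map_sub, ← hg]
      simp [hf]
  have hle : d.range ≤ d.range.comap f := by
    rintro _ ⟨g, rfl⟩
    rw [AddSubgroup.mem_comap]
    exact ⟨n • g, by simp [hf]⟩
  rw [hker, AddSubgroup.relIndex_comap, AddSubgroup.map_comap_eq, inf_comm,
    ← AddSubgroup.map_comap_eq f d.range, AddSubgroup.relIndex_map_map_of_injective _ _ hinj,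
    gkv_relIndex_comap_eq f d.range hle hfin]

end Abstract

/-! ## The concrete situation -/

section CardV

variable (K : Type) [Field K] [NumberField K] (p : ℕ) [Fact p.Prime]

/-- The principal divisors have finite index in `Div K` (finiteness of the class group). -/
theorem gkv_divHom_range_index_ne_zero : (gkDivHom K).range.index ≠ 0 := by
  have hker : (gkDivHom K).range = (divClass K).ker := by
    ext D
    rw [AddMonoidHom.mem_ker]
    constructor
    · rintro ⟨a, rfl⟩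
      exact divClass_divOf K _ (Additive.toMul a).ne_zero
    · intro hD
      obtain ⟨x, hx0, rfl⟩ := exists_eq_divOf_of_divClass_eq_zero K D hD
      exact ⟨Additive.ofMul (Units.mk0 x hx0), rfl⟩
  rw [hker, AddSubgroup.index_ker]
  have : Finite (Additive (ClassGroup (𝓞 K))) :=
    inferInstanceAs (Finite (ClassGroup (𝓞 K)))
  exact Nat.card_pos.ne'

/-- `Cl_T(K)/p` is finite. -/
theorem gkClSub_index_ne_zero (T : Set (HeightOneSpectrum (𝓞 K))) :
    (gkClSub K T p).index ≠ 0 := by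
  have hle : (gkDivHom K).range ≤ gkClSub K T p :=
    le_sup_of_le_left le_sup_left
  exact ne_zero_of_dvd_ne_zero (gkv_divHom_range_index_ne_zero K)
    (AddSubgroup.index_dvd_of_le hle)

/-- `Kˣᵖ ⊆ V_T`. -/
theorem gk_pow_le_gkV (T : Set (HeightOneSpectrum (𝓞 K))) :
    (powMonoidHom p : Kˣ →* Kˣ).range ≤ gkV K T p := by
  rintro _ ⟨c, rfl⟩ v _
  rw [powMonoidHom_apply, Units.val_pow_eq_pow_val, map_pow, WithZero.log_pow, nsmul_eq_mul]
  exact dvd_mul_right _ _

/-- `log |b|_v = - ord_v b`. -/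
theorem gkv_log_valuation (b : Kˣ) (v : HeightOneSpectrum (𝓞 K)) :
    WithZero.log (v.valuation K (b : K)) = -(divOf K (b : K) v) := by
  rw [approx_valuation_eq (b : K) b.ne_zero v, WithZero.log_exp]

/-- The class of the principal divisor in `Div K ⧸ gkDivOn K T`. -/
def gkvD (T : Set (HeightOneSpectrum (𝓞 K))) : Additive Kˣ →+ S14.Div K ⧸ gkDivOn K T :=
  (QuotientAddGroup.mk' (gkDivOn K T)).comp (gkDivHom K)

theorem gkvD_apply (T : Set (HeightOneSpectrum (𝓞 K))) (b : Kˣ) :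
    gkvD K T (Additive.ofMul b) = QuotientAddGroup.mk' (gkDivOn K T) (divOf K (b : K)) := rfl

theorem gkv_mem_gkDivOn {T : Set (HeightOneSpectrum (𝓞 K))} {D : S14.Div K} :
    D ∈ gkDivOn K T ↔ ∀ v : HeightOneSpectrum (𝓞 K), v ∉ T → D v = 0 := Iff.rfl

/-- `Div K ⧸ gkDivOn K T` has no `n`-torsion (`n ≠ 0`). -/
theorem gkv_zsmul_injective (T : Set (HeightOneSpectrum (𝓞 K))) {n : ℤ} (hn : n ≠ 0) :
    Function.Injective (zsmulAddGroupHom n : S14.Div K ⧸ gkDivOn K T →+ S14.Div K ⧸ gkDivOn K T) := by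
  rw [injective_iff_map_eq_zero]
  intro x hx
  obtain ⟨D, rfl⟩ := QuotientAddGroup.mk'_surjective (gkDivOn K T) x
  rw [zsmulAddGroupHom_apply, ← map_zsmul, QuotientAddGroup.mk'_apply,
    QuotientAddGroup.eq_zero_iff] at hx
  rw [QuotientAddGroup.mk'_apply, QuotientAddGroup.eq_zero_iff]
  intro v hv
  have h := hx v hv
  rw [Finsupp.smul_apply, smul_eq_mul] at h
  rcases mul_eq_zero.mp h with h | h
  · exact absurd h hn
  · exact h

/-- `E_T = ker d`. -/
theorem gkv_unit_eq_ker (T : Set (HeightOneSpectrum (𝓞 K))) :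
    Subgroup.toAddSubgroup (T.unit K) = (gkvD K T).ker := by
  ext a
  obtain ⟨b, rfl⟩ := Additive.ofMul.surjective a
  rw [Additive.mem_toAddSubgroup, toMul_ofMul, AddMonoidHom.mem_ker, gkvD_apply,
    QuotientAddGroup.mk'_apply, QuotientAddGroup.eq_zero_iff, gkv_mem_gkDivOn]
  constructor
  · intro hb v hv
    have h1 : v.valuation K (b : K) = 1 := hb v hv
    have h2 := gkv_log_valuation K b v
    rw [h1, WithZero.log_one] at h2
    omega
  · intro hb v hv
    show v.valuation K (b : K) = 1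
    rw [approx_valuation_eq (b : K) b.ne_zero v, hb v hv, neg_zero, WithZero.exp_zero]

/-- `V_T = d⁻¹(p Q)`. -/
theorem gkv_gkV_eq_comap (T : Set (HeightOneSpectrum (𝓞 K))) :
    Subgroup.toAddSubgroup (gkV K T p) =
      (zsmulAddGroupHom (p : ℤ) : S14.Div K ⧸ gkDivOn K T →+ S14.Div K ⧸ gkDivOn K T).range.comap
        (gkvD K T) := by
  ext a
  obtain ⟨b, rfl⟩ := Additive.ofMul.surjective a
  rw [Additive.mem_toAddSubgroup, toMul_ofMul, AddSubgroup.mem_comap, gkvD_apply, mem_gkV_iff]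
  constructor
  · intro hb
    refine ⟨QuotientAddGroup.mk' (gkDivOn K T)
      ((divOf K (b : K)).mapRange (fun m => m / (p : ℤ)) (by simp)), ?_⟩
    rw [zsmulAddGroupHom_apply, ← map_zsmul, QuotientAddGroup.mk'_apply,
      QuotientAddGroup.mk'_apply, QuotientAddGroup.eq, gkv_mem_gkDivOn]
    intro v hv
    have h1 := hb v hv
    rw [gkv_log_valuation, dvd_neg] at h1
    rw [Finsupp.add_apply, Finsupp.neg_apply, Finsupp.smul_apply, Finsupp.mapRange_apply,
      smul_eq_mul, Int.mul_ediv_cancel' h1]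
    omega
  · rintro ⟨x, hx⟩ v hv
    obtain ⟨D, rfl⟩ := QuotientAddGroup.mk'_surjective (gkDivOn K T) x
    rw [zsmulAddGroupHom_apply, ← map_zsmul, QuotientAddGroup.mk'_apply,
      QuotientAddGroup.mk'_apply, QuotientAddGroup.eq, gkv_mem_gkDivOn] at hx
    have h1 := hx v hv
    rw [Finsupp.add_apply, Finsupp.neg_apply, Finsupp.smul_apply, smul_eq_mul] at h1
    rw [gkv_log_valuation, dvd_neg]
    exact ⟨D v, by omega⟩

/-- `Kˣᵖ = p · (Additive Kˣ)`. -/
theorem gkv_pow_eq_range :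
    Subgroup.toAddSubgroup (powMonoidHom p : Kˣ →* Kˣ).range =
      (zsmulAddGroupHom (p : ℤ) : Additive Kˣ →+ Additive Kˣ).range := by
  ext a
  obtain ⟨b, rfl⟩ := Additive.ofMul.surjective a
  rw [Additive.mem_toAddSubgroup, toMul_ofMul]
  constructor
  · rintro ⟨c, rfl⟩
    refine ⟨Additive.ofMul c, ?_⟩
    rw [zsmulAddGroupHom_apply, natCast_zsmul]
    rfl
  · rintro ⟨c, hc⟩
    refine ⟨Additive.toMul c, ?_⟩
    rw [zsmulAddGroupHom_apply, natCast_zsmul] at hc
    rw [powMonoidHom_apply]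
    exact congrArg Additive.toMul hc

/-- `d(Kˣ)` has finite index. -/
theorem gkvD_range_index_ne_zero (T : Set (HeightOneSpectrum (𝓞 K))) :
    (gkvD K T).range.index ≠ 0 := by
  have h : (gkvD K T).range = (gkDivHom K).range.map (QuotientAddGroup.mk' (gkDivOn K T)) := by
    rw [gkvD, AddMonoidHom.range_eq_map, AddMonoidHom.range_eq_map, AddSubgroup.map_map]
  rw [h]
  exact ne_zero_of_dvd_ne_zero (gkv_divHom_range_index_ne_zero K)
    (AddSubgroup.index_map_dvd _ (QuotientAddGroup.mk'_surjective _))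

/-- `gkClSub` is the preimage of `d(Kˣ) + pQ`. -/
theorem gkv_gkClSub_eq_comap (T : Set (HeightOneSpectrum (𝓞 K))) :
    gkClSub K T p =
      ((gkvD K T).range ⊔
        (zsmulAddGroupHom (p : ℤ) : S14.Div K ⧸ gkDivOn K T →+ S14.Div K ⧸ gkDivOn K T).range).comap
        (QuotientAddGroup.mk' (gkDivOn K T)) := by
  have h1 : (gkvD K T).range = (gkDivHom K).range.map (QuotientAddGroup.mk' (gkDivOn K T)) := by
    rw [gkvD, AddMonoidHom.range_eq_map, AddMonoidHom.range_eq_map, AddSubgroup.map_map]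
  have h2 : (zsmulAddGroupHom (p : ℤ) :
      S14.Div K ⧸ gkDivOn K T →+ S14.Div K ⧸ gkDivOn K T).range =
      (zsmulAddGroupHom (p : ℤ) : S14.Div K →+ S14.Div K).range.map
        (QuotientAddGroup.mk' (gkDivOn K T)) := by
    ext x
    rw [AddSubgroup.mem_map]
    constructor
    · rintro ⟨y, rfl⟩
      obtain ⟨D, rfl⟩ := QuotientAddGroup.mk'_surjective (gkDivOn K T) y
      refine ⟨(p : ℤ) • D, ⟨D, rfl⟩, ?_⟩
      rw [map_zsmul, zsmulAddGroupHom_apply]
    · rintro ⟨_, ⟨D, rfl⟩, rfl⟩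
      refine ⟨QuotientAddGroup.mk' (gkDivOn K T) D, ?_⟩
      rw [zsmulAddGroupHom_apply, zsmulAddGroupHom_apply, map_zsmul]
  rw [h1, h2, ← AddSubgroup.map_sup, AddSubgroup.comap_map_eq, QuotientAddGroup.ker_mk', gkClSub,
    sup_right_comm]

/-- `[V_T : E_T Kˣᵖ] = |Cl_T / p|`. -/
theorem gkv_relIndex_unit_sup_pow (T : Set (HeightOneSpectrum (𝓞 K))) :
    (T.unit K ⊔ (powMonoidHom p : Kˣ →* Kˣ).range).relIndex (gkV K T p) =
      (gkClSub K T p).index := by
  have hp0 : (p : ℤ) ≠ 0 := by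
    exact_mod_cast (Fact.out : p.Prime).ne_zero
  rw [← Subgroup.relIndex_toAddSubgroup, map_sup, gkv_unit_eq_ker, gkv_pow_eq_range,
    gkv_gkV_eq_comap,
    gkv_relIndex_abstract (gkvD K T) (p : ℤ) (gkv_zsmul_injective K T hp0)
      (gkvD_range_index_ne_zero K T),
    gkv_gkClSub_eq_comap, AddSubgroup.index_comap_of_surjective _ (QuotientAddGroup.mk'_surjective _)]

/-- `[E_T Kˣᵖ : Kˣᵖ] = [E_T : E_Tᵖ]`. -/
theorem gkv_relIndex_pow_unit_sup (T : Set (HeightOneSpectrum (𝓞 K))) :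
    (powMonoidHom p : Kˣ →* Kˣ).range.relIndex (T.unit K ⊔ (powMonoidHom p : Kˣ →* Kˣ).range) =
      (powMonoidHom p : T.unit K →* T.unit K).range.index := by
  have hp0 : p ≠ 0 := (Fact.out : p.Prime).ne_zero
  rw [Subgroup.relIndex_sup_right, Subgroup.relIndex]
  congr 1
  ext x
  rw [Subgroup.mem_subgroupOf]
  constructor
  · rintro ⟨c, hc⟩
    have hcE : c ∈ T.unit K := by
      intro v hv
      have h1 : v.valuation K ((x : Kˣ) : K) = 1 := x.2 v hv
      rw [← hc, powMonoidHom_apply, Units.val_pow_eq_pow_val, map_pow] at h1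
      exact (pow_eq_one_iff_of_nonneg zero_le' hp0).mp h1
    refine ⟨⟨c, hcE⟩, ?_⟩
    apply Subtype.ext
    rw [powMonoidHom_apply, Subgroup.coe_pow]
    exact hc
  · rintro ⟨c, rfl⟩
    exact ⟨(c : Kˣ), by rw [powMonoidHom_apply, powMonoidHom_apply, Subgroup.coe_pow]⟩

/-- `[V_T : Kˣᵖ] = [E_T : E_Tᵖ] · |Cl_T[p]| = p^(r + |T| + 1) · |Cl_T/p|`
(exact sequence `1 → E_T/p → V_T/Kˣᵖ → Cl_T[p] → 1`, helper15's `sunit_index_pow_prime`, and
`|A[p]| = |A/p|` for the finite abelian group `A = Cl_T`). -/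
theorem gk_relIndex_pow_gkV {ζ : K} (hζ : IsPrimitiveRoot ζ p)
    (T : Finset (HeightOneSpectrum (𝓞 K))) :
    (powMonoidHom p : Kˣ →* Kˣ).range.relIndex (gkV K (T : Set (HeightOneSpectrum (𝓞 K))) p) =
      p ^ (Units.rank K + T.card + 1) *
        (gkClSub K (T : Set (HeightOneSpectrum (𝓞 K))) p).index := by
  have hle : (T : Set (HeightOneSpectrum (𝓞 K))).unit K ⊔ (powMonoidHom p : Kˣ →* Kˣ).range ≤
      gkV K (T : Set (HeightOneSpectrum (𝓞 K))) p := by
    refine sup_le ?_ (gk_pow_le_gkV K p _)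
    intro b hb v hv
    have h1 : v.valuation K (b : K) = 1 := hb v hv
    rw [h1, WithZero.log_one]
    exact dvd_zero _
  rw [← Subgroup.relIndex_mul_relIndex _ _ _ le_sup_right hle, gkv_relIndex_pow_unit_sup,
    gkv_relIndex_unit_sup_pow, sunit_index_pow_prime K T hζ]

/-- `K ∋ ζ_p`, `p` odd: `K` is totally complex, so `2 (rank + 1) = [K : ℚ]`. -/
theorem gk_two_mul_rank_add_one (hp2 : p ≠ 2) {ζ : K} (hζ : IsPrimitiveRoot ζ p) :
    2 * (Units.rank K + 1) = Module.finrank ℚ K := by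
  have hp : 2 < p := lt_of_le_of_ne (Fact.out : p.Prime).two_le (Ne.symm hp2)
  have h0 : InfinitePlace.nrRealPlaces K = 0 :=
    InfinitePlace.IsPrimitiveRoot.nrRealPlaces_eq_zero_of_two_lt hp hζ
  have h1 := InfinitePlace.card_eq_nrRealPlaces_add_nrComplexPlaces K
  have h2 := InfinitePlace.card_add_two_mul_card_eq_rank K
  have h3 : 0 < Fintype.card (InfinitePlace K) := Fintype.card_pos
  rw [Units.rank]
  omega

end CardV

end Fermat.Agent.S55
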