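/-
S55 / GK-0: the product formula in the `GkEmb` language, from helper6's `ge_product_formula` (GE1).
Helper lemmas are prefixed `gk0_`.
-/
import Fermat.Agent.S55.GK.Defs
import Fermat.Agent.S55.Global.Recip.ProductSpec

set_option autoImplicit false

noncomputable section

namespace Fermat.Agent.S55

open NumberField IsDedekindDomain

section ProductFormula

variable {K : Type} [Field K] [NumberField K]

/-- The residue characteristic of a local embedding datum at `v` is `gePrime K v`. -/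
theorem gk0_q_eq_gePrime {v : HeightOneSpectrum (𝓞 K)} (E : GkEmb K v) : E.q = gePrime K v := by
  have h1 : ((E.q : ℕ) : 𝓞 K) ∈ v.asIdeal := by
    have := natCast_mem_lgIdeal E.q E.emb
    rw [← lgPlace_asIdeal, E.place] at this
    exact this
  have hfin : Finite (𝓞 K ⧸ v.asIdeal) := Ideal.finiteQuotientOfFreeOfNeBot _ v.ne_bot
  have hfield : IsField (𝓞 K ⧸ v.asIdeal) :=
    (Ideal.Quotient.maximal_ideal_iff_isField_quotient _).mp v.isMaximal
  let _ : Field (𝓞 K ⧸ v.asIdeal) := hfield.toField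
  let _ : Fintype (𝓞 K ⧸ v.asIdeal) := Fintype.ofFinite _
  have hchar : CharP (𝓞 K ⧸ v.asIdeal) E.q := by
    rw [CharP.charP_iff_prime_eq_zero E.hq.out]
    have : ((E.q : ℕ) : 𝓞 K ⧸ v.asIdeal) = Ideal.Quotient.mk v.asIdeal ((E.q : ℕ) : 𝓞 K) := by
      rw [map_natCast]
    rw [this]
    exact Ideal.Quotient.eq_zero_iff_mem.mpr h1
  obtain ⟨n, -, hn⟩ := FiniteField.card (𝓞 K ⧸ v.asIdeal) E.q
  have habs : Ideal.absNorm v.asIdeal = E.q ^ (n : ℕ) := by
    rw [Ideal.absNorm_apply, Submodule.cardQuot_apply, Nat.card_eq_fintype_card]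
    exact hn
  unfold gePrime
  rw [habs]
  exact (E.hq.out.pow_minFac n.ne_zero).symm

/-- Transport of an embedding datum to the residue characteristic `gePrime K v`, with the same
local symbol. -/
theorem gk0_exists_emb (p : ℕ) [NeZero p] (ζ : K) {v : HeightOneSpectrum (𝓞 K)} (E : GkEmb K v) :
    ∃ i : K →+* PadicAlgCl (gePrime K v), lgPlace (gePrime K v) i = v ∧
      ∀ a b : Kˣ, geSymbol (gePrime K v) p i ζ a b =
        lfSymbol E.q (lgField E.q E.emb) p (lgEmb E.q E.emb ζ)
          (Units.map (lgEmb E.q E.emb : K →* lgField E.q E.emb) a)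
          (Units.map (lgEmb E.q E.emb : K →* lgField E.q E.emb) b) := by
  have hq := gk0_q_eq_gePrime E
  obtain ⟨q, hqf, emb, place⟩ := E
  dsimp only at hq ⊢
  subst hq
  exact ⟨emb, place, fun a b => rfl⟩

/-- PRODUCT FORMULA in the `GkEmb` language. -/
theorem gk_product_formula (Φ : ∀ v : HeightOneSpectrum (𝓞 K), GkEmb K v)
    (p : ℕ) [Fact p.Prime] (ζ : K) (hp2 : p ≠ 2) (hζ : IsPrimitiveRoot ζ p) (a b : Kˣ) :
    {v : HeightOneSpectrum (𝓞 K) | gkSym Φ p ζ v a b ≠ 0}.Finite ∧
      ∑ᶠ v : HeightOneSpectrum (𝓞 K), gkSym Φ p ζ v a b = 0 := by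
  choose i hi hsym using fun v => gk0_exists_emb p ζ (Φ v)
  have hfun : (fun v : HeightOneSpectrum (𝓞 K) => geSymbol (gePrime K v) p (i v) ζ a b) =
      fun v => gkSym Φ p ζ v a b := by
    funext v
    exact hsym v a b
  obtain ⟨h1, h2⟩ := ge_product_formula hp2 hζ a b i hi
  rw [hfun] at h1 h2
  exact ⟨h1, h2⟩

end ProductFormula

end Fermat.Agent.S55
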