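/-
S55 / GK layer, leaf GK-B1 (row 251): consequences of the product formula, first half of
section `Isotropic` of `GK/Spec.lean` (origin/helper9 f1b089b).
Black boxes: `GK/IsoStubs.lean` (`gk_product_formula`, `gkEmb_q_eq_iff`), helper22's
`lfSymbol_units` (LE3), helper2's `lg_valuation_eq` (LG-B).  Helper prefix `gki`.
-/
import Fermat.Agent.S55.GK.CardP
import Fermat.Agent.S55.GK.ProductFormula
import Fermat.Agent.S55.LG.PlaceSpec

set_option autoImplicit false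
set_option linter.unusedSectionVars false
set_option linter.unusedVariables false

noncomputable section

namespace Fermat.Agent.S55

open NumberField IsDedekindDomain Fermat.Agent.S14

section Isotropic

variable {K : Type} [Field K] [NumberField K] (Φ : ∀ v : HeightOneSpectrum (𝓞 K), GkEmb K v)
  (p : ℕ) [Fact p.Prime] (ζ : K)

/-- the image of `ζ` in `K_v` is a primitive `p`-th root of unity. -/
theorem gk_isPrimitiveRoot_loc (hζ : IsPrimitiveRoot ζ p) (v : HeightOneSpectrum (𝓞 K)) :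
    IsPrimitiveRoot (gkEmbR Φ v ζ) p :=
  hζ.map_of_injective (lgEmb_injective (Φ v).q (Φ v).emb)

/-- The `v`-adic valuation in terms of the normalised valuation of `K_v`. -/
theorem gki_valuation_eq (v : HeightOneSpectrum (𝓞 K)) (x : K) (hx : x ≠ 0) :
    v.valuation K x = WithZero.exp (-(lfOrd (Φ v).q (gkFld Φ v) (gkEmbR Φ v x))) := by
  have h := lg_valuation_eq (Φ v).q (Φ v).emb x hx
  rwa [(Φ v).place] at h

/-- Elements of valuation one are local units. -/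
theorem gki_gkLoc_mem_lfUnits (v : HeightOneSpectrum (𝓞 K)) (u : Kˣ)
    (hu : v.valuation K (u : K) = 1) : gkLoc Φ v u ∈ lfUnits (Φ v).q (gkFld Φ v) := by
  rw [mem_lfUnits_iff, gkLoc_coe]
  have h := gki_valuation_eq Φ v (u : K) u.ne_zero
  rw [hu, ← WithZero.exp_zero, WithZero.exp_inj] at h
  omega

/-- `b ∈ Kˣ` with `p ∣ ord_v b`, `v ∤ p`: locally `b = u · cᵖ` with `u` a unit of `K_v`. -/
theorem gk_loc_eq_unit_mul_pow (v : HeightOneSpectrum (𝓞 K)) {b : Kˣ}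
    (hb : (p : ℤ) ∣ WithZero.log (v.valuation K (b : K))) :
    ∃ u c : (gkFld Φ v)ˣ, u ∈ lfUnits (Φ v).q (gkFld Φ v) ∧ gkLoc Φ v b = u * c ^ p := by
  obtain ⟨m, hm⟩ := hb
  set c₀ : Kˣ := gkUnif K v ^ (-m) with hc₀
  set u₀ : Kˣ := b * (c₀ ^ p)⁻¹ with hu₀
  have hb0 : v.valuation K (b : K) ≠ 0 := (Valuation.ne_zero_iff _).mpr b.ne_zero
  have hvb : v.valuation K (b : K) = WithZero.exp ((p : ℤ) * m) := by
    rw [← hm, WithZero.exp_log hb0]
  have hvc : v.valuation K ((c₀ ^ p : Kˣ) : K) = WithZero.exp ((p : ℤ) * m) := by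
    rw [hc₀, Units.val_pow_eq_pow_val, Units.val_zpow_eq_zpow_val, map_pow, map_zpow₀,
      gkUnif_spec, ← WithZero.exp_zsmul, ← WithZero.exp_nsmul]
    congr 1
    simp only [smul_eq_mul, nsmul_eq_mul]
    ring
  have hvu : v.valuation K (u₀ : K) = 1 := by
    rw [hu₀, Units.val_mul, Units.val_inv_eq_inv_val, map_mul, map_inv₀, hvb, hvc,
      mul_inv_cancel₀ WithZero.exp_ne_zero]
  refine ⟨gkLoc Φ v u₀, gkLoc Φ v c₀, gki_gkLoc_mem_lfUnits Φ v u₀ hvu, ?_⟩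
  rw [← map_pow, ← map_mul, hu₀, inv_mul_cancel_right]

/-- Outside `T ⊇ {v ∣ p}` the symbol of two elements of `V_T` vanishes. -/
theorem gkSym_eq_zero_of_notMem (hζ : IsPrimitiveRoot ζ p)
    (T : Set (HeightOneSpectrum (𝓞 K)))
    (hT : ∀ v : HeightOneSpectrum (𝓞 K), ((p : ℕ) : 𝓞 K) ∈ v.asIdeal → v ∈ T)
    {a b : Kˣ} (ha : a ∈ gkV K T p) (hb : b ∈ gkV K T p)
    (v : HeightOneSpectrum (𝓞 K)) (hv : v ∉ T) : gkSym Φ p ζ v a b = 0 := by
  have hp : p.Prime := Fact.out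
  have hqp : (Φ v).q ≠ p := fun h => hv (hT v ((gkEmb_q_eq_iff Φ p v).mp h))
  have hqn : ¬ (Φ v).q ∣ p := by
    intro hdvd
    exact hqp ((Nat.prime_dvd_prime_iff_eq (Φ v).hq.out hp).mp hdvd)
  have hζv := gk_isPrimitiveRoot_loc Φ p ζ hζ v
  obtain ⟨u, c, hu, hac⟩ := gk_loc_eq_unit_mul_pow Φ p v (ha v hv)
  obtain ⟨u', c', hu', hbc⟩ := gk_loc_eq_unit_mul_pow Φ p v (hb v hv)
  unfold gkSym gkSymL
  rw [hac, hbc, lfSymbol_mul_left _ _ _ _ hζv, lfSymbol_mul_right _ _ _ _ hζv,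
    lfSymbol_mul_right _ _ _ _ hζv, lfSymbol_units _ _ _ _ hζv hqn u u' hu hu',
    lfSymbol_pow_right _ _ _ _ hζv, lfSymbol_pow_right _ _ _ _ hζv,
    lfSymbol_pow_left _ _ _ _ hζv, add_zero, add_zero]

/-- ISOTROPY: `∑_{v ∈ T} (a,b)_v = 0` for `a, b ∈ V_T`. -/
theorem gk_isotropic (hp2 : p ≠ 2) (hζ : IsPrimitiveRoot ζ p)
    (T : Finset (HeightOneSpectrum (𝓞 K)))
    (hT : ∀ v : HeightOneSpectrum (𝓞 K), ((p : ℕ) : 𝓞 K) ∈ v.asIdeal → v ∈ T)
    {a b : Kˣ} (ha : a ∈ gkV K (T : Set (HeightOneSpectrum (𝓞 K))) p)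
    (hb : b ∈ gkV K (T : Set (HeightOneSpectrum (𝓞 K))) p) :
    ∑ v ∈ T, gkSym Φ p ζ v a b = 0 := by
  obtain ⟨-, hsum⟩ := gk_product_formula Φ p ζ hp2 hζ a b
  rw [← hsum]
  symm
  apply finsum_eq_sum_of_support_subset
  intro v hv
  rw [Function.mem_support] at hv
  by_contra hvT
  exact hv (gkSym_eq_zero_of_notMem Φ p ζ hζ (T : Set (HeightOneSpectrum (𝓞 K)))
    (fun w hw => Finset.mem_coe.mpr (hT w hw)) ha hb v hvT)

end Isotropic

end Fermat.Agent.S55
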