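/-
S55 / GK layer, leaf GK-B2 (row 252): the Artin character of `b ∈ Δ_T`
(second half of section Isotropic of GK/Spec.lean).
-/
import Fermat.Agent.S55.GK.Defs
import Fermat.Agent.S55.GK.ProductFormula
import Fermat.Agent.S55.GK.CardP
import Fermat.Agent.S55.GK.IsotropicA
import Fermat.Agent.S55.LG.PlaceSpec
import Fermat.Agent.S14.Approx

set_option autoImplicit false

noncomputable section

namespace Fermat.Agent.S55

open NumberField IsDedekindDomain Fermat.Agent.S14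

/-! ## Generalities on the local symbol -/

section LocalSymbol

variable (q : ℕ) [Fact q.Prime]
  (F : Type) [Field F] [Algebra ℚ_[q] F] [FiniteDimensional ℚ_[q] F]
  (n : ℕ) [NeZero n] (ζ : F) (hζ : IsPrimitiveRoot ζ n)

include hζ

theorem gkj_lfSymbol_one_left (y : Fˣ) : lfSymbol q F n ζ 1 y = 0 := by
  have h := lfSymbol_mul_left q F n ζ hζ 1 1 y
  rw [mul_one] at h
  exact left_eq_add.1 h

/-- `x ↦ (x, y)` as an additive hom -/
def gkjSymHom (y : Fˣ) : Additive Fˣ →+ ZMod n where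
  toFun x := lfSymbol q F n ζ (Additive.toMul x) y
  map_zero' := gkj_lfSymbol_one_left q F n ζ hζ y
  map_add' x x' := lfSymbol_mul_left q F n ζ hζ (Additive.toMul x) (Additive.toMul x') y

theorem gkj_lfSymbol_zpow_left (x y : Fˣ) (m : ℤ) :
    lfSymbol q F n ζ (x ^ m) y = (m : ZMod n) * lfSymbol q F n ζ x y := by
  have h := map_zsmul (gkjSymHom q F n ζ hζ y) m (Additive.ofMul x)
  rw [zsmul_eq_mul] at h
  exact h

/-- a unit pairs trivially with `u' * c ^ n` (`q ∤ n`) -/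
theorem gkj_lfSymbol_unit_unit_mul_pow (hqn : ¬ q ∣ n) (u u' c : Fˣ) (hu : u ∈ lfUnits q F)
    (hu' : u' ∈ lfUnits q F) : lfSymbol q F n ζ u (u' * c ^ n) = 0 := by
  rw [lfSymbol_mul_right q F n ζ hζ, lfSymbol_units q F n ζ hζ hqn u u' hu hu',
    lfSymbol_pow_right q F n ζ hζ, add_zero]

/-- If units pair trivially with `y`, then `(x, y) = ord(x) · (π, y)` for a uniformizer `π`. -/
theorem gkj_lfSymbol_eq_ord_mul (π y : Fˣ) (hπ : lfOrd q F (π : F) = 1)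
    (hy : ∀ u : Fˣ, u ∈ lfUnits q F → lfSymbol q F n ζ u y = 0) (x : Fˣ) :
    lfSymbol q F n ζ x y = ((lfOrd q F (x : F) : ℤ) : ZMod n) * lfSymbol q F n ζ π y := by
  set m : ℤ := lfOrd q F (x : F) with hm
  have hu : x / π ^ m ∈ lfUnits q F := by
    rw [mem_lfUnits_iff]
    have h1 : ((x / π ^ m : Fˣ) : F) = (x : F) * ((π : F) ^ m)⁻¹ := by
      rw [div_eq_mul_inv, Units.val_mul, Units.val_inv_eq_inv_val, Units.val_zpow_eq_zpow_val]
    rw [h1, lfOrd_mul q F x.ne_zero (inv_ne_zero (zpow_ne_zero _ π.ne_zero)), lfOrd_inv,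
      lfOrd_zpow, hπ, mul_one, ← hm]
    ring
  have hx : x = (x / π ^ m) * π ^ m := by
    rw [div_mul_cancel]
  conv_lhs => rw [hx]
  rw [lfSymbol_mul_left q F n ζ hζ, hy _ hu, zero_add, gkj_lfSymbol_zpow_left q F n ζ hζ]

end LocalSymbol

/-! ## The dictionary `ord_v = lfOrd ∘ loc` -/

section Isotropic

variable {K : Type} [Field K] [NumberField K] (Φ : ∀ v : HeightOneSpectrum (𝓞 K), GkEmb K v)
  (p : ℕ) [Fact p.Prime] (ζ : K)

/-- `lfOrd (loc x) = ord_v(x)` -/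
theorem gkj_lfOrd_loc (v : HeightOneSpectrum (𝓞 K)) (x : K) (hx : x ≠ 0) :
    lfOrd (Φ v).q (gkFld Φ v) (gkEmbR Φ v x) = divOf K x v := by
  have h1 := lg_valuation_eq (Φ v).q (Φ v).emb x hx
  rw [(Φ v).place, approx_valuation_eq x hx v] at h1
  have h2 := WithZero.exp_injective h1
  linarith

theorem gkj_lfOrd_gkUnif (v : HeightOneSpectrum (𝓞 K)) :
    lfOrd (Φ v).q (gkFld Φ v) ((gkLoc Φ v (gkUnif K v) : (gkFld Φ v)ˣ) : gkFld Φ v) = 1 := by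
  have h1 := lg_valuation_eq (Φ v).q (Φ v).emb ((gkUnif K v : Kˣ) : K) (gkUnif K v).ne_zero
  rw [(Φ v).place, gkUnif_spec K v] at h1
  have h2 := WithZero.exp_injective h1
  rw [gkLoc_coe]
  linarith

/-- the residue characteristic at `v ∉ T` is not `p` -/
theorem gkj_not_dvd (T : Set (HeightOneSpectrum (𝓞 K)))
    (hT : ∀ v : HeightOneSpectrum (𝓞 K), ((p : ℕ) : 𝓞 K) ∈ v.asIdeal → v ∈ T)
    (v : HeightOneSpectrum (𝓞 K)) (hv : v ∉ T) : ¬ (Φ v).q ∣ p := by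
  intro h
  have h1 : (Φ v).q = p :=
    (Nat.prime_dvd_prime_iff_eq (Fact.out : (Φ v).q.Prime) (Fact.out : p.Prime)).1 h
  exact hv (hT v ((gkEmb_q_eq_iff Φ p v).1 h1))

/-- local units pair trivially with `b ∈ V_T` at `v ∉ T` -/
theorem gkj_unit_loc (hζ : IsPrimitiveRoot ζ p) (T : Set (HeightOneSpectrum (𝓞 K)))
    (hT : ∀ v : HeightOneSpectrum (𝓞 K), ((p : ℕ) : 𝓞 K) ∈ v.asIdeal → v ∈ T)
    {b : Kˣ} (hb : b ∈ gkV K T p) (v : HeightOneSpectrum (𝓞 K)) (hv : v ∉ T)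
    (u : (gkFld Φ v)ˣ) (hu : u ∈ lfUnits (Φ v).q (gkFld Φ v)) :
    gkSymL Φ p ζ v u (gkLoc Φ v b) = 0 := by
  obtain ⟨u', c, hu', hbc⟩ := gk_loc_eq_unit_mul_pow Φ p v (hb v hv)
  rw [gkSymL, hbc]
  exact gkj_lfSymbol_unit_unit_mul_pow (Φ v).q (gkFld Φ v) p _
    (gk_isPrimitiveRoot_loc Φ p ζ hζ v) (gkj_not_dvd Φ p T hT v hv) u u' c hu hu'

/-- `(x, b)_v = ord(x) · (π_v, b)_v` for every LOCAL `x`, when `b ∈ V_T`, `v ∉ T` -/
theorem gkj_gkSymL_eq_ord_mul (hζ : IsPrimitiveRoot ζ p) (T : Set (HeightOneSpectrum (𝓞 K)))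
    (hT : ∀ v : HeightOneSpectrum (𝓞 K), ((p : ℕ) : 𝓞 K) ∈ v.asIdeal → v ∈ T)
    {b : Kˣ} (hb : b ∈ gkV K T p) (v : HeightOneSpectrum (𝓞 K)) (hv : v ∉ T)
    (x : (gkFld Φ v)ˣ) :
    gkSymL Φ p ζ v x (gkLoc Φ v b) =
      ((lfOrd (Φ v).q (gkFld Φ v) (x : gkFld Φ v) : ℤ) : ZMod p) * gkChi Φ p ζ v b :=
  gkj_lfSymbol_eq_ord_mul (Φ v).q (gkFld Φ v) p _ (gk_isPrimitiveRoot_loc Φ p ζ hζ v)
    (gkLoc Φ v (gkUnif K v)) (gkLoc Φ v b) (gkj_lfOrd_gkUnif Φ v)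
    (fun u hu => gkj_unit_loc Φ p ζ hζ T hT hb v hv u hu) x

/-- Outside `T`, for `b ∈ V_T`: `(a,b)_v = ord_v(a) · (π_v,b)_v` (units pair trivially with `b`).
Sign convention: `divOf K a v = ord_v(a)` (the `count` of the principal fractional ideal). -/
theorem gkSym_eq_ord_mul_gkChi (hζ : IsPrimitiveRoot ζ p)
    (T : Set (HeightOneSpectrum (𝓞 K)))
    (hT : ∀ v : HeightOneSpectrum (𝓞 K), ((p : ℕ) : 𝓞 K) ∈ v.asIdeal → v ∈ T)
    {b : Kˣ} (hb : b ∈ gkV K T p) (a : Kˣ)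
    (v : HeightOneSpectrum (𝓞 K)) (hv : v ∉ T) :
    gkSym Φ p ζ v a b = ((divOf K (a : K) v : ℤ) : ZMod p) * gkChi Φ p ζ v b := by
  rw [gkSym, gkj_gkSymL_eq_ord_mul Φ p ζ hζ T hT hb v hv, gkLoc_coe,
    gkj_lfOrd_loc Φ v (a : K) a.ne_zero]

theorem gkj_gkChi_mul (hζ : IsPrimitiveRoot ζ p) (v : HeightOneSpectrum (𝓞 K)) (b b' : Kˣ) :
    gkChi Φ p ζ v (b * b') = gkChi Φ p ζ v b + gkChi Φ p ζ v b' := by
  unfold gkChi gkSym gkSymL
  rw [map_mul]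
  exact lfSymbol_mul_right (Φ v).q (gkFld Φ v) p _ (gk_isPrimitiveRoot_loc Φ p ζ hζ v) _ _ _

/-- `b ↦ gkArtin b` is additive. -/
theorem gkArtin_mul (hζ : IsPrimitiveRoot ζ p) (T : Set (HeightOneSpectrum (𝓞 K))) (b b' : Kˣ) :
    gkArtin Φ p ζ T (b * b') = gkArtin Φ p ζ T b + gkArtin Φ p ζ T b' := by
  classical
  refine Finsupp.addHom_ext fun v n => ?_
  rw [AddMonoidHom.add_apply, gkArtin_single, gkArtin_single, gkArtin_single]
  split_ifs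
  · rw [add_zero]
  · rw [gkj_gkChi_mul Φ p ζ hζ, mul_add]

/-- the value of `gkArtin` as a sum over the support -/
theorem gkj_gkArtin_apply (T : Set (HeightOneSpectrum (𝓞 K))) (b : Kˣ) (D : S14.Div K) :
    gkArtin Φ p ζ T b D =
      ∑ v ∈ D.support, gkArtin Φ p ζ T b (Finsupp.single v (D v)) := by
  conv_lhs => rw [← Finsupp.sum_single D]
  rw [Finsupp.sum, map_sum]

/-- at `v ∈ T` the symbol with `b ∈ Δ_T` vanishes -/
theorem gkj_gkSym_eq_zero_of_mem (hζ : IsPrimitiveRoot ζ p) (T : Set (HeightOneSpectrum (𝓞 K)))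
    {b : Kˣ} (hb : b ∈ gkDelta Φ T p) (a : Kˣ) (v : HeightOneSpectrum (𝓞 K)) (hv : v ∈ T) :
    gkSym Φ p ζ v a b = 0 := by
  obtain ⟨c, hc⟩ := (mem_gkDelta_iff.1 hb).2 v hv
  rw [gkSym, gkSymL, ← hc]
  exact lfSymbol_pow_right (Φ v).q (gkFld Φ v) p _ (gk_isPrimitiveRoot_loc Φ p ζ hζ v) _ _

open Classical in
/-- the single-divisor values of the Artin character of `b ∈ Δ_T` are the local symbols -/
theorem gkj_gkArtin_single_divOf (hζ : IsPrimitiveRoot ζ p) (T : Set (HeightOneSpectrum (𝓞 K)))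
    (hT : ∀ v : HeightOneSpectrum (𝓞 K), ((p : ℕ) : 𝓞 K) ∈ v.asIdeal → v ∈ T)
    {b : Kˣ} (hb : b ∈ gkDelta Φ T p) (a : Kˣ) (v : HeightOneSpectrum (𝓞 K)) :
    gkArtin Φ p ζ T b (Finsupp.single v (divOf K (a : K) v)) = gkSym Φ p ζ v a b := by
  rw [gkArtin_single]
  split_ifs with hv
  · exact (gkj_gkSym_eq_zero_of_mem Φ p ζ hζ T hb a v hv).symm
  · exact (gkSym_eq_ord_mul_gkChi Φ p ζ hζ T hT (mem_gkDelta_iff.1 hb).1 a v hv).symm

/-- ARTIN RECIPROCITY for `Δ_T`: the Artin character of `b ∈ Δ_T` kills principal divisors. -/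
theorem gkArtin_divOf (hp2 : p ≠ 2) (hζ : IsPrimitiveRoot ζ p)
    (T : Finset (HeightOneSpectrum (𝓞 K)))
    (hT : ∀ v : HeightOneSpectrum (𝓞 K), ((p : ℕ) : 𝓞 K) ∈ v.asIdeal → v ∈ T)
    {b : Kˣ} (hb : b ∈ gkDelta Φ (T : Set (HeightOneSpectrum (𝓞 K))) p) (a : Kˣ) :
    gkArtin Φ p ζ (T : Set (HeightOneSpectrum (𝓞 K))) b (divOf K (a : K)) = 0 := by
  classical
  have hT' : ∀ v : HeightOneSpectrum (𝓞 K), ((p : ℕ) : 𝓞 K) ∈ v.asIdeal →
      v ∈ (T : Set (HeightOneSpectrum (𝓞 K))) := fun v hv => hT v hv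
  rw [gkj_gkArtin_apply]
  have h1 : ∀ v ∈ (divOf K (a : K)).support,
      gkArtin Φ p ζ (T : Set (HeightOneSpectrum (𝓞 K))) b
        (Finsupp.single v (divOf K (a : K) v)) = gkSym Φ p ζ v a b :=
    fun v _ => gkj_gkArtin_single_divOf Φ p ζ hζ _ hT' hb a v
  rw [Finset.sum_congr rfl h1]
  have h2 : Function.support (fun v : HeightOneSpectrum (𝓞 K) => gkSym Φ p ζ v a b) ⊆
      ((divOf K (a : K)).support : Set (HeightOneSpectrum (𝓞 K))) := by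
    intro v hv
    rw [Function.mem_support] at hv
    rw [Finset.mem_coe, Finsupp.mem_support_iff]
    intro h0
    apply hv
    rw [← gkj_gkArtin_single_divOf Φ p ζ hζ _ hT' hb a v, h0, Finsupp.single_zero, map_zero]
  rw [← finsum_eq_sum_of_support_subset _ h2]
  exact (gk_product_formula Φ p ζ hp2 hζ a b).2

/-- Hence it factors through `Cl_T/p`. -/
theorem gkArtin_eq_zero_of_mem_gkClSub (hp2 : p ≠ 2) (hζ : IsPrimitiveRoot ζ p)
    (T : Finset (HeightOneSpectrum (𝓞 K)))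
    (hT : ∀ v : HeightOneSpectrum (𝓞 K), ((p : ℕ) : 𝓞 K) ∈ v.asIdeal → v ∈ T)
    {b : Kˣ} (hb : b ∈ gkDelta Φ (T : Set (HeightOneSpectrum (𝓞 K))) p)
    {D : S14.Div K} (hD : D ∈ gkClSub K (T : Set (HeightOneSpectrum (𝓞 K))) p) :
    gkArtin Φ p ζ (T : Set (HeightOneSpectrum (𝓞 K))) b D = 0 := by
  classical
  rw [gkClSub, AddSubgroup.mem_sup] at hD
  obtain ⟨D₁, hD₁, D₃, hD₃, rfl⟩ := hD
  rw [AddSubgroup.mem_sup] at hD₁
  obtain ⟨D₁, hD₁, D₂, hD₂, rfl⟩ := hD₁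
  obtain ⟨a, rfl⟩ := hD₁
  obtain ⟨E, rfl⟩ := hD₃
  rw [map_add, map_add]
  have e1 : gkArtin Φ p ζ (T : Set (HeightOneSpectrum (𝓞 K))) b (gkDivHom K a) = 0 :=
    gkArtin_divOf Φ p ζ hp2 hζ T hT hb (Additive.toMul a)
  have e2 : gkArtin Φ p ζ (T : Set (HeightOneSpectrum (𝓞 K))) b D₂ = 0 := by
    rw [gkj_gkArtin_apply]
    refine Finset.sum_eq_zero fun v hv => ?_
    rw [gkArtin_single]
    split_ifs with hvT
    · rfl
    · exact absurd (hD₂ v hvT) (Finsupp.mem_support_iff.1 hv)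
  have e3 : gkArtin Φ p ζ (T : Set (HeightOneSpectrum (𝓞 K))) b
      ((zsmulAddGroupHom (p : ℤ) : S14.Div K →+ S14.Div K) E) = 0 := by
    rw [zsmulAddGroupHom_apply, map_zsmul, zsmul_eq_mul]
    have : ((p : ℤ) : ZMod p) = 0 := by
      rw [Int.cast_natCast, ZMod.natCast_self]
    rw [this, zero_mul]
  rw [e1, e2, e3, add_zero, add_zero]

/-- If the Artin character of `b ∈ V_T` vanishes then `b` is a `p`-th power at every `v ∉ T`
(`lfSymbol_nondegenerate_right`). -/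
theorem gk_loc_pow_of_gkArtin_eq_zero (hζ : IsPrimitiveRoot ζ p)
    (T : Set (HeightOneSpectrum (𝓞 K)))
    (hT : ∀ v : HeightOneSpectrum (𝓞 K), ((p : ℕ) : 𝓞 K) ∈ v.asIdeal → v ∈ T)
    {b : Kˣ} (hb : b ∈ gkV K T p) (h0 : gkArtin Φ p ζ T b = 0)
    (v : HeightOneSpectrum (𝓞 K)) (hv : v ∉ T) :
    ∃ c : (gkFld Φ v)ˣ, c ^ p = gkLoc Φ v b := by
  classical
  have h1 : gkChi Φ p ζ v b = 0 := by
    have h2 := gkArtin_single Φ p ζ T b v 1
    rw [h0, if_neg hv, Int.cast_one, one_mul] at h2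
    exact h2.symm
  refine lfSymbol_nondegenerate_right (Φ v).q (gkFld Φ v) p _
    (gk_isPrimitiveRoot_loc Φ p ζ hζ v) (gkLoc Φ v b) (fun x => ?_)
  have h3 := gkj_gkSymL_eq_ord_mul Φ p ζ hζ T hT hb v hv x
  rw [h1, mul_zero] at h3
  exact h3

end Isotropic

end Fermat.Agent.S55
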