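/-
S55 / GK layer, leaf GK-C3 (row 253): `[Δ_T : Kˣᵖ] ≤ |Cl_T/p|`.

* `gk_relIndex_le_of_characters` : abstract character counting (Mathlib only);
* `gk_relIndex_delta_le`         : assembly from `gkArtin_mul`, `gkArtin_eq_zero_of_mem_gkClSub`,
  `gk_loc_pow_of_gkArtin_eq_zero` (GK/IsotropicB), `gk_pow_of_locally_pow` (GK/FrobGen),
  `gkClSub_index_ne_zero` (GK/CardV).
-/
import Fermat.Agent.S55.GK.Defs
import Fermat.Agent.S55.GK.CardV
import Fermat.Agent.S55.GK.IsotropicB
import Fermat.Agent.S55.GK.FrobGen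

set_option autoImplicit false

noncomputable section

namespace Fermat.Agent.S55

open NumberField IsDedekindDomain Fermat.Agent.S14

/-- `|Hom(Q, ZMod p)| ≤ |Q|` for a finite abelian group `Q` (the characters `Q → ZMod p` embed
into the complex characters of `Q` through the standard additive character of `ZMod p`). -/
theorem gkd_card_hom_le (p : ℕ) [NeZero p] (Q : Type*) [AddCommGroup Q] [Finite Q] :
    Finite (Q →+ ZMod p) ∧ Nat.card (Q →+ ZMod p) ≤ Nat.card Q := by
  classical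
  cases nonempty_fintype Q
  let F : (Q →+ ZMod p) → AddChar Q ℂ := fun f => (ZMod.stdAddChar (N := p)).compAddMonoidHom f
  have hF : Function.Injective F := by
    intro f g hfg
    ext x
    have := DFunLike.congr_fun hfg x
    exact ZMod.injective_stdAddChar this
  have : Finite (Q →+ ZMod p) := Finite.of_injective F hF
  refine ⟨inferInstance, ?_⟩
  calc Nat.card (Q →+ ZMod p) ≤ Nat.card (AddChar Q ℂ) := Nat.card_le_card_of_injective F hF
    _ = Fintype.card (AddChar Q ℂ) := Nat.card_eq_fintype_card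
    _ ≤ Fintype.card Q := AddChar.card_addChar_le Q ℂ
    _ = Nat.card Q := Nat.card_eq_fintype_card.symm

section DeltaLe

variable {K : Type} [Field K] [NumberField K] (Φ : ∀ v : HeightOneSpectrum (𝓞 K), GkEmb K v)
  (p : ℕ) [Fact p.Prime]

/-- Abstract counting: a homomorphism `b ↦ ψ_b` from a group `Δ` to the characters `A →+ ZMod p`
vanishing on a subgroup `C ≤ A` of finite index, with `ψ_b = 0 → b ∈ N`: then `[Δ : N] ≤ [A : C]`. -/
theorem gk_relIndex_le_of_characters {G A : Type*} [CommGroup G] [AddCommGroup A]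
    (Δ N : Subgroup G) (C : AddSubgroup A) (hC : C.index ≠ 0)
    (ψ : G → (A →+ ZMod p)) (hmul : ∀ b b', ψ (b * b') = ψ b + ψ b')
    (hker : ∀ b ∈ Δ, ∀ D ∈ C, ψ b D = 0) (hinj : ∀ b ∈ Δ, ψ b = 0 → b ∈ N) :
    N.relIndex Δ ≠ 0 ∧ N.relIndex Δ ≤ C.index := by
  have : NeZero p := ⟨(Fact.out : p.Prime).ne_zero⟩
  have : C.FiniteIndex := ⟨hC⟩
  obtain ⟨hfin, hcard⟩ := gkd_card_hom_le p (A ⧸ C)
  have h1 : ψ 1 = 0 := by
    have h := hmul 1 1
    rw [mul_one] at h
    exact left_eq_add.1 h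
  let Ψ : Δ →* Multiplicative ((A ⧸ C) →+ ZMod p) :=
    { toFun := fun b => Multiplicative.ofAdd
        (QuotientAddGroup.lift C (ψ b) (fun D hD => hker b b.2 D hD))
      map_one' := by
        apply Multiplicative.toAdd.injective
        ext D
        show ψ 1 D = 0
        rw [h1]; rfl
      map_mul' := by
        intro b b'
        apply Multiplicative.toAdd.injective
        ext D
        show ψ ((b : G) * (b' : G)) D = ψ b D + ψ b' D
        rw [hmul]; rfl }
  have hk : Ψ.ker ≤ N.subgroupOf Δ := by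
    intro b hb
    rw [Subgroup.mem_subgroupOf]
    refine hinj b b.2 ?_
    ext D
    have h2 : QuotientAddGroup.lift C (ψ b) (fun D hD => hker b b.2 D hD) = 0 :=
      Multiplicative.ofAdd.injective hb
    have h3 := DFunLike.congr_fun h2 (D : A ⧸ C)
    exact h3
  have hidx : Ψ.ker.index = Nat.card Ψ.range := Subgroup.index_ker Ψ
  have hinjR : Function.Injective
      (fun x : Ψ.range => Multiplicative.toAdd (x : Multiplicative ((A ⧸ C) →+ ZMod p))) :=
    fun x y hxy => Subtype.ext (Multiplicative.toAdd.injective hxy)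
  have hle : Nat.card Ψ.range ≤ Nat.card ((A ⧸ C) →+ ZMod p) :=
    Nat.card_le_card_of_injective _ hinjR
  have hne : Ψ.ker.index ≠ 0 := by
    rw [hidx]
    have : Finite Ψ.range := Finite.of_injective _ hinjR
    exact Nat.card_pos.ne'
  have hdvd : (N.subgroupOf Δ).index ∣ Ψ.ker.index := Subgroup.index_dvd_of_le hk
  refine ⟨ne_zero_of_dvd_ne_zero hne hdvd, ?_⟩
  calc N.relIndex Δ ≤ Ψ.ker.index := Nat.le_of_dvd (Nat.pos_of_ne_zero hne) hdvd
    _ = Nat.card Ψ.range := hidx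
    _ ≤ Nat.card ((A ⧸ C) →+ ZMod p) := hle
    _ ≤ Nat.card (A ⧸ C) := hcard
    _ = C.index := rfl

theorem gk_relIndex_delta_le (hp2 : p ≠ 2) {ζ : K} (hζ : IsPrimitiveRoot ζ p)
    (T : Finset (HeightOneSpectrum (𝓞 K)))
    (hT : ∀ v : HeightOneSpectrum (𝓞 K), ((p : ℕ) : 𝓞 K) ∈ v.asIdeal → v ∈ T) :
    (powMonoidHom p : Kˣ →* Kˣ).range.relIndex
        (gkDelta Φ (T : Set (HeightOneSpectrum (𝓞 K))) p) ≠ 0 ∧
    (powMonoidHom p : Kˣ →* Kˣ).range.relIndex
        (gkDelta Φ (T : Set (HeightOneSpectrum (𝓞 K))) p) ≤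
      (gkClSub K (T : Set (HeightOneSpectrum (𝓞 K))) p).index := by
  refine gk_relIndex_le_of_characters p (gkDelta Φ (T : Set (HeightOneSpectrum (𝓞 K))) p)
    (powMonoidHom p : Kˣ →* Kˣ).range (gkClSub K (T : Set (HeightOneSpectrum (𝓞 K))) p)
    (gkClSub_index_ne_zero K p _)
    (fun b => gkArtin Φ p ζ (T : Set (HeightOneSpectrum (𝓞 K))) b)
    (fun b b' => gkArtin_mul Φ p ζ hζ _ b b') ?_ ?_
  · intro b hb D hD
    exact gkArtin_eq_zero_of_mem_gkClSub Φ p ζ hp2 hζ T hT hb hD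
  · intro b hb h0
    obtain ⟨hbV, hbT⟩ := mem_gkDelta_iff.1 hb
    obtain ⟨c, hc⟩ := gk_pow_of_locally_pow Φ p hζ b ∅ (fun v _ => by
      by_cases hv : v ∈ (T : Set (HeightOneSpectrum (𝓞 K)))
      · exact hbT v hv
      · exact gk_loc_pow_of_gkArtin_eq_zero Φ p ζ hζ _ (fun w hw => hT w hw) hbV h0 v hv)
    exact ⟨c, hc⟩

end DeltaLe

end Fermat.Agent.S55
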