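/-
S55 / GK layer, leaf GK-D1 (row 254): maximal isotropic subspaces (pure algebra, Mathlib only).
Exact statements of section `Abstract` of `GK/Spec.lean` (origin/helper9 f1b089b).
Helper declarations carry the prefix `gkm`.
-/
import Mathlib

set_option autoImplicit false
set_option linter.unusedSectionVars false
set_option linter.unusedVariables false
set_option linter.style.haveILetI false

noncomputable section

namespace Fermat.Agent.S55

section Abstract

/-- LINEAR ALGEBRA: an isotropic subspace of at least half the dimension of a non-degenerate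
bilinear space is its own orthogonal (`LinearMap.BilinForm.finrank_orthogonal`). -/
theorem gk_orthogonal_eq_of_isotropic {k V : Type*} [Field k] [AddCommGroup V] [Module k V]
    [FiniteDimensional k V] (B : LinearMap.BilinForm k V) (hB : B.Nondegenerate)
    (W : Submodule k V) (hiso : ∀ x ∈ W, ∀ y ∈ W, B x y = 0)
    (hdim : Module.finrank k V ≤ 2 * Module.finrank k W) :
    (∀ x : V, (∀ y ∈ W, B x y = 0) → x ∈ W) ∧ 2 * Module.finrank k W = Module.finrank k V := by
  have hL : ∀ x, x ∈ B.flip.orthogonal W ↔ ∀ y ∈ W, B x y = 0 := by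
    intro x
    rw [LinearMap.BilinForm.mem_orthogonal_iff]
    constructor
    · intro h y hy
      have := h y hy
      rwa [LinearMap.BilinForm.flip_apply] at this
    · intro h y hy
      rw [LinearMap.BilinForm.flip_apply]
      exact h y hy
  have hWL : W ≤ B.flip.orthogonal W := fun x hx => (hL x).2 (hiso x hx)
  have hfin : Module.finrank k (B.flip.orthogonal W) = Module.finrank k V - Module.finrank k W :=
    LinearMap.BilinForm.finrank_orthogonal hB.flip W
  have h1 : Module.finrank k W ≤ Module.finrank k (B.flip.orthogonal W) :=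
    Submodule.finrank_mono hWL
  have h2 : Module.finrank k W ≤ Module.finrank k V := Submodule.finrank_le W
  have heq : 2 * Module.finrank k W = Module.finrank k V := by omega
  refine ⟨fun x hx => ?_, heq⟩
  have hW : W = B.flip.orthogonal W := Submodule.eq_of_le_of_finrank_le hWL (by omega)
  rw [hW]
  exact (hL x).2 hx

/-! ### The group `G / Gᵖ`, written additively, as a `ZMod p`-vector space -/

section GroupForm

variable (p : ℕ) [Fact p.Prime]

/-- `G / Gᵖ`, written additively. -/
def gkmP (G : Type*) [CommGroup G] : Type _ :=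
  Additive (G ⧸ (powMonoidHom p : G →* G).range)

instance gkmP_addCommGroup (G : Type*) [CommGroup G] : AddCommGroup (gkmP p G) :=
  inferInstanceAs (AddCommGroup (Additive (G ⧸ (powMonoidHom p : G →* G).range)))

/-- The class of `g` in `G / Gᵖ`. -/
def gkmMk {G : Type*} [CommGroup G] (g : G) : gkmP p G :=
  Additive.ofMul (QuotientGroup.mk g : G ⧸ (powMonoidHom p : G →* G).range)

section One

variable {G : Type*} [CommGroup G]

theorem gkmMk_mul (a b : G) : gkmMk p (a * b) = gkmMk p a + gkmMk p b := rfl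

theorem gkmMk_one : gkmMk p (1 : G) = 0 := rfl

theorem gkmMk_surjective : Function.Surjective (gkmMk p : G → gkmP p G) := by
  intro x
  obtain ⟨g, hg⟩ := QuotientGroup.mk_surjective (Additive.toMul x)
  exact ⟨g, congrArg Additive.ofMul hg⟩

theorem gkmMk_eq_iff (a b : G) : gkmMk p a = gkmMk p b ↔ ∃ c : G, a = b * c ^ p := by
  have h0 : gkmMk p a = gkmMk p b ↔
      (QuotientGroup.mk a : G ⧸ (powMonoidHom p : G →* G).range) = QuotientGroup.mk b :=
    ⟨fun h => h, fun h => h⟩
  rw [h0, QuotientGroup.eq]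
  constructor
  · rintro ⟨c, hc⟩
    refine ⟨c⁻¹, ?_⟩
    have hc' : c ^ p = a⁻¹ * b := hc
    rw [inv_pow, hc']
    group
  · rintro ⟨c, rfl⟩
    refine ⟨c⁻¹, ?_⟩
    show (c⁻¹) ^ p = (b * c ^ p)⁻¹ * b
    rw [inv_pow, mul_inv_rev, inv_mul_cancel_right]

theorem gkmMk_eq_zero_iff (a : G) : gkmMk p a = 0 ↔ ∃ c : G, c ^ p = a := by
  rw [← gkmMk_one p, gkmMk_eq_iff]
  constructor
  · rintro ⟨c, hc⟩
    exact ⟨c, by rw [hc, one_mul]⟩
  · rintro ⟨c, hc⟩
    exact ⟨c, by rw [hc, one_mul]⟩

theorem gkm_nsmul_eq_zero (x : gkmP p G) : p • x = 0 := by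
  obtain ⟨g, rfl⟩ := gkmMk_surjective p x
  have h1 : p • gkmMk p g = gkmMk p (g ^ p) := rfl
  rw [h1, gkmMk_eq_zero_iff]
  exact ⟨g, rfl⟩

instance gkmP_module : Module (ZMod p) (gkmP p G) :=
  AddCommGroup.zmodModule (gkm_nsmul_eq_zero p)

theorem gkm_card : Nat.card (gkmP p G) = (powMonoidHom p : G →* G).range.index := rfl

/-! ### A bimultiplicative pairing descends to `G / Gᵖ` -/

variable (s : G → G → ZMod p)

theorem gkm_one_left (hsl : ∀ x x' y, s (x * x') y = s x y + s x' y) (y : G) : s 1 y = 0 := by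
  have h := hsl 1 1 y
  rw [one_mul] at h
  exact (add_eq_left.mp h.symm)

theorem gkm_one_right (hsr : ∀ x y y', s x (y * y') = s x y + s x y') (x : G) : s x 1 = 0 := by
  have h := hsr x 1 1
  rw [one_mul] at h
  exact (add_eq_left.mp h.symm)

theorem gkm_pow_left (hsl : ∀ x x' y, s (x * x') y = s x y + s x' y) (x y : G) (k : ℕ) :
    s (x ^ k) y = k * s x y := by
  induction k with
  | zero => rw [pow_zero, gkm_one_left p s hsl, Nat.cast_zero, zero_mul]
  | succ k ih => rw [pow_succ, hsl, ih, Nat.cast_succ, add_mul, one_mul]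

theorem gkm_pow_right (hsr : ∀ x y y', s x (y * y') = s x y + s x y') (x y : G) (k : ℕ) :
    s x (y ^ k) = k * s x y := by
  induction k with
  | zero => rw [pow_zero, gkm_one_right p s hsr, Nat.cast_zero, zero_mul]
  | succ k ih => rw [pow_succ, hsr, ih, Nat.cast_succ, add_mul, one_mul]

theorem gkm_pow_p_left (hsl : ∀ x x' y, s (x * x') y = s x y + s x' y) (x y : G) :
    s (x ^ p) y = 0 := by
  rw [gkm_pow_left p s hsl, CharP.cast_eq_zero, zero_mul]

theorem gkm_pow_p_right (hsr : ∀ x y y', s x (y * y') = s x y + s x y') (x y : G) :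
    s x (y ^ p) = 0 := by
  rw [gkm_pow_right p s hsr, CharP.cast_eq_zero, zero_mul]

/-- A representative. -/
def gkmRep (x : gkmP p G) : G := Function.surjInv (gkmMk_surjective p) x

theorem gkmMk_rep (x : gkmP p G) : gkmMk p (gkmRep p x) = x :=
  Function.surjInv_eq (gkmMk_surjective p) x

/-- The induced pairing on `G / Gᵖ`. -/
def gkmPair (x y : gkmP p G) : ZMod p := s (gkmRep p x) (gkmRep p y)

theorem gkmPair_mk (hsl : ∀ x x' y, s (x * x') y = s x y + s x' y)
    (hsr : ∀ x y y', s x (y * y') = s x y + s x y') (a b : G) :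
    gkmPair p s (gkmMk p a) (gkmMk p b) = s a b := by
  obtain ⟨c, hc⟩ := (gkmMk_eq_iff p _ _).mp (gkmMk_rep p (gkmMk p a))
  obtain ⟨d, hd⟩ := (gkmMk_eq_iff p _ _).mp (gkmMk_rep p (gkmMk p b))
  unfold gkmPair
  rw [hc, hd, hsl, hsr, hsr, gkm_pow_p_left p s hsl, gkm_pow_p_left p s hsl,
    gkm_pow_p_right p s hsr, add_zero, add_zero, add_zero]

theorem gkmPair_add_left (hsl : ∀ x x' y, s (x * x') y = s x y + s x' y)
    (hsr : ∀ x y y', s x (y * y') = s x y + s x y') (x x' y : gkmP p G) :
    gkmPair p s (x + x') y = gkmPair p s x y + gkmPair p s x' y := by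
  obtain ⟨a, rfl⟩ := gkmMk_surjective p x
  obtain ⟨a', rfl⟩ := gkmMk_surjective p x'
  obtain ⟨b, rfl⟩ := gkmMk_surjective p y
  rw [← gkmMk_mul, gkmPair_mk p s hsl hsr, gkmPair_mk p s hsl hsr, gkmPair_mk p s hsl hsr, hsl]

theorem gkmPair_add_right (hsl : ∀ x x' y, s (x * x') y = s x y + s x' y)
    (hsr : ∀ x y y', s x (y * y') = s x y + s x y') (x y y' : gkmP p G) :
    gkmPair p s x (y + y') = gkmPair p s x y + gkmPair p s x y' := by
  obtain ⟨a, rfl⟩ := gkmMk_surjective p x
  obtain ⟨b, rfl⟩ := gkmMk_surjective p y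
  obtain ⟨b', rfl⟩ := gkmMk_surjective p y'
  rw [← gkmMk_mul, gkmPair_mk p s hsl hsr, gkmPair_mk p s hsl hsr, gkmPair_mk p s hsl hsr, hsr]

theorem gkmPair_zero_left (hsl : ∀ x x' y, s (x * x') y = s x y + s x' y)
    (hsr : ∀ x y y', s x (y * y') = s x y + s x y') (y : gkmP p G) :
    gkmPair p s 0 y = 0 := by
  have h := gkmPair_add_left p s hsl hsr 0 0 y
  rw [add_zero] at h
  exact add_eq_left.mp h.symm

theorem gkmPair_zero_right (hsl : ∀ x x' y, s (x * x') y = s x y + s x' y)
    (hsr : ∀ x y y', s x (y * y') = s x y + s x y') (x : gkmP p G) :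
    gkmPair p s x 0 = 0 := by
  have h := gkmPair_add_right p s hsl hsr x 0 0
  rw [add_zero] at h
  exact add_eq_left.mp h.symm

end One

/-! ### The product -/

section Prod

variable {ι : Type*} [Fintype ι] {G : ι → Type*} [∀ i, CommGroup (G i)]
  (s : ∀ i, G i → G i → ZMod p)

/-- The sum of the local pairings. -/
def gkmSum (x y : ∀ i, gkmP p (G i)) : ZMod p := ∑ i, gkmPair p (s i) (x i) (y i)

theorem gkmSum_add_left (hsl : ∀ i x x' y, s i (x * x') y = s i x y + s i x' y)
    (hsr : ∀ i x y y', s i x (y * y') = s i x y + s i x y') (x x' y : ∀ i, gkmP p (G i)) :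
    gkmSum p s (x + x') y = gkmSum p s x y + gkmSum p s x' y := by
  unfold gkmSum
  rw [← Finset.sum_add_distrib]
  exact Finset.sum_congr rfl fun i _ => gkmPair_add_left p (s i) (hsl i) (hsr i) _ _ _

theorem gkmSum_add_right (hsl : ∀ i x x' y, s i (x * x') y = s i x y + s i x' y)
    (hsr : ∀ i x y y', s i x (y * y') = s i x y + s i x y') (x y y' : ∀ i, gkmP p (G i)) :
    gkmSum p s x (y + y') = gkmSum p s x y + gkmSum p s x y' := by
  unfold gkmSum
  rw [← Finset.sum_add_distrib]
  exact Finset.sum_congr rfl fun i _ => gkmPair_add_right p (s i) (hsl i) (hsr i) _ _ _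

theorem gkmSum_smul_left (hsl : ∀ i x x' y, s i (x * x') y = s i x y + s i x' y)
    (hsr : ∀ i x y y', s i x (y * y') = s i x y + s i x y') (c : ZMod p)
    (x y : ∀ i, gkmP p (G i)) : gkmSum p s (c • x) y = c • gkmSum p s x y :=
  ZMod.map_smul (AddMonoidHom.mk' (fun x => gkmSum p s x y)
    (fun x x' => gkmSum_add_left p s hsl hsr x x' y)) c x

theorem gkmSum_smul_right (hsl : ∀ i x x' y, s i (x * x') y = s i x y + s i x' y)
    (hsr : ∀ i x y y', s i x (y * y') = s i x y + s i x y') (c : ZMod p)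
    (x y : ∀ i, gkmP p (G i)) : gkmSum p s x (c • y) = c • gkmSum p s x y :=
  ZMod.map_smul (AddMonoidHom.mk' (fun y => gkmSum p s x y)
    (fun y y' => gkmSum_add_right p s hsl hsr x y y')) c y

/-- The sum form as a bilinear form over `ZMod p`. -/
def gkmForm (hsl : ∀ i x x' y, s i (x * x') y = s i x y + s i x' y)
    (hsr : ∀ i x y y', s i x (y * y') = s i x y + s i x y') :
    LinearMap.BilinForm (ZMod p) (∀ i, gkmP p (G i)) :=
  LinearMap.mk₂ (ZMod p) (gkmSum p s) (gkmSum_add_left p s hsl hsr) (gkmSum_smul_left p s hsl hsr)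
    (gkmSum_add_right p s hsl hsr) (gkmSum_smul_right p s hsl hsr)

theorem gkmForm_apply (hsl : ∀ i x x' y, s i (x * x') y = s i x y + s i x' y)
    (hsr : ∀ i x y y', s i x (y * y') = s i x y + s i x y') (x y : ∀ i, gkmP p (G i)) :
    gkmForm p s hsl hsr x y = ∑ i, gkmPair p (s i) (x i) (y i) := rfl

theorem gkmForm_mk (hsl : ∀ i x x' y, s i (x * x') y = s i x y + s i x' y)
    (hsr : ∀ i x y y', s i x (y * y') = s i x y + s i x y') (a b : ∀ i, G i) :
    gkmForm p s hsl hsr (fun i => gkmMk p (a i)) (fun i => gkmMk p (b i)) =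
      ∑ i, s i (a i) (b i) := by
  rw [gkmForm_apply]
  exact Finset.sum_congr rfl fun i _ => gkmPair_mk p (s i) (hsl i) (hsr i) _ _

theorem gkmForm_nondegenerate (hsl : ∀ i x x' y, s i (x * x') y = s i x y + s i x' y)
    (hsr : ∀ i x y y', s i x (y * y') = s i x y + s i x y')
    (hndl : ∀ i x, (∀ y, s i x y = 0) → ∃ c, c ^ p = x)
    (hndr : ∀ i y, (∀ x, s i x y = 0) → ∃ c, c ^ p = y) :
    (gkmForm p s hsl hsr).Nondegenerate := by
  classical
  constructor
  · intro x hx
    funext i
    obtain ⟨a, ha⟩ := gkmMk_surjective p (x i)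
    rw [Pi.zero_apply, ← ha, gkmMk_eq_zero_iff]
    apply hndl i a
    intro b
    have h := hx (Pi.single i (gkmMk p b))
    rw [gkmForm_apply, Finset.sum_eq_single i] at h
    · rwa [Pi.single_eq_same, ← ha, gkmPair_mk p (s i) (hsl i) (hsr i)] at h
    · intro j _ hji
      rw [Pi.single_eq_of_ne hji]
      exact gkmPair_zero_right p (s j) (hsl j) (hsr j) _
    · intro h'
      exact absurd (Finset.mem_univ i) h'
  · intro y hy
    funext i
    obtain ⟨b, hb⟩ := gkmMk_surjective p (y i)
    rw [Pi.zero_apply, ← hb, gkmMk_eq_zero_iff]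
    apply hndr i b
    intro a
    have h := hy (Pi.single i (gkmMk p a))
    rw [gkmForm_apply, Finset.sum_eq_single i] at h
    · rwa [Pi.single_eq_same, ← hb, gkmPair_mk p (s i) (hsl i) (hsr i)] at h
    · intro j _ hji
      rw [Pi.single_eq_of_ne hji]
      exact gkmPair_zero_left p (s j) (hsl j) (hsr j) _
    · intro h'
      exact absurd (Finset.mem_univ i) h'

/-! ### The image of `A` -/

variable {A : Type*} [CommGroup A] (φ : ∀ i, A →* G i)

/-- The map `A → ∏ G i / (G i)ᵖ`. -/
def gkmMap : Additive A →+ (∀ i, gkmP p (G i)) where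
  toFun a := fun i => gkmMk p (φ i (Additive.toMul a))
  map_zero' := by
    funext i
    show gkmMk p (φ i 1) = 0
    rw [map_one, gkmMk_one]
  map_add' a b := by
    funext i
    show gkmMk p (φ i (Additive.toMul a * Additive.toMul b)) = _
    rw [map_mul, gkmMk_mul]
    rfl

theorem gkmMap_apply (a : A) (i : ι) : gkmMap p φ (Additive.ofMul a) i = gkmMk p (φ i a) := rfl

/-- The image of `A` as a subspace. -/
def gkmW : Submodule (ZMod p) (∀ i, gkmP p (G i)) :=
  AddSubgroup.toZModSubmodule p (gkmMap p φ).range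

theorem mem_gkmW_iff (x : ∀ i, gkmP p (G i)) :
    x ∈ gkmW p φ ↔ ∃ a : A, ∀ i, x i = gkmMk p (φ i a) := by
  unfold gkmW
  rw [AddSubgroup.mem_toZModSubmodule, AddMonoidHom.mem_range]
  constructor
  · rintro ⟨a, rfl⟩
    exact ⟨Additive.toMul a, fun i => rfl⟩
  · rintro ⟨a, ha⟩
    exact ⟨Additive.ofMul a, funext fun i => (ha i).symm⟩

theorem gkm_card_W (N : Subgroup A) (hN : ∀ a, a ∈ N ↔ ∀ i, ∃ c, c ^ p = φ i a) :
    Nat.card (gkmW p φ) = N.index := by
  have hker : (gkmMap p φ).ker = Subgroup.toAddSubgroup N := by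
    ext a
    rw [AddMonoidHom.mem_ker]
    constructor
    · intro h
      show Additive.toMul a ∈ N
      rw [hN]
      intro i
      have := congrFun h i
      exact (gkmMk_eq_zero_iff p _).mp this
    · intro h
      have h' : Additive.toMul a ∈ N := h
      rw [hN] at h'
      funext i
      exact (gkmMk_eq_zero_iff p _).mpr (h' i)
  rw [← Subgroup.index_toAddSubgroup, ← hker, AddSubgroup.index_ker]
  rfl

end Prod

end GroupForm

/-- GROUP FORM of the previous statement (what `Final.lean` uses): finitely many commutative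
groups `G i` with bimultiplicative pairings `s i : G i → G i → ZMod p`, non-degenerate modulo
`p`-th powers, `∏ [G i : (G i)ᵖ] = p^(2n)`; a group `A` with maps `φ i : A →* G i` such that
`∑ i, s i (φ i a) (φ i b) = 0` and `[A : N] ≥ p^n` for `N = {a | ∀ i, φ i a ∈ (G i)ᵖ}` (this index is
automatically finite). Then the image is its own annihilator and the index is exactly `p^n`. -/
theorem gk_exact_annihilator_abstract (p : ℕ) [Fact p.Prime] {ι : Type*} [Fintype ι]
    {G : ι → Type*} [∀ i, CommGroup (G i)] {A : Type*} [CommGroup A]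
    (s : ∀ i, G i → G i → ZMod p)
    (hsl : ∀ i x x' y, s i (x * x') y = s i x y + s i x' y)
    (hsr : ∀ i x y y', s i x (y * y') = s i x y + s i x y')
    (hndl : ∀ i x, (∀ y, s i x y = 0) → ∃ c, c ^ p = x)
    (hndr : ∀ i y, (∀ x, s i x y = 0) → ∃ c, c ^ p = y)
    (n : ℕ) (hcard : ∏ i, (powMonoidHom p : G i →* G i).range.index = p ^ (2 * n))
    (φ : ∀ i, A →* G i) (hiso : ∀ a b : A, ∑ i, s i (φ i a) (φ i b) = 0)
    (N : Subgroup A) (hN : ∀ a, a ∈ N ↔ ∀ i, ∃ c, c ^ p = φ i a)
    (hidx : p ^ n ≤ N.index) :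
    (∀ x : ∀ i, G i, (∀ b : A, ∑ i, s i (x i) (φ i b) = 0) →
      ∃ a : A, ∀ i, ∃ c : G i, φ i a = x i * c ^ p) ∧ N.index = p ^ n := by
  have hp : p.Prime := Fact.out
  -- finiteness
  have hidx_ne : ∀ i, (powMonoidHom p : G i →* G i).range.index ≠ 0 := by
    intro i h
    have h0 : ∏ i, (powMonoidHom p : G i →* G i).range.index = 0 :=
      Finset.prod_eq_zero (Finset.mem_univ i) h
    rw [hcard] at h0
    exact (pow_ne_zero _ hp.ne_zero) h0
  haveI : ∀ i, Finite (gkmP p (G i)) := fun i =>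
    Nat.finite_of_card_ne_zero (by rw [gkm_card]; exact hidx_ne i)
  haveI : Finite (∀ i, gkmP p (G i)) := Pi.finite
  haveI : FiniteDimensional (ZMod p) (∀ i, gkmP p (G i)) := Module.Finite.of_finite
  -- cardinalities and dimensions
  have hcardP : Nat.card (∀ i, gkmP p (G i)) = p ^ (2 * n) := by
    rw [Nat.card_pi]
    simp_rw [gkm_card]
    exact hcard
  have hfinP : Module.finrank (ZMod p) (∀ i, gkmP p (G i)) = 2 * n := by
    have h := Module.natCard_eq_pow_finrank (K := ZMod p) (V := ∀ i, gkmP p (G i))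
    rw [hcardP, Nat.card_zmod] at h
    exact (Nat.pow_right_injective hp.two_le h).symm
  have hcardW := gkm_card_W p φ N hN
  have hfinW : N.index = p ^ Module.finrank (ZMod p) (gkmW p φ) := by
    rw [← hcardW]
    have h := Module.natCard_eq_pow_finrank (K := ZMod p) (V := gkmW p φ)
    rwa [Nat.card_zmod] at h
  have hle : n ≤ Module.finrank (ZMod p) (gkmW p φ) := by
    rw [hfinW] at hidx
    exact (Nat.pow_le_pow_iff_right hp.one_lt).mp hidx
  have hisoW : ∀ x ∈ gkmW p φ, ∀ y ∈ gkmW p φ, gkmForm p s hsl hsr x y = 0 := by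
    intro x hx y hy
    obtain ⟨a, ha⟩ := (mem_gkmW_iff p φ x).mp hx
    obtain ⟨b, hb⟩ := (mem_gkmW_iff p φ y).mp hy
    rw [funext ha, funext hb, gkmForm_mk]
    exact hiso a b
  obtain ⟨h1, h2⟩ := gk_orthogonal_eq_of_isotropic (gkmForm p s hsl hsr)
    (gkmForm_nondegenerate p s hsl hsr hndl hndr) (gkmW p φ) hisoW (by rw [hfinP]; omega)
  refine ⟨?_, ?_⟩
  · intro x hx
    have hmem : (fun i => gkmMk p (x i)) ∈ gkmW p φ := by
      apply h1
      intro y hy
      obtain ⟨b, hb⟩ := (mem_gkmW_iff p φ y).mp hy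
      rw [funext hb, gkmForm_mk]
      exact hx b
    obtain ⟨a, ha⟩ := (mem_gkmW_iff p φ _).mp hmem
    refine ⟨a, fun i => ?_⟩
    exact (gkmMk_eq_iff p _ _).mp (ha i).symm
  · rw [hfinW]
    congr 1
    rw [hfinP] at h2
    omega

end Abstract

end Fermat.Agent.S55
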