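/-
S55 / GK-D2: the conclusion of the `H¹`-level of Poitou-Tate:
* `gk_relIndex_delta_eq` : `[Δ_T : Kˣᵖ] = |Cl_T(K)/p|`;
* `gk_exact_annihilator` : the image of `V_T` in `∏_{v∈T} K_vˣ/p` is its own annihilator.
Assembly of A1 (CardV), A2 (CardP), B1 (isotropy), C3 (`[Δ_T:Kˣᵖ] ≤ |Cl_T/p|`), D1 (abstract
maximal isotropy) and helper22's local non-degeneracy.  Helper lemmas are prefixed `gkfin_`.
-/
import Fermat.Agent.S55.GK.CardV
import Fermat.Agent.S55.GK.CardP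
import Fermat.Agent.S55.GK.IsotropicA
import Fermat.Agent.S55.GK.DeltaLe
import Fermat.Agent.S55.GK.MaxIsoAbstract

set_option autoImplicit false
set_option linter.unusedSectionVars false

noncomputable section

namespace Fermat.Agent.S55

open NumberField IsDedekindDomain Fermat.Agent.S14

section Final

variable {K : Type} [Field K] [NumberField K] (Φ : ∀ v : HeightOneSpectrum (𝓞 K), GkEmb K v)
  (p : ℕ) [Fact p.Prime] (ζ : K)

/-- `Kˣᵖ ⊆ Δ_T`. -/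
theorem gkfin_pow_le_gkDelta (T : Set (HeightOneSpectrum (𝓞 K))) :
    (powMonoidHom p : Kˣ →* Kˣ).range ≤ gkDelta Φ T p := by
  intro b hb
  rw [mem_gkDelta_iff]
  refine ⟨gk_pow_le_gkV K p T hb, fun v _ => ?_⟩
  obtain ⟨c, rfl⟩ := hb
  exact ⟨gkLoc Φ v c, by rw [powMonoidHom_apply, map_pow]⟩

theorem gkfin_gkDelta_le_gkV (T : Set (HeightOneSpectrum (𝓞 K))) :
    gkDelta Φ T p ≤ gkV K T p := fun _ hb => (mem_gkDelta_iff.mp hb).1

/-- The common core of the two final statements. -/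
theorem gkfin_core (hp2 : p ≠ 2) (hζ : IsPrimitiveRoot ζ p)
    (T : Finset (HeightOneSpectrum (𝓞 K)))
    (hT : ∀ v : HeightOneSpectrum (𝓞 K), ((p : ℕ) : 𝓞 K) ∈ v.asIdeal → v ∈ T) :
    (∀ x : ∀ i : (T : Set (HeightOneSpectrum (𝓞 K))), (gkFld Φ i.1)ˣ,
      (∀ b : gkV K (T : Set (HeightOneSpectrum (𝓞 K))) p,
        ∑ i : (T : Set (HeightOneSpectrum (𝓞 K))),
          gkSymL Φ p ζ i.1 (x i) (gkLoc Φ i.1 (b : Kˣ)) = 0) →
      ∃ a : gkV K (T : Set (HeightOneSpectrum (𝓞 K))) p,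
        ∀ i : (T : Set (HeightOneSpectrum (𝓞 K))), ∃ c : (gkFld Φ i.1)ˣ,
          gkLoc Φ i.1 (a : Kˣ) = x i * c ^ p) ∧
    ((gkDelta Φ (T : Set (HeightOneSpectrum (𝓞 K))) p).subgroupOf
      (gkV K (T : Set (HeightOneSpectrum (𝓞 K))) p)).index = p ^ (Units.rank K + 1 + T.card) := by
  classical
  set TS : Set (HeightOneSpectrum (𝓞 K)) := (T : Set (HeightOneSpectrum (𝓞 K))) with hTS
  have hp : p.Prime := Fact.out
  have hζloc : ∀ v, IsPrimitiveRoot (gkEmbR Φ v ζ) p := gk_isPrimitiveRoot_loc Φ p ζ hζ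
  set n : ℕ := Units.rank K + 1 + T.card with hn
  -- the index bookkeeping
  have hA1 := gk_relIndex_pow_gkV K p hζ T
  obtain ⟨hC3ne, hC3⟩ := gk_relIndex_delta_le Φ p hp2 hζ T hT
  have hcne := gkClSub_index_ne_zero K p TS
  have hmul := Subgroup.relIndex_mul_relIndex _ _ _ (gkfin_pow_le_gkDelta Φ p TS)
    (gkfin_gkDelta_le_gkV Φ p TS)
  rw [hA1] at hmul
  set h : ℕ := (powMonoidHom p : Kˣ →* Kˣ).range.relIndex (gkDelta Φ TS p) with hh
  set c : ℕ := (gkClSub K TS p).index with hc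
  set I : ℕ := (gkDelta Φ TS p).relIndex (gkV K TS p) with hI
  have hpow : p ^ (Units.rank K + T.card + 1) = p ^ n := by
    rw [hn]; congr 1; ring
  rw [hpow] at hmul
  -- `h * I = p ^ n * c`, `0 < h ≤ c`
  have hidx : p ^ n ≤ I := by
    have h1 : p ^ n * h ≤ I * h := by
      calc p ^ n * h ≤ p ^ n * c := Nat.mul_le_mul_left _ hC3
        _ = h * I := hmul.symm
        _ = I * h := mul_comm _ _
    exact Nat.le_of_mul_le_mul_right h1 (Nat.pos_of_ne_zero hC3ne)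
  -- the abstract theorem
  have hcard : ∏ i : TS, (powMonoidHom p : (gkFld Φ i.1)ˣ →* (gkFld Φ i.1)ˣ).range.index =
      p ^ (2 * n) := by
    have h1 := gk_prod_index_pow_loc Φ p hζ T hT
    have h2 : (∏ i : TS, (powMonoidHom p : (gkFld Φ i.1)ˣ →* (gkFld Φ i.1)ˣ).range.index) =
        ∏ v ∈ T, (powMonoidHom p : (gkFld Φ v)ˣ →* (gkFld Φ v)ˣ).range.index :=
      Finset.prod_coe_sort T
        (fun v => (powMonoidHom p : (gkFld Φ v)ˣ →* (gkFld Φ v)ˣ).range.index)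
    rw [h2, h1]
    congr 1
    have := gk_two_mul_rank_add_one K p hp2 hζ
    rw [hn]
    omega
  have habs := gk_exact_annihilator_abstract p (ι := TS) (G := fun i => (gkFld Φ i.1)ˣ)
    (A := gkV K TS p) (fun i => gkSymL Φ p ζ i.1)
    (fun i x x' y => lfSymbol_mul_left _ _ p _ (hζloc i.1) x x' y)
    (fun i x y y' => lfSymbol_mul_right _ _ p _ (hζloc i.1) x y y')
    (fun i x hx => lfSymbol_nondegenerate_left _ _ p _ (hζloc i.1) x hx)
    (fun i y hy => lfSymbol_nondegenerate_right _ _ p _ (hζloc i.1) y hy)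
    n hcard (fun i => (gkLoc Φ i.1).comp (gkV K TS p).subtype)
    (by
      intro a b
      have := gk_isotropic Φ p ζ hp2 hζ T hT a.2 b.2
      rw [← Finset.sum_coe_sort T (fun v => gkSym Φ p ζ v (a : Kˣ) (b : Kˣ))] at this
      exact this)
    ((gkDelta Φ TS p).subgroupOf (gkV K TS p))
    (by
      intro a
      rw [Subgroup.mem_subgroupOf, mem_gkDelta_iff]
      constructor
      · intro ha i
        exact ha.2 i.1 i.2
      · intro ha
        exact ⟨a.2, fun v hv => ha ⟨v, hv⟩⟩)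
    hidx
  exact habs

/-- `[Δ_T : Kˣᵖ] = |Cl_T(K)/p|`. -/
theorem gk_relIndex_delta_eq (hp2 : p ≠ 2) (hζ : IsPrimitiveRoot ζ p)
    (T : Finset (HeightOneSpectrum (𝓞 K)))
    (hT : ∀ v : HeightOneSpectrum (𝓞 K), ((p : ℕ) : 𝓞 K) ∈ v.asIdeal → v ∈ T) :
    (powMonoidHom p : Kˣ →* Kˣ).range.relIndex
        (gkDelta Φ (T : Set (HeightOneSpectrum (𝓞 K))) p) =
      (gkClSub K (T : Set (HeightOneSpectrum (𝓞 K))) p).index := by
  have hp : p.Prime := Fact.out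
  obtain ⟨-, hidx⟩ := gkfin_core Φ p ζ hp2 hζ T hT
  have hA1 := gk_relIndex_pow_gkV K p hζ T
  have hmul := Subgroup.relIndex_mul_relIndex _ _ _
    (gkfin_pow_le_gkDelta Φ p (T : Set (HeightOneSpectrum (𝓞 K))))
    (gkfin_gkDelta_le_gkV Φ p (T : Set (HeightOneSpectrum (𝓞 K))))
  rw [hA1] at hmul
  have hI : (gkDelta Φ (T : Set (HeightOneSpectrum (𝓞 K))) p).relIndex
      (gkV K (T : Set (HeightOneSpectrum (𝓞 K))) p) = p ^ (Units.rank K + 1 + T.card) := hidx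
  rw [hI] at hmul
  have hpow : p ^ (Units.rank K + T.card + 1) = p ^ (Units.rank K + 1 + T.card) := by
    congr 1; ring
  rw [hpow, mul_comm] at hmul
  exact Nat.eq_of_mul_eq_mul_left (pow_pos hp.pos _) hmul

/-- EXACT ANNIHILATOR (`[b1]`, global part). -/
theorem gk_exact_annihilator (hp2 : p ≠ 2) (hζ : IsPrimitiveRoot ζ p)
    (T : Finset (HeightOneSpectrum (𝓞 K)))
    (hT : ∀ v : HeightOneSpectrum (𝓞 K), ((p : ℕ) : 𝓞 K) ∈ v.asIdeal → v ∈ T)
    (x : ∀ v : HeightOneSpectrum (𝓞 K), (gkFld Φ v)ˣ)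
    (hx : ∀ b : Kˣ, b ∈ gkV K (T : Set (HeightOneSpectrum (𝓞 K))) p →
      ∑ v ∈ T, gkSymL Φ p ζ v (x v) (gkLoc Φ v b) = 0) :
    ∃ a : Kˣ, a ∈ gkV K (T : Set (HeightOneSpectrum (𝓞 K))) p ∧
      ∀ v ∈ T, ∃ c : (gkFld Φ v)ˣ, gkLoc Φ v a = x v * c ^ p := by
  obtain ⟨hann, -⟩ := gkfin_core Φ p ζ hp2 hζ T hT
  obtain ⟨a, ha⟩ := hann (fun i => x i.1) (by
    intro b
    have := hx b.1 b.2
    rw [← Finset.sum_coe_sort T (fun v => gkSymL Φ p ζ v (x v) (gkLoc Φ v (b : Kˣ)))] at this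
    exact this)
  exact ⟨a.1, a.2, fun v hv => ha ⟨v, hv⟩⟩

end Final

end Fermat.Agent.S55
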