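/-
S55 / GK-C1: FROBENIUS GENERATION.  An element of `Kˣ` (`K ∋ ζ_p`) which is a `p`-th power in `K_v`
for all finite places `v` outside a finite set is a `p`-th power in `K`.

Route: `L` = splitting field of `Xᵖ - b`; if `b ∉ Kˣᵖ` then `[L:K] = p > 1` and S14's density
statement (E1) `exists_good_frobAt_ne_one` gives a good place with non-trivial Frobenius; but at a
place where `b` is a local `p`-th power the Frobenius fixes `β = b^{1/p}`.
Helper lemmas are prefixed `gkf_`.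
-/
import Mathlib
import Fermat.Agent.S14.Density
import Fermat.Agent.S14.Approx
import Fermat.Agent.S55.GK.Defs
import Fermat.Agent.S55.LG.PlaceSpec
import Fermat.Agent.S55.KummerRam

set_option autoImplicit false
set_option linter.unusedSectionVars false

noncomputable section

namespace Fermat.Agent.S55

open NumberField IsDedekindDomain Polynomial Fermat.Agent.S14

/-! ## Step 1: a number-field statement: residue `p`-th power ⟹ trivial Frobenius -/

section Frob

variable {K L : Type*} [Field K] [NumberField K] [Field L] [NumberField L] [Algebra K L]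
  [IsGalois K L]

/-- If `ξ ≠ 1` is a `p`-th root of unity (in a domain) and `ξ - 1 ∈ P`, then `p ∈ P`. -/
theorem gkf_natCast_mem_of_root_sub_one_mem {R : Type*} [CommRing R] [IsDomain R] {p : ℕ}
    (hp : p.Prime) {ξ : R} (hξ : IsPrimitiveRoot ξ p) (P : Ideal R) (h : ξ - 1 ∈ P) :
    (p : R) ∈ P := by
  have h0 : ∑ i ∈ Finset.range p, ξ ^ i = 0 := hξ.geom_sum_eq_zero hp.one_lt
  have h1 : Ideal.Quotient.mk P ξ = 1 := by
    rw [← sub_eq_zero, ← map_one (Ideal.Quotient.mk P), ← map_sub]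
    exact Ideal.Quotient.eq_zero_iff_mem.mpr h
  have h2 : Ideal.Quotient.mk P (∑ i ∈ Finset.range p, ξ ^ i) = (p : R ⧸ P) := by
    rw [map_sum]
    simp [map_pow, h1]
  rw [h0, map_zero] at h2
  rw [← Ideal.Quotient.eq_zero_iff_mem, map_natCast]
  exact h2.symm

/-- `x ≡ algebraMap y mod P` for some `y : 𝓞 K` implies `x ^ Nv ≡ x mod P`. -/
theorem gkf_pow_card_of_congr (v : HeightOneSpectrum (𝓞 K)) (P : Ideal (𝓞 L)) [P.IsPrime]
    [hPv : P.LiesOver v.asIdeal] (x : 𝓞 L) (y : 𝓞 K)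
    (hxy : x - algebraMap (𝓞 K) (𝓞 L) y ∈ P) :
    Ideal.Quotient.mk P x ^ Nat.card (𝓞 K ⧸ v.asIdeal) = Ideal.Quotient.mk P x := by
  have hx : Ideal.Quotient.mk P x = Ideal.Quotient.mk P (algebraMap (𝓞 K) (𝓞 L) y) := by
    rw [← sub_eq_zero, ← map_sub]
    exact Ideal.Quotient.eq_zero_iff_mem.mpr hxy
  have hfin : Finite (𝓞 K ⧸ v.asIdeal) := Ideal.finiteQuotientOfFreeOfNeBot _ v.ne_bot
  have hfield : IsField (𝓞 K ⧸ v.asIdeal) :=
    (Ideal.Quotient.maximal_ideal_iff_isField_quotient _).mp v.isMaximal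
  let _ : Field (𝓞 K ⧸ v.asIdeal) := hfield.toField
  let _ : Fintype (𝓞 K ⧸ v.asIdeal) := Fintype.ofFinite _
  have hy : Ideal.Quotient.mk v.asIdeal y ^ Nat.card (𝓞 K ⧸ v.asIdeal) =
      Ideal.Quotient.mk v.asIdeal y := by
    rw [Nat.card_eq_fintype_card]
    exact FiniteField.pow_card _
  have hy' : y ^ Nat.card (𝓞 K ⧸ v.asIdeal) - y ∈ v.asIdeal := by
    rw [← Ideal.Quotient.eq_zero_iff_mem, map_sub, map_pow, hy, sub_self]
  have hy'' : algebraMap (𝓞 K) (𝓞 L) (y ^ Nat.card (𝓞 K ⧸ v.asIdeal) - y) ∈ P := by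
    have hov : v.asIdeal ≤ P.under (𝓞 K) := le_of_eq hPv.over
    exact Ideal.mem_comap.mp (hov hy')
  rw [hx, ← map_pow, ← sub_eq_zero, ← map_sub, Ideal.Quotient.eq_zero_iff_mem, ← map_pow,
    ← map_sub]
  exact hy''

/-- **Residue `p`-th power ⟹ trivial Frobenius.** `b' ∈ 𝓞 K` a `v`-unit which is a `p`-th power
modulo `v` (`v ∤ p`, `ζ_p ∈ K`), `L = K(β)` Galois over `K` with `βᵖ = b'`: then `Frob_v = 1`. -/
theorem gkf_frobAt_eq_one {p : ℕ} [hp : Fact p.Prime] {ζ : K} (hζ : IsPrimitiveRoot ζ p)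
    (v : HeightOneSpectrum (𝓞 K)) (hvp : ((p : ℕ) : 𝓞 K) ∉ v.asIdeal)
    (b' y : 𝓞 K) (hy : y ^ p - b' ∈ v.asIdeal) (hb' : b' ∉ v.asIdeal)
    (β : L) (hβ : β ^ p = algebraMap K L (b' : K)) (htop : Algebra.adjoin K {β} = ⊤) :
    frobAt K L v = 1 := by
  have hp0 : 0 < p := hp.out.pos
  set P : Ideal (𝓞 L) := primeAbove K L v with hP
  have hPv : P.LiesOver v.asIdeal := primeAbove_liesOver K L v
  have hunder : ∀ z : 𝓞 K, z ∈ v.asIdeal → algebraMap (𝓞 K) (𝓞 L) z ∈ P := by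
    intro z hz
    have hov : v.asIdeal ≤ P.under (𝓞 K) := le_of_eq hPv.over
    exact Ideal.mem_comap.mp (hov hz)
  have hunder' : ∀ z : 𝓞 K, algebraMap (𝓞 K) (𝓞 L) z ∈ P → z ∈ v.asIdeal := by
    intro z hz
    have hov : P.under (𝓞 K) ≤ v.asIdeal := le_of_eq hPv.over.symm
    exact hov (Ideal.mem_comap.mpr hz)
  set σ : L ≃ₐ[K] L := frobAt K L v with hσdef
  have hσ : IsArithFrobAt (𝓞 K) σ P := isArithFrobAt_frobAt K L v
  -- `β` is an algebraic integer
  have hβint : IsIntegral ℤ β := by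
    refine IsIntegral.of_pow hp0 ?_
    rw [hβ]
    exact (RingOfIntegers.isIntegral_coe b').map (IsScalarTower.toAlgHom ℤ K L)
  set x : 𝓞 L := ⟨β, hβint⟩ with hx
  have hxcoe : (x : L) = β := rfl
  have hxp : x ^ p = algebraMap (𝓞 K) (𝓞 L) b' := by
    apply RingOfIntegers.ext
    rw [RingOfIntegers.coe_eq_algebraMap, map_pow]
    exact hβ
  -- `x ∉ P`
  have hxP : x ∉ P := by
    intro hxmem
    have : x ^ p ∈ P := Ideal.pow_mem_of_mem P hxmem p hp0
    rw [hxp] at this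
    exact hb' (hunder' _ this)
  -- roots of unity in `𝓞 L`
  set ζK : 𝓞 K := hζ.toInteger with hζK
  have hζKprim : IsPrimitiveRoot ζK p := hζ.toInteger_isPrimitiveRoot
  set ζL : 𝓞 L := algebraMap (𝓞 K) (𝓞 L) ζK with hζL
  have hζLprim : IsPrimitiveRoot ζL p :=
    hζKprim.map_of_injective (FaithfulSMul.algebraMap_injective (𝓞 K) (𝓞 L))
  have : NeZero p := ⟨hp.out.ne_zero⟩
  -- `x ≡ algebraMap (ζ^j y) mod P`
  have hprod : x ^ p - (algebraMap (𝓞 K) (𝓞 L) y) ^ p ∈ P := by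
    rw [hxp, ← map_pow, ← map_sub]
    have : b' - y ^ p ∈ v.asIdeal := by
      rw [← neg_sub]
      exact v.asIdeal.neg_mem hy
    exact hunder _ this
  rw [hζLprim.pow_sub_pow_eq_prod_sub_mul x (algebraMap (𝓞 K) (𝓞 L) y) hp0] at hprod
  obtain ⟨ξ, hξmem, hξ⟩ := (Ideal.IsPrime.prod_mem_iff (hp := (inferInstance : P.IsPrime))).mp hprod
  have hξ1 : ξ ^ p = 1 := ((mem_nthRootsFinset hp0 (1 : 𝓞 L)).mp hξmem)
  obtain ⟨j, -, hj⟩ := hζLprim.eq_pow_of_pow_eq_one hξ1
  have hcongr : x - algebraMap (𝓞 K) (𝓞 L) (ζK ^ j * y) ∈ P := by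
    rw [map_mul, map_pow, ← hζL, hj]
    exact hξ
  have hfix : Ideal.Quotient.mk P x ^ Nat.card (𝓞 K ⧸ v.asIdeal) = Ideal.Quotient.mk P x :=
    gkf_pow_card_of_congr v P x (ζK ^ j * y) hcongr
  -- the Frobenius congruence
  have hcard : Nat.card (𝓞 K ⧸ P.under (𝓞 K)) = Nat.card (𝓞 K ⧸ v.asIdeal) := by
    rw [← hPv.over]
  have hfrob : Ideal.Quotient.mk P (σ • x) = Ideal.Quotient.mk P x := by
    have h1 := artin_mk_pow_smul hσ 1 x
    rw [pow_one, pow_one, hcard, hfix] at h1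
    exact h1
  have hdiff : σ • x - x ∈ P := by
    rw [← Ideal.Quotient.eq_zero_iff_mem, map_sub, hfrob, sub_self]
  -- Kummer: `σ β = ζ^k β`
  have hβ0 : β ≠ 0 := by
    intro h0
    apply hxP
    have : x = 0 := RingOfIntegers.ext h0
    rw [this]
    exact P.zero_mem
  have hx0 : x ≠ 0 := fun h => hxP (h ▸ P.zero_mem)
  have hσx : (σ • x) ^ p = x ^ p := by
    rw [← smul_pow', hxp]
    exact smul_algebraMap σ b'
  have hquot : (σ • x) ^ p - x ^ p = 0 := by rw [hσx, sub_self]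
  rw [hζLprim.pow_sub_pow_eq_prod_sub_mul (σ • x) x hp0, Finset.prod_eq_zero_iff] at hquot
  obtain ⟨ξ', hξ'mem, hξ'⟩ := hquot
  have hξ'1 : ξ' ^ p = 1 := ((mem_nthRootsFinset hp0 (1 : 𝓞 L)).mp hξ'mem)
  have hσx' : σ • x = ξ' * x := sub_eq_zero.mp hξ'
  -- `ξ' = 1`
  have hξ'one : ξ' = 1 := by
    by_contra hne
    have hprim : IsPrimitiveRoot ξ' p := by
      have hord : orderOf ξ' ∣ p := orderOf_dvd_of_pow_eq_one hξ'1
      rcases (Nat.dvd_prime hp.out).mp hord with h1 | h1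
      · exact absurd (orderOf_eq_one_iff.mp h1) hne
      · rw [← h1]
        exact IsPrimitiveRoot.orderOf ξ'
    have hmem : (ξ' - 1) * x ∈ P := by
      have : (ξ' - 1) * x = σ • x - x := by rw [hσx']; ring
      rw [this]
      exact hdiff
    rcases (inferInstance : P.IsPrime).mem_or_mem hmem with h | h
    · have hpP : ((p : ℕ) : 𝓞 L) ∈ P := gkf_natCast_mem_of_root_sub_one_mem hp.out hprim P h
      apply hvp
      apply hunder'
      rw [map_natCast]
      exact hpP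
    · exact hxP h
  -- conclusion
  have hσβ : σ β = β := by
    have := congrArg (fun z : 𝓞 L => (z : L)) hσx'
    simp only [hξ'one, one_mul] at this
    exact this
  have hσ1 : (σ : L →ₐ[K] L) = AlgHom.id K L := by
    apply AlgHom.ext_of_adjoin_eq_top htop
    intro z hz
    rw [Set.mem_singleton_iff] at hz
    subst hz
    exact hσβ
  apply AlgEquiv.coe_toAlgHom_injective
  exact hσ1

end Frob

/-! ## Step 2: a local `p`-th power is a `p`-th power in the residue field -/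

section Residue

variable {K : Type*} [Field K] [NumberField K]

/-- If the image of the `v`-unit `b' ∈ 𝓞 K` in `K_v` is a `p`-th power, then `b'` is a `p`-th power
modulo `v`. -/
theorem gkf_residue_pow (q : ℕ) [Fact q.Prime] (i : K →+* PadicAlgCl q) {p : ℕ} (hp0 : 0 < p)
    (b' : 𝓞 K) (hb' : b' ∉ (lgPlace q i).asIdeal) (c : lgField q i)
    (hc : c ^ p = lgEmb q i (b' : K)) :
    ∃ y : 𝓞 K, y ^ p - b' ∈ (lgPlace q i).asIdeal := by
  have hb1 : ‖i (b' : K)‖ = 1 := lgdense_norm_eq_one_of_notMem q i hb'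
  have hcn : ‖(c : PadicAlgCl q)‖ ^ p = 1 := by
    rw [← norm_pow, ← hb1]
    congr 1
    have := congrArg (fun z : lgField q i => (z : PadicAlgCl q)) hc
    simpa using this
  have hc1 : ‖(c : PadicAlgCl q)‖ = 1 :=
    (pow_eq_one_iff_of_nonneg (norm_nonneg _) hp0.ne').mp hcn
  have hcint : c ∈ lfInt q (lgField q i) := (mem_lfInt_lgField_iff q i c).mpr (le_of_eq hc1)
  have hbint : lgEmb q i (b' : K) ∈ lfInt q (lgField q i) := by
    rw [mem_lfInt_lgField_iff, lgEmb_coe]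
    exact le_of_eq hb1
  obtain ⟨e, he⟩ := lg_exists_residue_equiv q i
  obtain ⟨y, hy⟩ := Ideal.Quotient.mk_surjective
    (e.symm (IsLocalRing.residue _ ⟨c, hcint⟩))
  refine ⟨y, ?_⟩
  rw [← Ideal.Quotient.eq_zero_iff_mem, map_sub, map_pow, sub_eq_zero]
  apply e.injective
  rw [map_pow, hy, RingEquiv.apply_symm_apply, he b' hbint, ← map_pow]
  congr 1
  exact Subtype.ext hc

end Residue

/-! ## Step 3: Frobenius generation -/

section Main

variable {K : Type} [Field K] [NumberField K] (Φ : ∀ v : HeightOneSpectrum (𝓞 K), GkEmb K v)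
  (p : ℕ) [Fact p.Prime]

/-- Two distinct rational primes cannot both lie in a proper ideal. -/
theorem gkf_not_mem_of_prime_ne {R : Type*} [CommRing R] (I : Ideal R) (hI : I ≠ ⊤) {a b : ℕ}
    (ha : a.Prime) (hb : b.Prime) (hab : a ≠ b) (haI : (a : R) ∈ I) : (b : R) ∉ I := by
  intro hbI
  apply hI
  rw [Ideal.eq_top_iff_one]
  have hcop : Nat.Coprime a b := (Nat.coprime_primes ha hb).mpr hab
  have h1 : (a : ℤ) * Nat.gcdA a b + (b : ℤ) * Nat.gcdB a b = 1 := by
    have := Nat.gcd_eq_gcd_ab a b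
    rw [hcop] at this
    exact_mod_cast this.symm
  have h2 : ((a : R) * ((Nat.gcdA a b : ℤ) : R) + (b : R) * ((Nat.gcdB a b : ℤ) : R)) = 1 := by
    have := congrArg (fun z : ℤ => (z : R)) h1
    simpa using this
  rw [← h2]
  exact I.add_mem (I.mul_mem_right _ haI) (I.mul_mem_right _ hbI)

/-- FROBENIUS GENERATION. -/
theorem gk_pow_of_locally_pow {ζ : K} (hζ : IsPrimitiveRoot ζ p) (b : Kˣ)
    (T' : Finset (HeightOneSpectrum (𝓞 K)))
    (h : ∀ v : HeightOneSpectrum (𝓞 K), v ∉ T' → ∃ c : (gkFld Φ v)ˣ, c ^ p = gkLoc Φ v b) :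
    ∃ c : Kˣ, c ^ p = b := by
  classical
  have hp : Fact p.Prime := ‹_›
  by_contra hcon
  push Not at hcon
  have hp0 : 0 < p := hp.out.pos
  have : NeZero p := ⟨hp.out.ne_zero⟩
  have ha : ∀ c : K, c ^ p ≠ (b : K) := by
    intro c hc
    have hc0 : c ≠ 0 := by
      rintro rfl
      rw [zero_pow hp.out.ne_zero] at hc
      exact b.ne_zero hc.symm
    exact hcon (Units.mk0 c hc0) (Units.ext hc)
  have H : Irreducible (X ^ p - C (b : K)) := X_pow_sub_C_irreducible_of_prime hp.out ha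
  have hζ' : (primitiveRoots p K).Nonempty := ⟨ζ, (mem_primitiveRoots hp0).mpr hζ⟩
  let L := (X ^ p - C (b : K)).SplittingField
  have : NumberField L := NumberField.of_module_finite K L
  have : IsGalois K L := isGalois_of_isSplittingField_X_pow_sub_C hζ' H L
  have hdeg : Module.finrank K L = p := finrank_of_isSplittingField_X_pow_sub_C hζ' H L
  obtain ⟨β, hβ⟩ : ∃ β : L, β ^ p = algebraMap K L (b : K) :=
    ⟨_, rootOfSplitsXPowSubC_pow (b : K) L⟩
  have htop : Algebra.adjoin K {β} = ⊤ :=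
    Algebra.adjoin_root_eq_top_of_isSplittingField hζ' H hβ
  -- the excluded residue characteristics
  set B : Finset ℕ :=
    insert p ((T' ∪ (divOf K (b : K)).support).image fun v => Ideal.absNorm v.asIdeal) with hB
  obtain ⟨v, hgood, -, hfrob⟩ :=
    exists_good_frobAt_ne_one (K := K) (L := L) (by rw [hdeg]; exact hp.out.one_lt) B
  apply hfrob
  have hvB : ∀ w : HeightOneSpectrum (𝓞 K), w ∈ T' ∪ (divOf K (b : K)).support →
      Ideal.absNorm w.asIdeal ∈ B := fun w hw =>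
    Finset.mem_insert_of_mem (Finset.mem_image_of_mem _ hw)
  have hvT' : v ∉ T' := fun hv => hgood.2 (hvB v (Finset.mem_union_left _ hv))
  have hvb : divOf K (b : K) v = 0 := by
    by_contra hne
    exact hgood.2 (hvB v (Finset.mem_union_right _ (Finsupp.mem_support_iff.mpr hne)))
  have hvp : ((p : ℕ) : 𝓞 K) ∉ v.asIdeal := by
    have hne : Ideal.absNorm v.asIdeal ≠ p := fun he =>
      hgood.2 (he ▸ Finset.mem_insert_self p _)
    exact gkf_not_mem_of_prime_ne v.asIdeal v.isPrime.ne_top hgood.1 hp.out hne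
      (Ideal.absNorm_mem v.asIdeal)
  -- normalise `b` to an integer which is a `v`-unit
  have hval : v.valuation K (b : K) = 1 := by
    rw [approx_valuation_eq (b : K) b.ne_zero v, hvb, neg_zero, WithZero.exp_zero]
  obtain ⟨c, hc0, b', hb'v, hb'⟩ := kumram_exists_unit_rep v hp.out.ne_zero b.ne_zero
    (by rw [hval, WithZero.log_one]; exact dvd_zero _)
  set β' : L := β * algebraMap K L c with hβ'def
  have hβ' : β' ^ p = algebraMap K L (b' : K) := by
    rw [hβ'def, mul_pow, hβ, ← map_pow, ← map_mul]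
    congr 1
    exact hb'.symm
  have htop' : Algebra.adjoin K {β'} = ⊤ := by
    have h1 : β = algebraMap K L c⁻¹ * β' := by
      rw [hβ'def, mul_comm β, ← mul_assoc, ← map_mul, inv_mul_cancel₀ hc0, map_one, one_mul]
    rw [eq_top_iff, ← htop]
    apply Algebra.adjoin_le
    intro z hz
    rw [Set.mem_singleton_iff] at hz
    rw [hz, h1]
    exact Subalgebra.mul_mem _ (Subalgebra.algebraMap_mem _ _)
      (Algebra.self_mem_adjoin_singleton K β')
  -- the local hypothesis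
  obtain ⟨c₀, hc₀⟩ := h v hvT'
  have hloc : ((c₀ : gkFld Φ v) * gkEmbR Φ v c) ^ p = gkEmbR Φ v (b' : K) := by
    have h1 : (c₀ : gkFld Φ v) ^ p = gkEmbR Φ v (b : K) := by
      have := congrArg (fun z : (gkFld Φ v)ˣ => (z : gkFld Φ v)) hc₀
      simpa using this
    rw [mul_pow, h1, ← map_pow, ← map_mul]
    congr 1
    exact hb'.symm
  have hb'v' : b' ∉ (lgPlace (Φ v).q (Φ v).emb).asIdeal := by
    rw [(Φ v).place]
    exact hb'v
  obtain ⟨y, hy⟩ := gkf_residue_pow (Φ v).q (Φ v).emb hp0 b' hb'v' _ hloc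
  rw [(Φ v).place] at hy
  exact gkf_frobAt_eq_one hζ v hvp b' y hy hb'v β' hβ' htop'

end Main

end Fermat.Agent.S55
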