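/-
S55 / GK layer (global Kummer theory, `H¹`-level of Poitou-Tate): SHIM over the real leaves
(formerly the statements-only spec file; the statements are unchanged - see git history, commit
f1b089b, for the spec text).

Setting: `K : Type` a number field, `p` an ODD prime, `ζ : K` a primitive `p`-th root of unity
(so `K` is totally complex), `Φ` a system of local embeddings (`GkEmb`, one per finite place), `T`
a finite set of finite places of `K` containing all places above `p`.

`V_T = gkV K T p`, `Δ_T = gkDelta Φ T p`, `(a,b)_v = gkSym Φ p ζ v a b`, `Cl_T/p = Div K ⧸ gkClSub`.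

FINAL DELIVERABLES (GK/Final.lean, consumed by GH / SB):
* `gk_exact_annihilator` : the image of `V_T` in `∏_{v∈T} K_vˣ/p` is its own annihilator for
  `∑_{v∈T} (·,·)_v`  (helper29's [b1], global part);
* `gk_relIndex_delta_eq` : `[Δ_T : Kˣᵖ] = |Cl_T/p|`  (dimension input of [b2]);
* `gk_isotropic`, `gk_pow_of_locally_pow` (Frobenius generation), `gk_capitulation` (T6).

Leaves: ProductFormula (GK-0), CardV (A1), CardP (A2), IsotropicA (B1),
IsotropicB (B2), FrobGen (C1+C2), DeltaLe (C3), MaxIsoAbstract (D1), Final (D2), Capitulation (T6).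
-/
import Fermat.Agent.S55.GK.Defs
import Fermat.Agent.S55.GK.ProductFormula
import Fermat.Agent.S55.GK.CardV
import Fermat.Agent.S55.GK.CardP
import Fermat.Agent.S55.GK.IsotropicA
import Fermat.Agent.S55.GK.IsotropicB
import Fermat.Agent.S55.GK.FrobGen
import Fermat.Agent.S55.GK.DeltaLe
import Fermat.Agent.S55.GK.MaxIsoAbstract
import Fermat.Agent.S55.GK.Final
import Fermat.Agent.S55.GK.Capitulation
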