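/-
S55 / GK layer: definitions for the `S`-field dictionary and U5 (sorry-free).

* `gkT S K`      : the finite set of places of `K` above the finite set `S` of rational primes;
* `GkSha2Data`   : the data `(g, β, D)` attached to a locally trivial `μ_p`-valued `2`-cocycle `z`.
-/
import Fermat.Agent.S55.GK.Defs
import Fermat.Agent.S55.Global.Defs
import Fermat.Agent.S55.Global.TowerDefs

set_option autoImplicit false

noncomputable section

namespace Fermat.Agent.S55

open scoped NumberField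
open NumberField IsDedekindDomain groupCohomology Fermat.Agent.S14

section Above

variable (S : Finset Nat.Primes) (K : Type) [Field K] [NumberField K]

/-- There are finitely many places of `K` above `S`. -/
theorem gk_finite_glAbove : {v : HeightOneSpectrum (𝓞 K) | GlAbove S K v}.Finite := by
  classical
  have hsub : {v : HeightOneSpectrum (𝓞 K) | GlAbove S K v} ⊆
      ⋃ q ∈ S, {v : HeightOneSpectrum (𝓞 K) |
        v.asIdeal ∣ Ideal.span {((((q : Nat.Primes) : ℕ)) : 𝓞 K)}} := by
    rintro v ⟨q, hq, hqv⟩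
    simp only [Set.mem_iUnion, Set.mem_ofPred_eq, exists_prop]
    refine ⟨q, hq, ?_⟩
    rw [Ideal.dvd_iff_le, Ideal.span_singleton_le_iff_mem]
    exact hqv
  refine Set.Finite.subset (Set.Finite.biUnion S.finite_toSet fun q _ => ?_) hsub
  apply Ideal.finite_factors
  rw [Ne, Ideal.zero_eq_bot, Ideal.span_singleton_eq_bot]
  exact_mod_cast (q : Nat.Primes).2.ne_zero

/-- The finite set `T` of places of `K` above `S`. -/
def gkT : Finset (HeightOneSpectrum (𝓞 K)) := (gk_finite_glAbove S K).toFinset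

variable {S K}

theorem mem_gkT {v : HeightOneSpectrum (𝓞 K)} : v ∈ gkT S K ↔ GlAbove S K v := by
  simp [gkT]

/-- `T ⊇ {v ∣ p}` when `p ∈ S`. -/
theorem gkT_of_natCast_mem {p : ℕ} (hpS : ∃ q ∈ S, ((q : Nat.Primes) : ℕ) = p)
    (v : HeightOneSpectrum (𝓞 K)) (hv : ((p : ℕ) : 𝓞 K) ∈ v.asIdeal) : v ∈ gkT S K := by
  obtain ⟨q, hq, rfl⟩ := hpS
  exact mem_gkT.mpr ⟨q, hq, hv⟩

end Above

section U5

variable (p : ℕ) (S : Finset Nat.Primes)
  (K F : Type) [Field K] [NumberField K] [Field F] [NumberField F] [Algebra K F]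

/-- The data attached to a locally trivial `μ_p`-valued `2`-cocycle `z` of `F/K`:
`z = d¹ g` with `g : G → Fˣ`, `g(σ)ᵖ = σβ/β`, and a divisor `D` of `K` with
`ord_w(β) ≡ D(v) mod p` for all places `w ∣ v` of `F` not above `S`.
The class of `D` in `Cl_T(K)/p = Div K ⧸ gkClSub K T p` is the image of `[z]`. -/
structure GkSha2Data (z : (F ≃ₐ[K] F) × (F ≃ₐ[K] F) → Fˣ) (g : (F ≃ₐ[K] F) → Fˣ) (β : Fˣ)
    (D : S14.Div K) : Prop where
  hz : glD1 g = z
  hg : ∀ σ : F ≃ₐ[K] F, g σ ^ p = glD0 β σ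
  hD : ∀ w : HeightOneSpectrum (𝓞 F), ¬ GlAbove S F w →
    (p : ℤ) ∣ divOf F ((β : Fˣ) : F) w - D (placeBelow K F w)

end U5

end Fermat.Agent.S55
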