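/-
S55 / GK layer, leaf GK-K `GK/KummerSField.lean`: the Kummer dictionary for `S`-fields
(exact statements of section `KummerSField` of `GK/SpecU5.lean`).  Helper lemmas are prefixed `gkk`.

* `gk_mem_gkV_of_pow_eq`          : (K1) `βᵖ = b`, `β` in an `S`-field ⟹ `b ∈ V_T`;
* `gk_exists_sfield_of_mem_gkV`   : (K2) `b ∈ V_T` ⟹ `b` is a `p`-th power in some `S`-field;
* `gk_exists_sfield_of_mem_gkV'`  : (K2') relative form over a given `S`-field.
-/
import Fermat.Agent.S55.GK.DefsU5
import Fermat.Agent.S55.KummerRam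
import Fermat.Agent.S55.Global.ObKummer

set_option autoImplicit false
set_option linter.unusedSectionVars false
set_option linter.unusedVariables false

noncomputable section

namespace Fermat.Agent.S55

open scoped NumberField
open NumberField IsDedekindDomain groupCohomology Fermat.Agent.S14

section KummerSField

variable {p : ℕ} [Fact p.Prime] (S : Finset Nat.Primes)
  (K F : Type) [Field K] [NumberField K] [Field F] [NumberField F] [Algebra K F]

/-- A prime of `F` above a place of `K` which is not above `S` contains no prime of `S`. -/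
theorem gkk_natCast_notMem {v : HeightOneSpectrum (𝓞 K)} (hv : ¬ GlAbove S K v)
    (P : Ideal (𝓞 F)) [hPv : P.LiesOver v.asIdeal] (q : Nat.Primes) (hq : q ∈ S) :
    (((q : Nat.Primes) : ℕ) : 𝓞 F) ∉ P := by
  intro hmem
  apply hv
  refine ⟨q, hq, ?_⟩
  rw [hPv.over, Ideal.mem_comap, map_natCast]
  exact hmem

/-- (K1) If `b ∈ Kˣ` has a `p`-th root in a field `F ⊇ K` unramified outside `S`, then `b ∈ V_T`. -/
theorem gk_mem_gkV_of_pow_eq (hur : GlUnramOutside S K F) (b : Kˣ) (β : F)
    (hβ : β ^ p = algebraMap K F (b : K)) :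
    b ∈ gkV K (gkT S K : Set (HeightOneSpectrum (𝓞 K))) p := by
  intro v hv
  have hv' : ¬ GlAbove S K v := fun h => hv (Finset.mem_coe.mpr (mem_gkT.mpr h))
  have : v.asIdeal.IsMaximal := v.isMaximal
  obtain ⟨P, hPmax, hPv⟩ := Ideal.exists_maximal_ideal_liesOver_of_isIntegral (S := 𝓞 F) v.asIdeal
  have : P.IsPrime := hPmax.isPrime
  have hPbot : P ≠ ⊥ := Ideal.ne_bot_of_liesOver_of_ne_bot v.ne_bot P
  have hP : Algebra.IsUnramifiedAt (𝓞 K) P :=
    hur P hPbot (fun q hq => gkk_natCast_notMem S K F hv' P q hq)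
  exact kumram_dvd_of_isUnramifiedAt v P hP hβ

/-- `K / K` is unramified everywhere. -/
theorem gkk_unramOutside_self : GlUnramOutside S K K := by
  intro P hP _ _
  have hsurj : Function.Surjective (algebraMap (𝓞 K) (𝓞 K)) := fun x => ⟨x, rfl⟩
  have hfu : Algebra.FormallyUnramified (𝓞 K) (𝓞 K) := Algebra.FormallyUnramified.of_surjective
    (Algebra.ofId (𝓞 K) (𝓞 K)) hsurj
  exact Algebra.formallyUnramified_iff_forall.mp hfu ⟨P, hP⟩

/-- (K2') relative form: finitely many elements of `V_T` get `p`-th roots in an `S`-field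
containing a given `S`-field `F`. -/
theorem gk_exists_sfield_of_mem_gkV' (hpS : ∃ q ∈ S, ((q : Nat.Primes) : ℕ) = p)
    [IsGalois K F] (hur : GlUnramOutside S K F) (B : Finset Kˣ)
    (hB : ∀ b ∈ B, b ∈ gkV K (gkT S K : Set (HeightOneSpectrum (𝓞 K))) p) :
    ∃ (F' : Type) (_ : Field F') (_ : NumberField F') (_ : Algebra K F') (_ : Algebra F F')
      (_ : IsScalarTower K F F') (_ : IsGalois K F'),
      GlUnramOutside S K F' ∧ ∀ b ∈ B, ∃ β : F', β ^ p = algebraMap K F' (b : K) := by
  classical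
  obtain ⟨F', i1, i2, i3, i4, i5, i6, hur', hroot⟩ := glob_exists_kummer_field (p := p) S hpS K F hur
    (B.image fun b : Kˣ => algebraMap K F (b : K))
    (by
      intro t ht
      obtain ⟨b, -, rfl⟩ := Finset.mem_image.mp ht
      exact (map_ne_zero _).mpr b.ne_zero)
    (by
      intro t ht w hw
      obtain ⟨b, hb, rfl⟩ := Finset.mem_image.mp ht
      rw [glob_log_algebraMap (K := K) (F := K) (F' := F) S hur w hw]
      apply hB b hb
      intro hmem
      exact hw ((glob_above_under_iff (F := K) (F' := F) S w).mp (mem_gkT.mp (Finset.mem_coe.mp hmem))))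
  refine ⟨F', i1, i2, i3, i4, i5, i6, hur', fun b hb => ?_⟩
  obtain ⟨β, hβ⟩ := hroot (algebraMap K F (b : K)) (Finset.mem_image.mpr ⟨b, hb, rfl⟩)
  exact ⟨β, by rw [hβ, ← IsScalarTower.algebraMap_apply]⟩

/-- (K2) Conversely every `b ∈ V_T` has a `p`-th root in some `S`-field (`p ∈ S`). -/
theorem gk_exists_sfield_of_mem_gkV (hpS : ∃ q ∈ S, ((q : Nat.Primes) : ℕ) = p)
    (b : Kˣ) (hb : b ∈ gkV K (gkT S K : Set (HeightOneSpectrum (𝓞 K))) p) :
    ∃ (F' : Type) (_ : Field F') (_ : NumberField F') (_ : Algebra K F') (_ : IsGalois K F'),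
      GlUnramOutside S K F' ∧ ∃ β : F', β ^ p = algebraMap K F' (b : K) := by
  classical
  obtain ⟨F', i1, i2, i3, i4, i5, i6, hur', hroot⟩ := gk_exists_sfield_of_mem_gkV' (p := p) S K K hpS
    (gkk_unramOutside_self S K) {b} (by
      intro b' hb'
      rw [Finset.mem_singleton] at hb'
      rw [hb']
      exact hb)
  exact ⟨F', i1, i2, i3, i6, hur', hroot b (Finset.mem_singleton_self b)⟩

end KummerSField

end Fermat.Agent.S55
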