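/-
S55 / GK layer, leaf GK-U5a: the data `(g, β, D)` attached to a locally trivial `μ_p`-valued
`2`-cocycle of an `S`-field: multiplicativity (`GkSha2Data.mul/pow/one`) and existence
(`gk_sha2_exists_data`).  Statements verbatim from `GK/SpecU5.lean` (section U5).
Black boxes: helper6 `ge_hasse_principle_of_pow` (HassePrincipleSylowSpec), `geInv_eq_zero_iff`
(LocLGSpec); helper3 `gfi_exists_primeMap_eq`, `gfi_valuation_primeMap` (GFI, real).
-/
import Fermat.Agent.S55.GK.DefsU5
import Fermat.Agent.S55.Global.Recip.HassePrincipleSylowSpec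
import Fermat.Agent.S55.GFI.Places
import Fermat.Agent.S14.Approx

set_option autoImplicit false
set_option linter.unusedSectionVars false
set_option linter.unusedVariables false

noncomputable section

namespace Fermat.Agent.S55

open scoped NumberField
open NumberField IsDedekindDomain groupCohomology Fermat.Agent.S14

/-! ### multiplicativity of `glD0`, `glD1` -/

section Cochains

variable {G : Type} [Group G] {X : Type} [CommGroup X] [MulDistribMulAction G X]

theorem gks_glD0_mul (m m' : X) : (glD0 (m * m') : G → X) = glD0 m * glD0 m' := by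
  funext g
  simp only [glD0, Pi.mul_apply, smul_mul', mul_div_mul_comm]

theorem gks_glD0_one : (glD0 (1 : X) : G → X) = 1 := by
  funext g
  simp only [glD0, smul_one, div_one, Pi.one_apply]

theorem gks_glD1_mul (x y : G → X) : glD1 (x * y) = glD1 x * glD1 y := by
  funext s
  simp only [glD1, Pi.mul_apply, smul_mul']
  rw [mul_div_mul_comm, mul_mul_mul_comm]

theorem gks_glD1_one : glD1 (1 : G → X) = 1 := by
  funext s
  simp only [glD1, Pi.one_apply, smul_one, div_one, mul_one]

theorem gks_glD1_pow (x : G → X) (n : ℕ) : glD1 (x ^ n) = glD1 x ^ n := by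
  induction n with
  | zero => rw [pow_zero, pow_zero, gks_glD1_one]
  | succ n ih => rw [pow_succ, pow_succ, gks_glD1_mul, ih]

end Cochains

/-! ### places and divisors under the Galois action -/

section Places

variable {K F : Type} [Field K] [NumberField K] [Field F] [NumberField F] [Algebra K F]

/-- `ord_{σ w}(σ x) = ord_w(x)`. -/
theorem gks_divOf_primeMap (σ : F ≃ₐ[K] F) (w : HeightOneSpectrum (𝓞 F)) {x : F} (hx : x ≠ 0) :
    divOf F (σ x) (gfiPrimeMap σ w) = divOf F x w := by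
  have h1 := gfi_valuation_primeMap σ w x
  have hσx : σ x ≠ 0 := (map_ne_zero σ).2 hx
  rw [approx_valuation_eq (σ x) hσx, approx_valuation_eq x hx, WithZero.exp_inj, neg_inj] at h1
  exact h1

theorem gks_placeBelow_eq_under (w : HeightOneSpectrum (𝓞 F)) :
    placeBelow K F w = w.under (𝓞 K) := rfl

/-- a place of `F` not above `S` lies over a place of `K` not above `S` -/
theorem gks_not_above_placeBelow (S : Finset Nat.Primes) (w : HeightOneSpectrum (𝓞 F))
    (hw : ¬ GlAbove S F w) : ¬ GlAbove S K (placeBelow K F w) := by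
  rintro ⟨q, hq, hmem⟩
  refine hw ⟨q, hq, ?_⟩
  have h1 : algebraMap (𝓞 K) (𝓞 F) (((q : Nat.Primes) : ℕ) : 𝓞 K) ∈ w.asIdeal := hmem
  rwa [map_natCast] at h1

end Places

/-! ## U5: `Ш²(μ_p) → Cl_T(K)/p` -/

section U5

variable (p : ℕ) [Fact p.Prime] (S : Finset Nat.Primes)
  (K F : Type) [Field K] [NumberField K] [Field F] [NumberField F] [Algebra K F]

variable {p S K F}

/-- (U5c) the data are multiplicative ... -/
theorem GkSha2Data.mul {z z' : (F ≃ₐ[K] F) × (F ≃ₐ[K] F) → Fˣ} {g g' : (F ≃ₐ[K] F) → Fˣ}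
    {β β' : Fˣ} {D D' : S14.Div K} (h : GkSha2Data p S K F z g β D)
    (h' : GkSha2Data p S K F z' g' β' D') :
    GkSha2Data p S K F (z * z') (g * g') (β * β') (D + D') := by
  refine ⟨?_, ?_, ?_⟩
  · rw [gks_glD1_mul, h.hz, h'.hz]
  · intro σ
    rw [Pi.mul_apply, mul_pow, h.hg, h'.hg, gks_glD0_mul, Pi.mul_apply]
  · intro w hw
    rw [Units.val_mul, fi_divOf_mul F β.ne_zero β'.ne_zero, Finsupp.add_apply, Finsupp.add_apply]
    have e : divOf F (β : F) w + divOf F (β' : F) w -
        (D (placeBelow K F w) + D' (placeBelow K F w)) =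
        (divOf F (β : F) w - D (placeBelow K F w)) +
          (divOf F (β' : F) w - D' (placeBelow K F w)) := by ring
    rw [e]
    exact dvd_add (h.hD w hw) (h'.hD w hw)

theorem GkSha2Data.one : GkSha2Data p S K F 1 1 1 0 := by
  refine ⟨gks_glD1_one, ?_, ?_⟩
  · intro σ
    rw [Pi.one_apply, one_pow, gks_glD0_one, Pi.one_apply]
  · intro w hw
    rw [Units.val_one, fi_divOf_one, Finsupp.zero_apply, Finsupp.zero_apply, sub_zero]
    exact dvd_zero _

/-- ... and compatible with powers. -/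
theorem GkSha2Data.pow {z : (F ≃ₐ[K] F) × (F ≃ₐ[K] F) → Fˣ} {g : (F ≃ₐ[K] F) → Fˣ}
    {β : Fˣ} {D : S14.Div K} (h : GkSha2Data p S K F z g β D) (n : ℕ) :
    GkSha2Data p S K F (z ^ n) (g ^ n) (β ^ n) (n • D) := by
  induction n with
  | zero =>
    rw [pow_zero, pow_zero, pow_zero, zero_smul]
    exact GkSha2Data.one
  | succ n ih =>
    rw [pow_succ, pow_succ, pow_succ, succ_nsmul]
    exact ih.mul h

variable (p S K F)

/-- (U5a) EXISTENCE of the data for a locally trivial `μ_p`-valued `2`-cocycle of an `S`-field.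
[helper6 `ge_hasse_principle_of_pow` (`zᵖ = 1`, locally trivial: `geInv = 0 ↔` coboundary) gives `g`;
`gᵖ` is a `1`-cocycle, Hilbert 90 gives `β`; `ord_{σ⁻¹w} β ≡ ord_w β mod p`, `G` is transitive on
the places above `v` and `F/K` is unramified outside `S`, so `ord_w β mod p` only depends on `v`.] -/
theorem gk_sha2_exists_data (hp2 : p ≠ 2) [IsGalois K F] (hζ : ∃ ζ : K, IsPrimitiveRoot ζ p)
    (hur : GlUnramOutside S K F)
    (z : (F ≃ₐ[K] F) × (F ≃ₐ[K] F) → Fˣ) (hz : IsMulCocycle₂ z) (hμ : GlMuValued p z)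
    (hloc : ∀ (q : ℕ) [Fact q.Prime] (j : F →+* PadicAlgCl q), geInv q j z = 0) :
    ∃ (g : (F ≃ₐ[K] F) → Fˣ) (β : Fˣ) (D : S14.Div K), GkSha2Data p S K F z g β D := by
  classical
  obtain ⟨ζ, hζ⟩ := hζ
  -- step 1: `z` is a coboundary (Hasse principle)
  have hpow : IsMulCoboundary₂ (z ^ p ^ 1) := by
    have h1 : z ^ p ^ 1 = 1 := by
      funext s
      rw [pow_one, Pi.pow_apply, hμ s, Pi.one_apply]
    rw [h1]
    exact ⟨fun _ => 1, fun g h => by simp⟩
  obtain ⟨g, hg⟩ := (isMulCoboundary₂_iff_glD1 z).1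
    (ge_hasse_principle_of_pow hp2 hζ z hz 1 hpow
      (fun q _ j => (geInv_eq_zero_iff q j hz).1 (hloc q j)))
  -- step 2: `g^p` is a `1`-cocycle, hence `g^p = d⁰ β` (Hilbert 90)
  have hY : IsMulCocycle₁ (fun σ => g σ ^ p) := by
    intro σ τ
    have h1 : glD1 g (σ, τ) ^ p = 1 := by
      rw [hg]
      exact hμ _
    simp only [glD1] at h1
    rw [mul_pow, div_pow, ← smul_pow', div_mul_eq_mul_div, div_eq_one] at h1
    exact h1.symm
  have : FiniteDimensional K F := FiniteDimensional.right ℚ K F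
  obtain ⟨β, hβ⟩ := isMulCoboundary₁_of_isMulCocycle₁_of_aut_to_units _ hY
  -- step 3: the divisor `D`
  choose wv hwv using fun v : HeightOneSpectrum (𝓞 K) => gfi_exists_under_eq (L := F) v
  set Dfun : HeightOneSpectrum (𝓞 K) → ℤ :=
    fun v => if v ∈ gkT S K then 0 else divOf F (β : F) (wv v) with hDfun
  have hsupp : ∀ v, Dfun v ≠ 0 → v ∈ (divOf F (β : F)).support.image (placeBelow K F) := by
    intro v hv
    rw [hDfun] at hv
    simp only at hv
    split_ifs at hv with hvT
    · exact absurd rfl hv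
    · rw [Finset.mem_image]
      exact ⟨wv v, Finsupp.mem_support_iff.2 hv, hwv v⟩
  refine ⟨g, β, Finsupp.onFinset _ Dfun hsupp, hg, fun σ => (hβ σ).symm, ?_⟩
  intro w hw
  have hvT : placeBelow K F w ∉ gkT S K := fun hmem =>
    gks_not_above_placeBelow S w hw (mem_gkT.1 hmem)
  rw [Finsupp.onFinset_apply, hDfun]
  simp only [if_neg hvT]
  obtain ⟨σ, hσ⟩ := gfi_exists_primeMap_eq (K := K)
    (w := wv (placeBelow K F w)) (w' := w) (hwv (placeBelow K F w))
  have hβσ : σ⁻¹ • β = g σ⁻¹ ^ p * β := eq_mul_of_div_eq (hβ σ⁻¹)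
  have hβσ' : σ.symm (β : F) = ((g σ⁻¹ : Fˣ) : F) ^ p * (β : F) := by
    have h2 := congrArg (fun u : Fˣ => (u : F)) hβσ
    simpa using h2
  have h3 : divOf F (β : F) w = divOf F (σ.symm (β : F)) (wv (placeBelow K F w)) := by
    rw [← gks_divOf_primeMap σ (wv (placeBelow K F w))
      ((map_ne_zero σ.symm).2 β.ne_zero), AlgEquiv.apply_symm_apply, hσ]
  rw [h3, hβσ', fi_divOf_mul F (pow_ne_zero p (g σ⁻¹).ne_zero) β.ne_zero,
    fi_divOf_pow F (g σ⁻¹).ne_zero, Finsupp.add_apply, Finsupp.smul_apply, add_sub_cancel_right,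
    nsmul_eq_mul]
  exact Dvd.intro _ rfl

end U5

end Fermat.Agent.S55
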