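/-
S55 / GK-U5b+d: `Ш²(μ_p) → Cl_T(K)/p` is injective in the limit, and the `[b2]`-inequality.
* `gk_sha2_trivial_of_mem` : data `(z,g,β,D)` with `[D] = 0` in `Cl_T/p` ⟹ `z` becomes the
  coboundary of a `μ_p`-valued cochain in a bigger `S`-field;
* `gk_sha2_dependent`      : pigeonhole form of `dim Ш² ≤ dim Cl_T/p`.
Helper lemmas are prefixed `gkt_`.
-/
import Fermat.Agent.S55.GK.DefsU5
import Fermat.Agent.S55.Global.ObKummer
import Fermat.Agent.S55.Global.Infl
import Fermat.Agent.S14.Approx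

set_option autoImplicit false
set_option linter.unusedSectionVars false

noncomputable section

namespace Fermat.Agent.S55

open scoped NumberField
open NumberField IsDedekindDomain groupCohomology Fermat.Agent.S14

section Glue

variable {K F : Type} [Field K] [NumberField K] [Field F] [NumberField F] [Algebra K F]

theorem gkt_placeBelow_eq_under (w : HeightOneSpectrum (𝓞 F)) :
    placeBelow K F w = w.under (𝓞 K) := by
  apply HeightOneSpectrum.ext
  rfl

/-- `ord_w = - log |·|_w`. -/
theorem gkt_divOf_eq_neg_log (x : F) (hx : x ≠ 0) (w : HeightOneSpectrum (𝓞 F)) :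
    divOf F x w = - WithZero.log (w.valuation F x) := by
  rw [approx_valuation_eq x hx w, WithZero.log_exp, neg_neg]

/-- In a field unramified outside `S`, `ord_w (x) = ord_v (x)` for `x ∈ K`, `w ∣ v` not above `S`. -/
theorem gkt_divOf_algebraMap (S : Finset Nat.Primes) (hur : GlUnramOutside S K F)
    (w : HeightOneSpectrum (𝓞 F)) (hw : ¬ GlAbove S F w) (x : K) (hx : x ≠ 0) :
    divOf F (algebraMap K F x) w = divOf K x (placeBelow K F w) := by
  have hx' : algebraMap K F x ≠ 0 := (map_ne_zero _).mpr hx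
  rw [gkt_divOf_eq_neg_log _ hx', gkt_divOf_eq_neg_log _ hx, gkt_placeBelow_eq_under,
    glob_log_algebraMap (K := K) (F := K) (F' := F) S hur w hw x]

theorem gkt_not_above_placeBelow (S : Finset Nat.Primes) (w : HeightOneSpectrum (𝓞 F))
    (hw : ¬ GlAbove S F w) : ¬ GlAbove S K (placeBelow K F w) := by
  rw [gkt_placeBelow_eq_under]
  exact fun h => hw ((glob_above_under_iff S w).mp h)

end Glue

section Cochain

variable {G : Type} [Group G] {X : Type} [CommGroup X] [MulDistribMulAction G X]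

theorem gkt_glD0_mul (u v : X) : glD0 (G := G) (u * v) = glD0 u * glD0 v := by
  funext g
  simp only [glD0, Pi.mul_apply, smul_mul']
  rw [div_mul_div_comm]

theorem gkt_glD0_div (u v : X) : glD0 (G := G) (u / v) = glD0 u / glD0 v := by
  funext g
  simp only [glD0, Pi.div_apply, smul_div']
  rw [div_div_div_comm]

theorem gkt_glD0_pow (u : X) (n : ℕ) : glD0 (G := G) (u ^ n) = glD0 u ^ n := by
  funext g
  simp only [glD0, Pi.pow_apply, smul_pow', div_pow]

end Cochain

section Trivial

variable (p : ℕ) [Fact p.Prime] (S : Finset Nat.Primes)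
  (K F : Type) [Field K] [NumberField K] [Field F] [NumberField F] [Algebra K F]

/-- (U5b) -/
theorem gk_sha2_trivial_of_mem (hpS : ∃ q ∈ S, ((q : Nat.Primes) : ℕ) = p) [IsGalois K F]
    (hur : GlUnramOutside S K F)
    (z : (F ≃ₐ[K] F) × (F ≃ₐ[K] F) → Fˣ) (g : (F ≃ₐ[K] F) → Fˣ) (β : Fˣ) (D : S14.Div K)
    (hdata : GkSha2Data p S K F z g β D)
    (hD : D ∈ gkClSub K (gkT S K : Set (HeightOneSpectrum (𝓞 K))) p) :
    ∃ (F' : Type) (_ : Field F') (_ : NumberField F') (_ : Algebra K F') (_ : Algebra F F')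
      (_ : IsScalarTower K F F') (_ : IsGalois K F'),
      GlUnramOutside S K F' ∧
      ∃ ε : (F' ≃ₐ[K] F') → F'ˣ, GlMuValued p ε ∧ glInfl₂ K F F' z = glD1 ε := by
  have hp : p.Prime := Fact.out
  -- decompose `D`
  unfold gkClSub at hD
  obtain ⟨D₁, hD₁, D₃, hD₃, hsum⟩ := AddSubgroup.mem_sup.mp hD
  obtain ⟨D₀, hD₀, D₂, hD₂, hsum'⟩ := AddSubgroup.mem_sup.mp hD₁
  obtain ⟨xa, rfl⟩ := hD₀
  obtain ⟨D', rfl⟩ := hD₃
  set x : Kˣ := Additive.toMul xa with hx
  have hD₀' : gkDivHom K xa = divOf K (x : K) := rfl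
  -- `β' = β / x`
  set xF : Fˣ := Units.map (algebraMap K F : K →* F) x with hxF
  set β' : Fˣ := β / xF with hβ'
  have hβ'dvd : ∀ w : HeightOneSpectrum (𝓞 F), ¬ GlAbove S F w →
      (p : ℤ) ∣ WithZero.log (w.valuation F ((β' : Fˣ) : F)) := by
    intro w hw
    have h1 := hdata.hD w hw
    have hv : placeBelow K F w ∉ (gkT S K : Set (HeightOneSpectrum (𝓞 K))) := by
      rw [Finset.mem_coe, mem_gkT]
      exact gkt_not_above_placeBelow S w hw
    have hD2v : D₂ (placeBelow K F w) = 0 := hD₂ _ hv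
    have hDv : D (placeBelow K F w) =
        divOf K (x : K) (placeBelow K F w) + (p : ℤ) * D' (placeBelow K F w) := by
      rw [← hsum, ← hsum', Finsupp.add_apply, Finsupp.add_apply, hD₀', hD2v, add_zero]
      congr 1
    have hxF' : ((xF : Fˣ) : F) = algebraMap K F (x : K) := rfl
    have h2 : divOf F ((β' : Fˣ) : F) w =
        divOf F ((β : Fˣ) : F) w - divOf K (x : K) (placeBelow K F w) := by
      rw [hβ', Units.val_div_eq_div_val, approx_divOf_div β.ne_zero xF.ne_zero,
        Finsupp.sub_apply, hxF', gkt_divOf_algebraMap S hur w hw _ x.ne_zero]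
    rw [← neg_neg (WithZero.log _), ← gkt_divOf_eq_neg_log _ β'.ne_zero, dvd_neg, h2]
    have h3 : divOf F ((β : Fˣ) : F) w - divOf K (x : K) (placeBelow K F w) =
        (divOf F ((β : Fˣ) : F) w - D (placeBelow K F w)) +
          (p : ℤ) * D' (placeBelow K F w) := by
      rw [hDv]; ring
    rw [h3]
    exact dvd_add h1 (dvd_mul_right _ _)
  -- the Kummer `S`-field
  obtain ⟨F', i1, i2, i3, i4, i5, i6, hur', hroot⟩ :=
    glob_exists_kummer_field (p := p) S hpS K F hur {((β' : Fˣ) : F)}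
      (by intro t ht; rw [Finset.mem_singleton] at ht; rw [ht]; exact β'.ne_zero)
      (by intro t ht w hw; rw [Finset.mem_singleton] at ht; rw [ht]; exact hβ'dvd w hw)
  obtain ⟨γ, hγ⟩ := hroot _ (Finset.mem_singleton_self _)
  refine ⟨F', i1, i2, i3, i4, i5, i6, hur', ?_⟩
  have hγ0 : γ ≠ 0 := by
    intro h0
    rw [h0, zero_pow hp.ne_zero] at hγ
    exact β'.ne_zero ((map_eq_zero _).mp hγ.symm)
  set γu : F'ˣ := Units.mk0 γ hγ0 with hγu
  have hγup : γu ^ p = Units.map (algebraMap F F' : F →* F') β' := by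
    apply Units.ext
    rw [Units.val_pow_eq_pow_val]
    exact hγ
  refine ⟨glInfl₁ K F F' g / glD0 γu, ?_, ?_⟩
  · -- `μ_p`-valued
    intro τ
    have h1 : (glInfl₁ K F F' g) ^ p = glD0 (Units.map (algebraMap F F' : F →* F') β) := by
      rw [← glInfl₁_pow, ← glInfl₁_glD0]
      congr 1
      funext σ
      exact hdata.hg σ
    have h2 : (glD0 (G := F' ≃ₐ[K] F') γu) ^ p =
        glD0 (Units.map (algebraMap F F' : F →* F') β) := by
      rw [← gkt_glD0_pow, hγup, hβ', map_div, gkt_glD0_div]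
      have h3 : glD0 (G := F' ≃ₐ[K] F') (Units.map (algebraMap F F' : F →* F') xF) = 1 := by
        funext σ
        simp only [glD0, Pi.one_apply]
        rw [div_eq_one]
        apply Units.ext
        show σ (algebraMap F F' (algebraMap K F (x : K))) = algebraMap F F' (algebraMap K F (x : K))
        rw [← IsScalarTower.algebraMap_apply, AlgEquiv.commutes]
      rw [h3, div_one]
    have h4 : (glInfl₁ K F F' g / glD0 γu) ^ p = 1 := by
      rw [div_pow, h1, h2, div_self']
    exact congrFun h4 τ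
  · rw [glD1_div, glD1_glD0, div_one, ← glInfl₂_glD1, hdata.hz]

end Trivial

end Fermat.Agent.S55
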