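/-
S55 / GK-U5d: the `[b2]`-inequality `dim Ш²(μ_p) ≤ dim Cl_T(K)/p`, finite-level (pigeonhole) form.
Assembly of U5a (`gk_sha2_exists_data`, `GkSha2Data.mul/pow/one`; GK/Sha2Data), U5b
(`gk_sha2_trivial_of_mem`; GK/Sha2Trivial) and the finiteness of `Cl_T/p` (GK/CardV).
Helper lemmas are prefixed `gkt_`.
-/
import Fermat.Agent.S55.GK.Sha2Trivial
import Fermat.Agent.S55.GK.Sha2Data
import Fermat.Agent.S55.GK.CardV

set_option autoImplicit false
set_option linter.unusedSectionVars false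

noncomputable section

namespace Fermat.Agent.S55

open scoped NumberField
open NumberField IsDedekindDomain groupCohomology Fermat.Agent.S14

section Dependent

variable (p : ℕ) [Fact p.Prime] (S : Finset Nat.Primes)
  (K F : Type) [Field K] [NumberField K] [Field F] [NumberField F] [Algebra K F]

/-- The data of a finite product of powers. -/
theorem gkt_data_prod {m : ℕ} (z : Fin m → (F ≃ₐ[K] F) × (F ≃ₐ[K] F) → Fˣ)
    (g : Fin m → (F ≃ₐ[K] F) → Fˣ) (β : Fin m → Fˣ) (D : Fin m → S14.Div K)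
    (hdata : ∀ i, GkSha2Data p S K F (z i) (g i) (β i) (D i)) (e : Fin m → ℕ)
    (s : Finset (Fin m)) :
    GkSha2Data p S K F (∏ i ∈ s, z i ^ e i) (∏ i ∈ s, g i ^ e i) (∏ i ∈ s, β i ^ e i)
      (∑ i ∈ s, e i • D i) := by
  classical
  induction s using Finset.induction_on with
  | empty =>
    simp only [Finset.prod_empty, Finset.sum_empty]
    exact GkSha2Data.one
  | insert a s ha ih =>
    rw [Finset.prod_insert ha, Finset.prod_insert ha, Finset.prod_insert ha, Finset.sum_insert ha]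
    exact ((hdata a).pow (e a)).mul ih

/-- Subtraction in `ZMod p` on the level of `val`. -/
theorem gkt_val_sub (a b : ZMod p) :
    ∃ k : ℤ, (((a - b).val : ℕ) : ℤ) = ((a.val : ℕ) : ℤ) - ((b.val : ℕ) : ℤ) + (p : ℤ) * k := by
  have h2 : ((((((a - b).val : ℕ) : ℤ) - (((a.val : ℕ) : ℤ) - ((b.val : ℕ) : ℤ)) : ℤ)) : ZMod p)
      = 0 := by
    push_cast
    rw [ZMod.natCast_zmod_val, ZMod.natCast_zmod_val, ZMod.natCast_zmod_val]
    ring
  obtain ⟨k, hk⟩ := (ZMod.intCast_zmod_eq_zero_iff_dvd _ p).mp h2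
  exact ⟨k, by linarith⟩

/-- (U5d) -/
theorem gk_sha2_dependent (hp2 : p ≠ 2) (hpS : ∃ q ∈ S, ((q : Nat.Primes) : ℕ) = p)
    [IsGalois K F] (hζ : ∃ ζ : K, IsPrimitiveRoot ζ p) (hur : GlUnramOutside S K F)
    {m : ℕ} (z : Fin m → (F ≃ₐ[K] F) × (F ≃ₐ[K] F) → Fˣ)
    (hz : ∀ i, IsMulCocycle₂ (z i)) (hμ : ∀ i, GlMuValued p (z i))
    (hloc : ∀ i, ∀ (q : ℕ) [Fact q.Prime] (j : F →+* PadicAlgCl q), geInv q j (z i) = 0)
    (hm : (gkClSub K (gkT S K : Set (HeightOneSpectrum (𝓞 K))) p).index < p ^ m) :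
    ∃ n : Fin m → ZMod p, n ≠ 0 ∧
    ∃ (F' : Type) (_ : Field F') (_ : NumberField F') (_ : Algebra K F') (_ : Algebra F F')
      (_ : IsScalarTower K F F') (_ : IsGalois K F'),
      GlUnramOutside S K F' ∧
      ∃ ε : (F' ≃ₐ[K] F') → F'ˣ, GlMuValued p ε ∧
        glInfl₂ K F F' (∏ i, z i ^ (n i).val) = glD1 ε := by
  classical
  have hp : p.Prime := Fact.out
  choose g β D hdata using fun i =>
    gk_sha2_exists_data p S K F hp2 hζ hur (z i) (hz i) (hμ i) (hloc i)
  set H : AddSubgroup (S14.Div K) := gkClSub K (gkT S K : Set (HeightOneSpectrum (𝓞 K))) p with hH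
  have hidx : H.index ≠ 0 := gkClSub_index_ne_zero K p _
  have : H.FiniteIndex := ⟨hidx⟩
  have hfin : Finite (S14.Div K ⧸ H) := AddSubgroup.finite_quotient_of_finiteIndex
  let f : (Fin m → ZMod p) → (S14.Div K ⧸ H) := fun n =>
    QuotientAddGroup.mk (∑ i, (n i).val • D i)
  have hcard : Nat.card (S14.Div K ⧸ H) < Nat.card (Fin m → ZMod p) := by
    rw [Nat.card_fun, Nat.card_zmod, Nat.card_fin, ← AddSubgroup.index_eq_card]
    exact hm
  obtain ⟨n1, n2, hne, heq⟩ : ∃ n1 n2, n1 ≠ n2 ∧ f n1 = f n2 := by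
    by_contra hcon
    push Not at hcon
    have hinj : Function.Injective f := fun a b hab => by_contra fun h => hcon a b h hab
    exact absurd (Nat.card_le_card_of_injective f hinj) (not_le.mpr hcard)
  refine ⟨n1 - n2, sub_ne_zero.mpr hne, ?_⟩
  -- the class of `∑ (n i) D i` vanishes
  have hmem : (∑ i, ((n1 - n2) i).val • D i) ∈ H := by
    have h12 : (∑ i, (n1 i).val • D i) - (∑ i, (n2 i).val • D i) ∈ H := by
      have := (QuotientAddGroup.eq (s := H)).mp heq
      -- `-a + b ∈ H`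
      have h' := H.neg_mem this
      have h3 : -(-∑ i, (n1 i).val • D i + ∑ i, (n2 i).val • D i) =
          (∑ i, (n1 i).val • D i) - (∑ i, (n2 i).val • D i) := by abel
      rwa [h3] at h'
    choose k hk using fun i => gkt_val_sub p (n1 i) (n2 i)
    have hsum : (∑ i, ((n1 - n2) i).val • D i) =
        ((∑ i, (n1 i).val • D i) - (∑ i, (n2 i).val • D i)) + (p : ℤ) • (∑ i, k i • D i) := by
      rw [Finset.smul_sum, ← Finset.sum_sub_distrib, ← Finset.sum_add_distrib]
      refine Finset.sum_congr rfl fun i _ => ?_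
      rw [← natCast_zsmul, ← natCast_zsmul (D i), ← natCast_zsmul (D i), Pi.sub_apply, hk i,
        add_smul, sub_smul, mul_smul]
    rw [hsum]
    refine H.add_mem h12 ?_
    rw [hH]
    unfold gkClSub
    exact AddSubgroup.mem_sup_right ⟨∑ i, k i • D i, rfl⟩
  have hprod := gkt_data_prod p S K F z g β D hdata (fun i => ((n1 - n2) i).val) Finset.univ
  exact gk_sha2_trivial_of_mem p S K F hpS hur _ _ _ _ hprod hmem

end Dependent

end Fermat.Agent.S55
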