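/-
S55 / GK layer, SECOND SPEC FILE, now a PURE SHIM over the leaves (the statements are unchanged -
see git history, origin/helper9 57b82be, for the spec text): the finite-level Kummer dictionary for
`S`-fields and U5 = the `[b2]`-inequality `dim Ш²(μ_p) ≤ dim Cl_S(K)/p`.

Language: helper14's tower language (`Global/Defs.lean`, `Global/TowerDefs.lean`: `GlAbove`,
`GlUnramOutside`, `GlMuValued`, `glD0/1`, `glInfl₂`), helper6's localisation (`geLocLG`, `geInv`),
GK (`gkV`, `gkClSub`, S14 `Div`/`divOf`/`placeBelow`).  `S : Finset Nat.Primes`, `p ∈ S` odd,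
`K ⊇ μ_p`; an `S`-field is a finite Galois `F / K` with `GlUnramOutside S K F`.

* `gkT S K`, `GkSha2Data` (`z = d¹g`, `gᵖ = d⁰β`, `ord_w β ≡ D(v) mod p` for `w ∣ v ∉ T`):
  `GK/DefsU5.lean`;
* `GK/KummerSField.lean` (row 300, helper2; REAL, axioms std):
  `gk_mem_gkV_of_pow_eq` (K1: `βᵖ = b`, `β` in an `S`-field ⟹ `b ∈ V_T`),
  `gk_exists_sfield_of_mem_gkV` (K2: `b ∈ V_T` ⟹ `b` is a `p`-th power in some `S`-field),
  `gk_exists_sfield_of_mem_gkV'` (K2', relative form over a given `S`-field);
* `GK/Sha2Data.lean` (row 302, helper28; REAL modulo helper6 `ge_hasse_principle_of_pow`, `geInv_eq_zero_iff`): `GkSha2Data.mul/pow/one` (U5c),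
  `gk_sha2_exists_data` (U5a);
* `GK/Sha2Trivial.lean` (row 303; REAL, axioms std): `gk_sha2_trivial_of_mem` (U5b);
* `GK/Sha2Dependent.lean` (row 303; REAL modulo Sha2Data): `gk_sha2_dependent` (U5d = the final
  form: more than `dim Cl_T/p` locally trivial `μ_p`-valued `2`-cocycles have a non-trivial
  `𝔽_p`-combination which becomes a `μ_p`-valued coboundary in a bigger `S`-field).

The Hasse principle for `p`-primary classes of ANY finite Galois extension is helper6's
`ge_hasse_principle_of_pow` (Global/Recip/HassePrincipleSylowSpec.lean, row 304).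
-/
import Fermat.Agent.S55.GK.DefsU5
import Fermat.Agent.S55.Global.Recip.Defs
import Fermat.Agent.S55.GK.KummerSField
import Fermat.Agent.S55.GK.Sha2Dependent
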