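/-
S55 / GK layer: existence of systems of local embeddings (`Φ : ∀ v, GkEmb K v`), with prescribed
members on an injectively indexed family of places.  Needed by every consumer of the GK theorems
(`gk_exact_annihilator`, `gk_relIndex_delta_eq`, ...), which are stated for an arbitrary system `Φ`.
Helper lemmas are prefixed `gkes_`.
-/
import Fermat.Agent.S55.GK.Defs
import Fermat.Agent.S55.LG.Exists

set_option autoImplicit false

noncomputable section

namespace Fermat.Agent.S55

open NumberField IsDedekindDomain Fermat.Agent.S14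

section EmbSystem

variable {K : Type} [Field K] [NumberField K]

/-- A prime ideal of a ring which contains a positive integer contains a prime number. -/
theorem gkes_exists_prime_of_natCast_mem {R : Type*} [CommRing R] (P : Ideal R) [hP : P.IsPrime] :
    ∀ n : ℕ, 0 < n → ((n : ℕ) : R) ∈ P → ∃ q : ℕ, q.Prime ∧ ((q : ℕ) : R) ∈ P := by
  intro n
  induction n using Nat.strong_induction_on with
  | _ n ih =>
    intro hn hmem
    by_cases h1 : n = 1
    · subst h1
      exfalso
      apply hP.ne_top
      rw [Ideal.eq_top_iff_one]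
      simpa using hmem
    · have hq : (Nat.minFac n).Prime := Nat.minFac_prime h1
      obtain ⟨m, hm⟩ := Nat.minFac_dvd n
      have hm0 : 0 < m := by
        rcases Nat.eq_zero_or_pos m with h0 | h0
        · rw [h0, mul_zero] at hm
          omega
        · exact h0
      have hlt : m < n := by
        have h2 := hq.two_le
        nlinarith
      have hmem' : ((Nat.minFac n : ℕ) : R) * ((m : ℕ) : R) ∈ P := by
        rw [← Nat.cast_mul, ← hm]
        exact hmem
      rcases hP.mem_or_mem hmem' with h | h
      · exact ⟨_, hq, h⟩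
      · exact ih m hlt hm0 h

/-- Every finite place of a number field lies over a rational prime. -/
theorem gkes_exists_prime (v : HeightOneSpectrum (𝓞 K)) :
    ∃ q : ℕ, q.Prime ∧ ((q : ℕ) : 𝓞 K) ∈ v.asIdeal := by
  have h1 : ((Ideal.absNorm v.asIdeal : ℕ) : 𝓞 K) ∈ v.asIdeal := Ideal.absNorm_mem _
  have h0 : Ideal.absNorm v.asIdeal ≠ 0 := by
    intro h
    exact v.ne_bot (Ideal.absNorm_eq_zero_iff.mp h)
  haveI := v.isPrime
  exact gkes_exists_prime_of_natCast_mem v.asIdeal _ (Nat.pos_of_ne_zero h0) h1

/-- Every finite place of a number field has a local embedding datum. -/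
theorem gk_nonempty_gkEmb (v : HeightOneSpectrum (𝓞 K)) : Nonempty (GkEmb K v) := by
  obtain ⟨q, hq, hmem⟩ := gkes_exists_prime v
  haveI : Fact q.Prime := ⟨hq⟩
  obtain ⟨i, hi⟩ := exists_lgEmb (q := q) v hmem
  exact ⟨⟨q, ⟨hq⟩, i, hi⟩⟩

/-- There is a system of local embeddings. -/
theorem gk_exists_system : Nonempty (∀ v : HeightOneSpectrum (𝓞 K), GkEmb K v) :=
  ⟨fun v => (gk_nonempty_gkEmb v).some⟩

/-- A system of local embeddings with PRESCRIBED members on an injectively indexed family of
places (e.g. the places above `S`, indexed by Mackey double cosets). -/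
theorem gk_exists_system_extending {ι : Type*} (pl : ι → HeightOneSpectrum (𝓞 K))
    (hinj : Function.Injective pl) (e : ∀ i, GkEmb K (pl i)) :
    ∃ Φ : ∀ v : HeightOneSpectrum (𝓞 K), GkEmb K v, ∀ i, Φ (pl i) = e i := by
  classical
  refine ⟨fun v => if h : ∃ i, pl i = v then (by
      have hv : pl h.choose = v := h.choose_spec
      exact hv ▸ e h.choose) else (gk_nonempty_gkEmb v).some, fun i => ?_⟩
  have h : ∃ i', pl i' = pl i := ⟨i, rfl⟩
  have hi : h.choose = i := hinj h.choose_spec
  simp only [dif_pos h]
  have key : ∀ (i' : ι) (hi' : i' = i) (hv : pl i' = pl i), (hv ▸ e i' : GkEmb K (pl i)) = e i := by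
    intro i' hi' hv
    subst hi'
    rfl
  exact key _ hi _

/-- The same with the members given by their components `(q, i)`. -/
theorem gk_exists_system_of_emb {ι : Type*} (pl : ι → HeightOneSpectrum (𝓞 K))
    (hinj : Function.Injective pl) (q : ι → ℕ) (hq : ∀ i, Fact (q i).Prime)
    (emb : ∀ i, K →+* PadicAlgCl (q i))
    (hpl : ∀ i, @lgPlace (q i) (hq i) K _ _ (emb i) = pl i) :
    ∃ Φ : ∀ v : HeightOneSpectrum (𝓞 K), GkEmb K v,
      ∀ i, Φ (pl i) = ⟨q i, hq i, emb i, hpl i⟩ :=
  gk_exists_system_extending pl hinj fun i => ⟨q i, hq i, emb i, hpl i⟩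

end EmbSystem

end Fermat.Agent.S55
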