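/-
S55 / GK layer: INDEXED FORMS of the final theorems, for consumers (SB / ASM assembly) whose local
data are an explicit finite family of embeddings `emb i : K →+* PadicAlgCl (q i)` (`i : ι`, e.g.
`ι` = Mackey double cosets) inducing pairwise distinct places which exhaust `T`:
no system `Φ`, no casts.

* `gkiLoc q emb i`          : `Kˣ →* (K_i)ˣ`, `K_i = lgField (q i) (emb i)`;
* `gkDeltaI p q emb T`      : `Δ_T` in indexed form;
* `gki_exact_annihilator` : `x ∈ ∏_i K_iˣ` orthogonal to `V_T` ⟹ `x ≡ loc(a)`, `a ∈ V_T`;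
* `gki_relIndex_deltaI_eq`   : `[Δ_T : Kˣᵖ] = |Cl_T/p|`;
* `gki_isotropic`, `gk_relIndex_pow_gkV_ne_zero`.
Helper lemmas are prefixed `gki_`.
-/
import Fermat.Agent.S55.GK.Final
import Fermat.Agent.S55.GK.EmbSystem

set_option autoImplicit false
set_option linter.unusedSectionVars false

noncomputable section

namespace Fermat.Agent.S55

open NumberField IsDedekindDomain Fermat.Agent.S14

section Pointwise

variable {K : Type} [Field K] [NumberField K] (p : ℕ) [Fact p.Prime] (ζ : K)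
  {v : HeightOneSpectrum (𝓞 K)}

/-- `[K_vˣ : K_vˣᵖ]` as a function of the local datum. -/
def gkiIdx (φ : GkEmb K v) : ℕ :=
  (powMonoidHom p : (lgField φ.q φ.emb)ˣ →* (lgField φ.q φ.emb)ˣ).range.index

/-- the symbol of two global elements as a function of the local datum -/
def gkiSym (φ : GkEmb K v) (a b : Kˣ) : ZMod p :=
  lfSymbol φ.q (lgField φ.q φ.emb) p (lgEmb φ.q φ.emb ζ)
    (Units.map (lgEmb φ.q φ.emb : K →* lgField φ.q φ.emb) a)
    (Units.map (lgEmb φ.q φ.emb : K →* lgField φ.q φ.emb) b)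

/-- "`b` is a local `p`-th power" as a function of the local datum -/
def gkiPow (φ : GkEmb K v) (b : Kˣ) : Prop :=
  ∃ c : (lgField φ.q φ.emb)ˣ, c ^ p = Units.map (lgEmb φ.q φ.emb : K →* lgField φ.q φ.emb) b

variable (Φ : ∀ v : HeightOneSpectrum (𝓞 K), GkEmb K v)

theorem gki_idx_eq (v : HeightOneSpectrum (𝓞 K)) :
    (powMonoidHom p : (gkFld Φ v)ˣ →* (gkFld Φ v)ˣ).range.index = gkiIdx p (Φ v) := rfl

theorem gki_sym_eq (v : HeightOneSpectrum (𝓞 K)) (a b : Kˣ) :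
    gkSym Φ p ζ v a b = gkiSym p ζ (Φ v) a b := rfl

theorem gki_pow_iff (v : HeightOneSpectrum (𝓞 K)) (b : Kˣ) :
    (∃ c : (gkFld Φ v)ˣ, c ^ p = gkLoc Φ v b) ↔ gkiPow p (Φ v) b := Iff.rfl

end Pointwise

section Indexed

variable {K : Type} [Field K] [NumberField K] (p : ℕ) [Fact p.Prime] (ζ : K)
  {ι : Type*} [Fintype ι] (q : ι → ℕ) [hq : ∀ i, Fact (q i).Prime]
  (emb : ∀ i, K →+* PadicAlgCl (q i))

/-- The localisation map `Kˣ →* (K_i)ˣ` of the `i`-th embedding. -/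
def gkiLoc (i : ι) : Kˣ →* (lgField (q i) (emb i))ˣ :=
  Units.map (lgEmb (q i) (emb i) : K →* lgField (q i) (emb i))

@[simp] theorem gkiLoc_coe (i : ι) (a : Kˣ) :
    ((gkiLoc q emb i a : (lgField (q i) (emb i))ˣ) : lgField (q i) (emb i)) =
      lgEmb (q i) (emb i) (a : K) := rfl

/-- `Δ_T` in indexed form: `b ∈ V_T` which is a `p`-th power in every `K_i`. -/
def gkDeltaI (T : Set (HeightOneSpectrum (𝓞 K))) : Subgroup Kˣ :=
  gkV K T p ⊓ ⨅ i, (powMonoidHom p : (lgField (q i) (emb i))ˣ →* (lgField (q i) (emb i))ˣ).range.comap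
    (gkiLoc q emb i)

theorem mem_gkDeltaI_iff {T : Set (HeightOneSpectrum (𝓞 K))} {b : Kˣ} :
    b ∈ gkDeltaI p q emb T ↔ b ∈ gkV K T p ∧
      ∀ i, ∃ c : (lgField (q i) (emb i))ˣ, c ^ p = gkiLoc q emb i b := by
  simp only [gkDeltaI, Subgroup.mem_inf, Subgroup.mem_iInf, Subgroup.mem_comap,
    MonoidHom.mem_range, powMonoidHom_apply]

variable (hinj : Function.Injective fun i => lgPlace (q i) (emb i))
  (T : Finset (HeightOneSpectrum (𝓞 K)))
  (hT : ∀ v : HeightOneSpectrum (𝓞 K), v ∈ T ↔ ∃ i, lgPlace (q i) (emb i) = v)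

include hinj hT

/-- A system of local embeddings restricting to the given family. -/
theorem gki_exists_system :
    ∃ Φ : ∀ v : HeightOneSpectrum (𝓞 K), GkEmb K v,
      ∀ i, Φ (lgPlace (q i) (emb i)) = ⟨q i, hq i, emb i, rfl⟩ :=
  gk_exists_system_of_emb (fun i => lgPlace (q i) (emb i)) hinj q hq emb (fun _ => rfl)

theorem gki_T_eq [DecidableEq (HeightOneSpectrum (𝓞 K))] :
    T = Finset.univ.image fun i => lgPlace (q i) (emb i) := by
  ext v
  rw [hT v, Finset.mem_image]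
  simp

/-- sums over `T` are sums over `ι` -/
theorem gki_sum_eq {M : Type*} [AddCommMonoid M] (F : HeightOneSpectrum (𝓞 K) → M) :
    ∑ v ∈ T, F v = ∑ i, F (lgPlace (q i) (emb i)) := by
  classical
  rw [gki_T_eq q emb hinj T hT, Finset.sum_image (fun i _ j _ h => hinj h)]

theorem gki_prod_eq {M : Type*} [CommMonoid M] (F : HeightOneSpectrum (𝓞 K) → M) :
    ∏ v ∈ T, F v = ∏ i, F (lgPlace (q i) (emb i)) := by
  classical
  rw [gki_T_eq q emb hinj T hT, Finset.prod_image (fun i _ j _ h => hinj h)]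

theorem gki_card_eq : T.card = Fintype.card ι := by
  classical
  rw [gki_T_eq q emb hinj T hT, Finset.card_image_of_injective _ hinj, Finset.card_univ]

/-- `Δ_T` in indexed form is `gkDelta Φ T p` for every system `Φ` extending the family. -/
theorem gki_deltaI_eq (Φ : ∀ v : HeightOneSpectrum (𝓞 K), GkEmb K v)
    (hΦ : ∀ i, Φ (lgPlace (q i) (emb i)) = ⟨q i, hq i, emb i, rfl⟩) :
    gkDeltaI p q emb (T : Set (HeightOneSpectrum (𝓞 K))) =
      gkDelta Φ (T : Set (HeightOneSpectrum (𝓞 K))) p := by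
  ext b
  rw [mem_gkDeltaI_iff, mem_gkDelta_iff]
  refine and_congr_right fun _ => ?_
  constructor
  · intro h v hv
    obtain ⟨i, rfl⟩ := (hT v).mp (Finset.mem_coe.mp hv)
    rw [gki_pow_iff, hΦ i]
    exact h i
  · intro h i
    have h1 := h (lgPlace (q i) (emb i)) (Finset.mem_coe.mpr ((hT _).mpr ⟨i, rfl⟩))
    rw [gki_pow_iff, hΦ i] at h1
    exact h1

variable (hTp : ∀ v : HeightOneSpectrum (𝓞 K), ((p : ℕ) : 𝓞 K) ∈ v.asIdeal → v ∈ T)

include hTp

/-- ISOTROPY, indexed form. -/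
theorem gki_isotropic (hp2 : p ≠ 2) (hζ : IsPrimitiveRoot ζ p) {a b : Kˣ}
    (ha : a ∈ gkV K (T : Set (HeightOneSpectrum (𝓞 K))) p)
    (hb : b ∈ gkV K (T : Set (HeightOneSpectrum (𝓞 K))) p) :
    ∑ i, lfSymbol (q i) (lgField (q i) (emb i)) p (lgEmb (q i) (emb i) ζ)
      (gkiLoc q emb i a) (gkiLoc q emb i b) = 0 := by
  obtain ⟨Φ, hΦ⟩ := gki_exists_system q emb hinj T hT
  have h1 := gk_isotropic Φ p ζ hp2 hζ T hTp ha hb
  rw [gki_sum_eq q emb hinj T hT] at h1
  rw [← h1]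
  refine Finset.sum_congr rfl fun i _ => ?_
  rw [gki_sym_eq, hΦ i]
  rfl

/-- `[Δ_T : Kˣᵖ] = |Cl_T(K)/p|`, indexed form. -/
theorem gki_relIndex_deltaI_eq (hp2 : p ≠ 2) (hζ : IsPrimitiveRoot ζ p) :
    (powMonoidHom p : Kˣ →* Kˣ).range.relIndex
        (gkDeltaI p q emb (T : Set (HeightOneSpectrum (𝓞 K)))) =
      (gkClSub K (T : Set (HeightOneSpectrum (𝓞 K))) p).index := by
  obtain ⟨Φ, hΦ⟩ := gki_exists_system q emb hinj T hT
  rw [gki_deltaI_eq p q emb hinj T hT Φ hΦ]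
  exact gk_relIndex_delta_eq Φ p ζ hp2 hζ T hTp

/-- EXACT ANNIHILATOR (`[b1]`, global part), indexed form. -/
theorem gki_exact_annihilator (hp2 : p ≠ 2) (hζ : IsPrimitiveRoot ζ p)
    (x : ∀ i, (lgField (q i) (emb i))ˣ)
    (hx : ∀ b : Kˣ, b ∈ gkV K (T : Set (HeightOneSpectrum (𝓞 K))) p →
      ∑ i, lfSymbol (q i) (lgField (q i) (emb i)) p (lgEmb (q i) (emb i) ζ)
        (x i) (gkiLoc q emb i b) = 0) :
    ∃ a : Kˣ, a ∈ gkV K (T : Set (HeightOneSpectrum (𝓞 K))) p ∧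
      ∀ i, ∃ c : (lgField (q i) (emb i))ˣ, gkiLoc q emb i a = x i * c ^ p := by
  classical
  obtain ⟨Φ, hΦ⟩ := gki_exists_system q emb hinj T hT
  set TS : Set (HeightOneSpectrum (𝓞 K)) := (T : Set (HeightOneSpectrum (𝓞 K))) with hTS
  have hp : p.Prime := Fact.out
  have hζloc : ∀ i, IsPrimitiveRoot (lgEmb (q i) (emb i) ζ) p := fun i =>
    hζ.map_of_injective (lgEmb_injective (q i) (emb i))
  set n : ℕ := Units.rank K + 1 + T.card with hn
  obtain ⟨-, hidxΦ⟩ := gkfin_core Φ p ζ hp2 hζ T hTp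
  -- the cardinality hypothesis
  have hcard : ∏ i, (powMonoidHom p :
      (lgField (q i) (emb i))ˣ →* (lgField (q i) (emb i))ˣ).range.index = p ^ (2 * n) := by
    have h1 := gk_prod_index_pow_loc Φ p hζ T hTp
    rw [gki_prod_eq q emb hinj T hT] at h1
    have h2 : ∀ i, (powMonoidHom p : (gkFld Φ (lgPlace (q i) (emb i)))ˣ →*
        (gkFld Φ (lgPlace (q i) (emb i)))ˣ).range.index =
        (powMonoidHom p : (lgField (q i) (emb i))ˣ →* (lgField (q i) (emb i))ˣ).range.index := by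
      intro i
      rw [gki_idx_eq, hΦ i]
      rfl
    rw [Finset.prod_congr rfl (fun i _ => h2 i)] at h1
    rw [h1]
    congr 1
    have := gk_two_mul_rank_add_one K p hp2 hζ
    rw [hn]
    omega
  -- the subgroup `N`
  have hNeq : (gkDeltaI p q emb TS).subgroupOf (gkV K TS p) =
      (gkDelta Φ TS p).subgroupOf (gkV K TS p) := by
    rw [gki_deltaI_eq p q emb hinj T hT Φ hΦ]
  have habs := gk_exact_annihilator_abstract p (ι := ι)
    (G := fun i => (lgField (q i) (emb i))ˣ) (A := gkV K TS p)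
    (fun i => lfSymbol (q i) (lgField (q i) (emb i)) p (lgEmb (q i) (emb i) ζ))
    (fun i x x' y => lfSymbol_mul_left _ _ p _ (hζloc i) x x' y)
    (fun i x y y' => lfSymbol_mul_right _ _ p _ (hζloc i) x y y')
    (fun i x hx => lfSymbol_nondegenerate_left _ _ p _ (hζloc i) x hx)
    (fun i y hy => lfSymbol_nondegenerate_right _ _ p _ (hζloc i) y hy)
    n hcard (fun i => (gkiLoc q emb i).comp (gkV K TS p).subtype)
    (fun a b => gki_isotropic p ζ q emb hinj T hT hTp hp2 hζ a.2 b.2)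
    ((gkDeltaI p q emb TS).subgroupOf (gkV K TS p))
    (by
      intro a
      rw [Subgroup.mem_subgroupOf, mem_gkDeltaI_iff]
      constructor
      · intro ha i
        exact ha.2 i
      · intro ha
        exact ⟨a.2, ha⟩)
    (by rw [hNeq, hidxΦ])
  obtain ⟨a, ha⟩ := habs.1 x (fun b => hx b.1 b.2)
  exact ⟨a.1, a.2, ha⟩

omit hinj hT hTp in
/-- `V_T / Kˣᵖ` is finite. -/
theorem gk_relIndex_pow_gkV_ne_zero {ζ : K} (hζ : IsPrimitiveRoot ζ p)
    (T : Finset (HeightOneSpectrum (𝓞 K))) :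
    (powMonoidHom p : Kˣ →* Kˣ).range.relIndex
      (gkV K (T : Set (HeightOneSpectrum (𝓞 K))) p) ≠ 0 := by
  rw [gk_relIndex_pow_gkV K p hζ T]
  exact mul_ne_zero (pow_ne_zero _ (Fact.out : p.Prime).ne_zero) (gkClSub_index_ne_zero K p _)

end Indexed

end Fermat.Agent.S55
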